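import Fermat.Agent.Ribet.CurveCriterion.TwoPowerCoefficient

/-!
# Reduction of `A x ^ n + B y ^ n + C z ^ n = 0` with arbitrary coefficients

Common prime factors of the three terms go into the coefficients or out of `x, y, z`. When one
variable of a primitive solution is even and `n` is large against the coefficients, what remains
has coprime terms with one divisible by sixteen, and keeps every other prime of `x y z`.
-/

set_option autoImplicit false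

noncomputable section

namespace FA.CurveCriterion

/-- A number supported on `S` times an `n`-th power. -/
def IsSTerm (S : Finset ℕ) (n : ℕ) (t : ℤ) : Prop :=
  ∃ c w : ℤ, t = c * w ^ n ∧ ∀ r : ℕ, r.Prime → (r : ℤ) ∣ c → r ∈ S

variable {S : Finset ℕ} {n : ℕ}

/-- Removing a prime factor from a term. -/
theorem IsSTerm.exists_div (hn : n ≠ 0) {t : ℤ} {r : ℕ} (hr : r.Prime)
    (ht : IsSTerm S n t) (hd : (r : ℤ) ∣ t) :
    ∃ t' : ℤ, t = (if r ∈ S then (r : ℤ) else (r : ℤ) ^ n) * t' ∧ IsSTerm S n t' := by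
  obtain ⟨c, w, rfl, hs⟩ := ht
  have hri := Nat.prime_iff_prime_int.mp hr
  split_ifs with hrS
  · by_cases hrc : (r : ℤ) ∣ c
    · obtain ⟨c', rfl⟩ := hrc
      exact ⟨c' * w ^ n, by ring, c', w, rfl, fun q hq hqd => hs q hq (hqd.mul_left _)⟩
    · obtain ⟨w', rfl⟩ : (r : ℤ) ∣ w := hri.dvd_of_dvd_pow ((hri.dvd_or_dvd hd).resolve_left hrc)
      obtain ⟨m, rfl⟩ := Nat.exists_eq_add_one_of_ne_zero hn
      refine ⟨c * (r : ℤ) ^ m * w' ^ (m + 1), by ring, c * (r : ℤ) ^ m, w', rfl,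
        fun q hq hqd => ?_⟩
      rcases (Nat.prime_iff_prime_int.mp hq).dvd_or_dvd hqd with h | h
      · exact hs q hq h
      · exact (Nat.prime_dvd_prime_iff_eq hq hr).mp
          (Int.natCast_dvd_natCast.mp ((Nat.prime_iff_prime_int.mp hq).dvd_of_dvd_pow h)) ▸ hrS
  · obtain ⟨w', rfl⟩ : (r : ℤ) ∣ w :=
      hri.dvd_of_dvd_pow ((hri.dvd_or_dvd hd).resolve_left fun h => hrS (hs r hr h))
    exact ⟨c * w' ^ n, by ring, c, w', rfl, hs⟩

/-- **The reduction**: three terms with sum zero are coprime ones times a common factor. -/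
theorem exists_coprime_sTerms (hn : n ≠ 0) {t₁ t₂ t₃ : ℤ}
    (h₁ : IsSTerm S n t₁) (h₂ : IsSTerm S n t₂) (h₃ : IsSTerm S n t₃)
    (h0 : t₁ ≠ 0) (hsum : t₁ + t₂ + t₃ = 0) :
    ∃ k u₁ u₂ u₃ : ℤ, t₁ = k * u₁ ∧ t₂ = k * u₂ ∧ t₃ = k * u₃ ∧ IsSTerm S n u₁ ∧
      IsSTerm S n u₂ ∧ IsSTerm S n u₃ ∧ IsCoprime u₁ u₂ ∧ u₁ + u₂ + u₃ = 0 := by
  induction hN : t₁.natAbs using Nat.strong_induction_on generalizing t₁ t₂ t₃ with
  | _ N ih =>
    by_cases hcom : ∃ r : ℕ, r.Prime ∧ (r : ℤ) ∣ t₁ ∧ (r : ℤ) ∣ t₂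
    · obtain ⟨r, hr, d1, d2⟩ := hcom
      have d3 : (r : ℤ) ∣ t₃ := by
        rw [show t₃ = -(t₁ + t₂) by linarith]
        exact (d1.add d2).neg_right
      obtain ⟨u₁, e1, g1⟩ := h₁.exists_div hn hr d1
      obtain ⟨u₂, e2, g2⟩ := h₂.exists_div hn hr d2
      obtain ⟨u₃, e3, g3⟩ := h₃.exists_div hn hr d3
      set k : ℤ := if r ∈ S then (r : ℤ) else (r : ℤ) ^ n with hk
      clear_value k
      have hk2 : 2 ≤ k.natAbs := by
        rw [hk]
        split_ifs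
        · simpa using hr.two_le
        · simpa [Int.natAbs_pow] using hr.two_le.trans (Nat.le_self_pow hn r)
      subst e1 e2 e3
      obtain ⟨j, v₁, v₂, v₃, a1, a2, a3, a4⟩ := ih u₁.natAbs (by
          rw [← hN, Int.natAbs_mul]
          exact lt_mul_of_one_lt_left (Int.natAbs_pos.mpr (right_ne_zero_of_mul h0)) hk2)
          g1 g2 g3 (right_ne_zero_of_mul h0)
          ((mul_eq_zero.mp (show k * (u₁ + u₂ + u₃) = 0 by linear_combination hsum)).resolve_left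
            (left_ne_zero_of_mul h0)) rfl
      exact ⟨k * j, v₁, v₂, v₃, by rw [a1]; ring, by rw [a2]; ring, by rw [a3]; ring, a4⟩
    · refine ⟨1, t₁, t₂, t₃, (one_mul _).symm, (one_mul _).symm, (one_mul _).symm, h₁, h₂, h₃, ?_,
        hsum⟩
      rw [Int.isCoprime_iff_nat_coprime]
      exact Nat.coprime_of_dvd fun r hr a b =>
        hcom ⟨r, hr, Int.natCast_dvd.mpr a, Int.natCast_dvd.mpr b⟩

/-- `2 ^ i` dividing a coefficient times an odd power is below that coefficient. -/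
theorem lt_natAbs_of_two_pow_dvd {i : ℕ} {A x : ℤ} (hA : A ≠ 0) (hx : Odd x)
    (h : (2 : ℤ) ^ i ∣ A * x ^ n) : i < A.natAbs := by
  obtain ⟨t, ht⟩ := hx
  have hco : IsCoprime ((2 : ℤ) ^ i) (x ^ n) := by
    rw [ht]
    exact (show IsCoprime (2 : ℤ) (2 * t + 1) from ⟨-t, 1, by ring⟩).pow
  have := Nat.le_of_dvd (Int.natAbs_pos.mpr hA) (Int.natAbs_dvd_natAbs.mpr
    (hco.dvd_of_dvd_mul_right h))
  rw [Int.natAbs_pow] at this
  exact lt_of_lt_of_le i.lt_two_pow_self this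

/-- **An even variable**: if in coprime equations with sixteen dividing a term the prime `l` divides
no variable, then it divides none in a primitive solution with `z` even. -/
theorem not_dvd_of_even_var {A B C x y z : ℤ} {l : ℕ} (hl : l.Prime) (hl2 : l ≠ 2) (hlS : l ∉ S)
    (hn : A.natAbs + B.natAbs + 4 ≤ n)
    (hsupp : ∀ r : ℕ, r.Prime → (r : ℤ) ∣ A * B * C → r ∈ S) (hne : A * B * C ≠ 0)
    (hxyz : x * y * z ≠ 0) (heq : A * x ^ n + B * y ^ n + C * z ^ n = 0)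
    (hprim : ∀ r : ℕ, r.Prime → ¬ ((r : ℤ) ∣ x ∧ (r : ℤ) ∣ y ∧ (r : ℤ) ∣ z)) (hz : Even z)
    (hbase : ∀ A' B' C' x' y' z' : ℤ, A' * B' * C' ≠ 0 → x' * y' * z' ≠ 0 →
      (∀ r : ℕ, r.Prime → (r : ℤ) ∣ A' * B' * C' → r = 2 ∨ r ∈ S) →
      IsCoprime (A' * x' ^ n) (B' * y' ^ n) → (16 : ℤ) ∣ C' * z' ^ n →
      A' * x' ^ n + B' * y' ^ n + C' * z' ^ n = 0 → ¬ (l : ℤ) ∣ x' * y' * z') :
    ¬ (l : ℤ) ∣ x * y * z := by
  intro hlx
  have hn0 : n ≠ 0 := by omega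
  have hterm : ∀ {M w : ℤ}, M ∣ A * B * C → IsSTerm S n (M * w ^ n) := fun hd =>
    ⟨_, _, rfl, fun r hr h => hsupp r hr (h.trans hd)⟩
  have hp := Nat.prime_iff_prime_int.mp hl
  have hlABC : ¬ (l : ℤ) ∣ A * B * C := fun h => hlS (hsupp l hl h)
  simp only [mul_ne_zero_iff] at hne hxyz
  have n1 := mul_ne_zero hne.1.1 (pow_ne_zero n hxyz.1.1)
  have n2 := mul_ne_zero hne.1.2 (pow_ne_zero n hxyz.1.2)
  have n3 := mul_ne_zero hne.2 (pow_ne_zero n hxyz.2)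
  obtain ⟨k, u₁, u₂, u₃, e1, e2, e3, g1, g2, g3, hco, hsum⟩ :=
    exists_coprime_sTerms hn0 (hterm ((dvd_mul_right A B).mul_right C) (w := x))
      (hterm ((dvd_mul_left B A).mul_right C) (w := y))
      (hterm (dvd_mul_left C (A * B)) (w := z)) n1 heq
  rw [e1] at n1; rw [e2] at n2; rw [e3] at n3
  obtain ⟨i, o, ho, rfl⟩ := exists_two_pow_mul_odd (left_ne_zero_of_mul n1)
  have h2z : (2 : ℤ) ∣ z := even_iff_two_dvd.mp hz
  have hi : i + 4 ≤ n := by
    rcases Int.even_or_odd x with hx | hx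
    · have hy : Odd y := Int.not_even_iff_odd.mp fun hy => hprim 2 Nat.prime_two
        ⟨by exact_mod_cast even_iff_two_dvd.mp hx, by exact_mod_cast even_iff_two_dvd.mp hy,
          by exact_mod_cast h2z⟩
      have := lt_natAbs_of_two_pow_dvd hne.1.2 hy (n := n)
        (by rw [e2, mul_assoc]; exact dvd_mul_right _ _)
      omega
    · have := lt_natAbs_of_two_pow_dvd hne.1.1 hx (n := n)
        (by rw [e1, mul_assoc]; exact dvd_mul_right _ _)
      omega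
  have h16 : (16 : ℤ) ∣ u₃ := by
    have h : (2 : ℤ) ^ (i + 4) ∣ 2 ^ i * o * u₃ :=
      ((pow_dvd_pow 2 hi).trans (pow_dvd_pow_of_dvd h2z n)).trans (e3 ▸ dvd_mul_left _ C)
    rw [pow_add, mul_assoc, mul_dvd_mul_iff_left (pow_ne_zero _ two_ne_zero)] at h
    obtain ⟨t, ht⟩ := ho
    exact (show IsCoprime (2 : ℤ) (2 * t + 1) from ⟨-t, 1, by ring⟩).pow_left (m := 4)
      |>.dvd_of_dvd_mul_left (by rw [← ht]; exact h)
  have hlk : ¬ (l : ℤ) ∣ 2 ^ i * o := fun h => by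
    have key : ∀ {M w : ℤ}, M ∣ A * B * C → (l : ℤ) ∣ M * w ^ n → (l : ℤ) ∣ w := fun hd hm =>
      hp.dvd_of_dvd_pow ((hp.dvd_or_dvd hm).resolve_left fun e => hlABC (e.trans hd))
    exact hprim l hl ⟨key ((dvd_mul_right A B).mul_right C) (e1 ▸ h.mul_right u₁),
      key ((dvd_mul_left B A).mul_right C) (e2 ▸ h.mul_right u₂),
      key (dvd_mul_left C (A * B)) (e3 ▸ h.mul_right u₃)⟩
  have hd : (l : ℤ) ∣ u₁ * u₂ * u₃ := by
    have h : (l : ℤ) ∣ (2 ^ i * o) ^ 3 * (u₁ * u₂ * u₃) := by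
      rw [show (2 ^ i * o) ^ 3 * (u₁ * u₂ * u₃) =
        (2 ^ i * o * u₁) * (2 ^ i * o * u₂) * (2 ^ i * o * u₃) by ring, ← e1, ← e2, ← e3,
        show A * x ^ n * (B * y ^ n) * (C * z ^ n) = A * B * C * (x * y * z) ^ n by ring]
      exact (dvd_pow hlx hn0).mul_left _
    exact (hp.dvd_or_dvd h).resolve_left fun e => hlk (hp.dvd_of_dvd_pow e)
  have m1 := right_ne_zero_of_mul n1
  have m2 := right_ne_zero_of_mul n2
  have m3 := right_ne_zero_of_mul n3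
  obtain ⟨A', x', rfl, hA⟩ := g1
  obtain ⟨B', y', rfl, hB⟩ := g2
  obtain ⟨C', z', rfl, hC⟩ := g3
  have hnz : ∀ {u : ℤ}, u ^ n ≠ 0 → u ≠ 0 := fun h e => h (by rw [e, zero_pow hn0])
  have hs : ∀ r : ℕ, r.Prime → (r : ℤ) ∣ A' * B' * C' → r = 2 ∨ r ∈ S := fun r hr hd => by
    rcases (Nat.prime_iff_prime_int.mp hr).dvd_or_dvd hd with h | h
    · exact Or.inr (((Nat.prime_iff_prime_int.mp hr).dvd_or_dvd h).elim (hA r hr) (hB r hr))
    · exact Or.inr (hC r hr h)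
  refine hbase A' B' C' x' y' z' (mul_ne_zero (mul_ne_zero (left_ne_zero_of_mul m1)
    (left_ne_zero_of_mul m2)) (left_ne_zero_of_mul m3))
    (mul_ne_zero (mul_ne_zero (hnz (right_ne_zero_of_mul m1)) (hnz (right_ne_zero_of_mul m2)))
      (hnz (right_ne_zero_of_mul m3))) hs hco h16 hsum ?_
  have hd' : (l : ℤ) ∣ A' * B' * C' * (x' * y' * z') ^ n := by
    rw [show A' * B' * C' * (x' * y' * z') ^ n =
      A' * x' ^ n * (B' * y' ^ n) * (C' * z' ^ n) by ring]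
    exact hd
  exact hp.dvd_of_dvd_pow ((hp.dvd_or_dvd hd').resolve_left fun e =>
    (hs l hl e).elim hl2 hlS)

/-- An odd number to a power divisible by `2 ^ N` is one modulo `2 ^ (N + 1)`. -/
theorem two_pow_dvd_odd_pow_sub_one {t : ℤ} (ht : Odd t) {N m : ℕ} (h : 2 ^ N ∣ m) :
    (2 : ℤ) ^ (N + 1) ∣ t ^ m - 1 := by
  have key : (2 : ℤ) ^ (N + 1) ∣ t ^ 2 ^ N - 1 := by
    induction N generalizing m with
    | zero => simpa using even_iff_two_dvd.mp (ht.sub_odd odd_one)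
    | succ k ih =>
      obtain ⟨e, he⟩ := even_iff_two_dvd.mp ((ht.pow (n := 2 ^ k)).add_odd odd_one)
      obtain ⟨f, hf⟩ := ih dvd_rfl
      refine ⟨f * e, ?_⟩
      rw [pow_succ 2 k, pow_mul,
        show (t ^ 2 ^ k) ^ 2 - 1 = (t ^ 2 ^ k - 1) * (t ^ 2 ^ k + 1) by ring,
        he, hf]
      ring
  obtain ⟨j, rfl⟩ := h
  rw [pow_mul]
  have := sub_dvd_pow_sub_pow (t ^ 2 ^ N) 1 j
  rw [one_pow] at this
  exact key.trans this

end FA.CurveCriterion

end
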