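import Fermat.Agent.Ribet.CurveCriterion.ExactPrimes

/-!
# Sophie Germain's auxiliary prime on the congruent curve

Let `p` be large and `l = 2 p + 1` prime. If `l` divided `x y z` in a solution of
`A x ^ n + B y ^ n + C z ^ n = 0` with coprime terms, `p ∣ n`, then the congruent curve would be
good at `l` with `a_l ≡ ± 2 (mod p)`, so `a_l = ± 2`, but four divides `l + 1 - a_l`.
-/

set_option autoImplicit false
set_option linter.style.haveILetI false

noncomputable section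

open WeierstrassCurve FA.RT FA.RT.Tate FA.Frob

namespace FA.CurveCriterion

/-- `a = ± 2` is impossible: an integer within Hasse's bound at `l = 2 p + 1` with `4 ∣ l + 1 - a`
is not `± (l + 1)` modulo `p`. -/
theorem not_dvd_germain {p l : ℕ} (hp : 13 ≤ p) (hodd : Odd p) (hl : l = 2 * p + 1) {a : ℤ}
    (ha : a ^ 2 ≤ 4 * (l : ℤ)) (h4 : (4 : ℤ) ∣ (l : ℤ) + 1 - a) :
    ¬ ((p : ℤ) ∣ a - ((l : ℤ) + 1) ∨ (p : ℤ) ∣ a + ((l : ℤ) + 1)) := by
  subst hl
  push_cast at ha h4 ⊢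
  have hP : (13 : ℤ) ≤ p := by exact_mod_cast hp
  have hlt : -((p : ℤ) - 2) < a ∧ a < (p : ℤ) - 2 := by constructor <;> nlinarith
  obtain ⟨j, hj⟩ := hodd
  rintro (⟨t, ht⟩ | ⟨t, ht⟩)
  · have h1 : (p : ℤ) * (t + 2) = a - 2 := by linear_combination -ht
    have : t + 2 = 0 := by
      rcases lt_trichotomy (t + 2) 0 with h | h | h
      · nlinarith
      · exact h
      · nlinarith
    rw [this, mul_zero] at h1
    omega
  · have h1 : (p : ℤ) * (t - 2) = a + 2 := by linear_combination -ht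
    have : t - 2 = 0 := by
      rcases lt_trichotomy (t - 2) 0 with h | h | h
      · nlinarith
      · exact h
      · nlinarith
    rw [this, mul_zero] at h1
    omega

/-- **The auxiliary prime divides no variable.** -/
theorem exists_bound_germain {S : Finset ℕ} (hS : ∀ q ∈ S, q.Prime) :
    ∃ C₀ : ℕ, ∀ n p : ℕ, p.Prime → C₀ < p → (2 * p + 1).Prime → p ∣ n → n ≠ 0 →
      ∀ A B C x y z : ℤ, A * B * C ≠ 0 → x * y * z ≠ 0 →
      (∀ r : ℕ, r.Prime → (r : ℤ) ∣ A * B * C → r = 2 ∨ r ∈ S) →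
      IsCoprime (A * x ^ n) (B * y ^ n) → (16 : ℤ) ∣ C * z ^ n →
      A * x ^ n + B * y ^ n + C * z ^ n = 0 → ¬ ((2 * p + 1 : ℕ) : ℤ) ∣ x * y * z := by
  have hM : 2 * ∏ q ∈ S, q ≠ 0 :=
    mul_ne_zero two_ne_zero (Finset.prod_ne_zero_iff.mpr fun q hq => (hS q hq).ne_zero)
  obtain ⟨C₀, hC⟩ := exists_bound_curve_congr hM (fun l => {t : ℤ | (4 : ℤ) ∣ (l : ℤ) + 1 - t})
  refine ⟨max C₀ (max 13 (2 * ∏ q ∈ S, q)),
    fun n p hp hpC hl hpn hn A B C x y z hne hxyz hs hcop h16 heq hlx => ?_⟩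
  simp only [max_lt_iff] at hpC
  set l := 2 * p + 1 with hldef
  have hlM : ¬ l ∣ 2 * ∏ q ∈ S, q := fun h => by
    have := Nat.le_of_dvd (Nat.pos_of_ne_zero hM) h
    omega
  have hsM : ∀ r : ℕ, r.Prime → (r : ℤ) ∣ A * B * C → r ∣ 2 * ∏ q ∈ S, q := fun r hr hd => by
    rcases hs r hr hd with rfl | h
    exacts [dvd_mul_right 2 _, (Finset.dvd_prod_of_mem _ h).mul_left 2]
  obtain ⟨W, hΔ, hW, hd, hdiv, hT⟩ :=
    exists_fermatCurve_discr hp hpn (dvd_mul_right 2 _) hne hxyz hsM hcop h16 heq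
  obtain ⟨V, hVΔ, -, hV, hcong⟩ := hC p hp hpC.1 W hΔ hW hdiv hT
  have hbad : (l : ℤ) ∣ W.Δ := by
    have hdvd : (l : ℤ) ∣ 256 * W.Δ := by
      rw [hd]
      exact dvd_pow ((dvd_pow hlx hn).mul_left _) two_ne_zero
    refine ((Nat.prime_iff_prime_int.mp hl).dvd_or_dvd hdvd).resolve_left fun h => ?_
    have := (Nat.prime_dvd_prime_iff_eq hl Nat.prime_two).mp
      (hl.dvd_of_dvd_pow (n := 8) (by exact_mod_cast h))
    omega
  obtain ⟨hgood, h4⟩ := hV l hl hlM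
  haveI := Fact.mk hp
  haveI := ratCurve_isElliptic_of_Δ hΔ
  haveI := ratCurve_isElliptic_of_Δ hVΔ
  refine not_dvd_germain (by omega) (hp.odd_of_ne_two (by omega)) hldef
    (FA.Ribet.apOfModel_sq_le hl hgood) h4 ?_
  exact dvd_of_multiplicative hl (by omega) hgood hbad (hW l hl hbad)
    fun σ => ⟨(hcong σ).1.symm, (hcong σ).2.symm⟩

end FA.CurveCriterion

end
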