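import Mathlib

/-!
# Two terms: `A x ^ n + B y ^ n = 0` for a large even exponent
-/

set_option autoImplicit false

noncomputable section

namespace FA.CurveCriterion

/-- For even `n` with `|A|, |B| < 2 ^ n` two terms cancel only if `A + B = 0` and `|x| = |y|`. -/
theorem binary_powers {A B x y : ℤ} {n : ℕ} (he : Even n) (hA : A ≠ 0) (hB : B ≠ 0)
    (hAn : A.natAbs < 2 ^ n) (hBn : B.natAbs < 2 ^ n) (hxy : x ≠ 0 ∨ y ≠ 0)
    (h : A * x ^ n + B * y ^ n = 0) : A + B = 0 ∧ x ≠ 0 ∧ x.natAbs = y.natAbs := by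
  rcases eq_or_ne n 0 with rfl | hn
  · simp only [pow_zero] at hAn
    exact absurd (Int.natAbs_eq_zero.mp (by omega)) hA
  have hx : x ≠ 0 := fun e => by
    rw [e, zero_pow hn, mul_zero, zero_add] at h
    exact hxy.elim (· e) fun hy => mul_ne_zero hB (pow_ne_zero n hy) h
  obtain ⟨x', y', hco, hxg, hyg⟩ :=
    Int.exists_gcd_one (m := x) (n := y) (Int.gcd_pos_of_ne_zero_left _ hx)
  generalize (Int.gcd x y : ℤ) = g at hxg hyg
  subst hxg hyg
  rw [← Int.isCoprime_iff_gcd_eq_one] at hco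
  have h' : A * x' ^ n + B * y' ^ n = 0 := (mul_eq_zero.mp
    (show g ^ n * (A * x' ^ n + B * y' ^ n) = 0 by linear_combination h)).resolve_left
      (pow_ne_zero n (right_ne_zero_of_mul hx))
  have hone : ∀ {M t : ℤ}, M ≠ 0 → M.natAbs < 2 ^ n → t ^ n ∣ M → t.natAbs = 1 := by
    intro M t hM hlt hd
    have hle := Nat.le_of_dvd (Int.natAbs_pos.mpr hM) (Int.natAbs_dvd_natAbs.mpr hd)
    rw [Int.natAbs_pow] at hle
    rcases Nat.lt_or_ge t.natAbs 2 with h2 | h2
    · rcases Nat.eq_zero_or_pos t.natAbs with h0 | h0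
      · rw [Int.natAbs_eq_zero.mp h0, zero_pow hn, zero_dvd_iff] at hd
        exact absurd hd hM
      · omega
    · exact absurd ((Nat.pow_le_pow_left h2 n).trans hle) (not_le.mpr hlt)
  have e1 := hone hB hBn ((hco.pow (m := n) (n := n)).dvd_of_dvd_mul_right
    ⟨-A, by linear_combination h'⟩)
  have e2 := hone hA hAn ((hco.symm.pow (m := n) (n := n)).dvd_of_dvd_mul_right
    ⟨-B, by linear_combination h'⟩)
  have hp : ∀ {t : ℤ}, t.natAbs = 1 → t ^ n = 1 := fun ht => by
    rcases Int.natAbs_eq_iff.mp ht with rfl | rfl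
    · exact one_pow n
    · exact he.neg_one_pow
  rw [hp e1, hp e2, mul_one, mul_one] at h'
  exact ⟨h', hx, by rw [Int.natAbs_mul, Int.natAbs_mul, e1, e2]⟩

end FA.CurveCriterion

end
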