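import Fermat.Agent.Ribet.CurveCriterion.SUnitCriterion
import Fermat.Agent.Torsion.ReductionDvd

/-!
# Congruence families for the criterion

When all primes of `S` are `1` modulo one odd prime `ℓ`, a difference of two odd `S`-numbers is
divisible by `ℓ` and so no `S ∪ {2}`-number; when their classes modulo sixteen lie in a group
without `-1`, no sum of two is divisible by sixteen. So there is no triple, and no semistable curve
good outside `S ∪ {2}` with four dividing its torsion.
-/

set_option autoImplicit false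
set_option linter.style.haveILetI false

noncomputable section

open WeierstrassCurve FA.Frob

namespace FA.CurveCriterion

/-- Products of primes in classes closed under multiplication. -/
theorem mod_mem_of_prime_mem {N : ℕ} {T : Finset ℕ} (h1 : 1 % N ∈ T)
    (hmul : ∀ a ∈ T, ∀ b ∈ T, a * b % N ∈ T) {n : ℕ} (hn : n ≠ 0)
    (h : ∀ p : ℕ, p.Prime → p ∣ n → p % N ∈ T) : n % N ∈ T := by
  induction n using Nat.recOnMul with
  | zero => exact absurd rfl hn
  | one => exact h1
  | prime p hp => exact h p hp dvd_rfl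
  | mul a b iha ihb =>
    obtain ⟨ha, hb⟩ := mul_ne_zero_iff.mp hn
    rw [Nat.mul_mod]
    exact hmul _ (iha ha fun p hp hd => h p hp (hd.mul_right b)) _
      (ihb hb fun p hp hd => h p hp (hd.mul_left a))

/-- **The congruence family.** -/
theorem noSUnitTriple_congruences {S : Finset ℕ} {ℓ : ℕ} (hℓ : ℓ.Prime) (hℓ2 : ℓ ≠ 2)
    (h1 : ∀ q ∈ S, q % ℓ = 1)
    (h16 : (∀ q ∈ S, q % 4 = 1) ∨ (∀ q ∈ S, q % 8 = 1 ∨ q % 8 = 3) ∨
      ∀ q ∈ S, q % 16 = 1 ∨ q % 16 = 7) : NoSUnitTriple S := by
  intro x y z hne h hx hy _ hz hs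
  have hmem : ∀ t : ℤ, Odd t → t ∣ x * y * z → ∀ (N : ℕ) (T : Finset ℕ), 1 % N ∈ T →
      (∀ a ∈ T, ∀ b ∈ T, a * b % N ∈ T) → (∀ q ∈ S, q % N ∈ T) → t.natAbs % N ∈ T := by
    intro t ht htd N T e1 e2 hST
    refine mod_mem_of_prime_mem e1 e2 (by obtain ⟨k, rfl⟩ := ht; omega) fun p hp hpt => hST p <|
      (hs p hp ((Int.natCast_dvd.mpr hpt).trans htd)).resolve_left fun e => ?_
    subst e
    exact Int.not_even_iff_odd.mpr ht (Int.natAbs_even.mp (even_iff_two_dvd.mpr hpt))
  have hdx : x ∣ x * y * z := (dvd_mul_right x y).mul_right z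
  have hdy : y ∣ x * y * z := (dvd_mul_left y x).mul_right z
  have hone : ∀ t : ℤ, Odd t → t ∣ x * y * z → (ℓ : ℤ) ∣ (t.natAbs : ℤ) - 1 := fun t ht hd => by
    have h1' := hmem t ht hd ℓ {1} (by rw [Nat.one_mod_eq_one.mpr hℓ.ne_one]; simp)
      (by simp [Nat.one_mod_eq_one.mpr hℓ.ne_one]) (fun q hq => by simp [h1 q hq])
    rw [Finset.mem_singleton] at h1'
    exact Nat.modEq_iff_dvd.mp (show 1 % ℓ = t.natAbs % ℓ by
      rw [h1', Nat.one_mod_eq_one.mpr hℓ.ne_one])
  have hsum : ¬ 16 ∣ x.natAbs + y.natAbs := by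
    rcases h16 with h' | h' | h'
    · have e1 := hmem x hx hdx 4 {1} (by decide) (by decide) fun q hq => by simp [h' q hq]
      have e2 := hmem y hy hdy 4 {1} (by decide) (by decide) fun q hq => by simp [h' q hq]
      simp only [Finset.mem_singleton] at e1 e2
      omega
    · have e1 := hmem x hx hdx 8 {1, 3} (by decide) (by decide) fun q hq => by simpa using h' q hq
      have e2 := hmem y hy hdy 8 {1, 3} (by decide) (by decide) fun q hq => by simpa using h' q hq
      simp only [Finset.mem_insert, Finset.mem_singleton] at e1 e2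
      omega
    · have e1 := hmem x hx hdx 16 {1, 7} (by decide) (by decide) fun q hq => by simpa using h' q hq
      have e2 := hmem y hy hdy 16 {1, 7} (by decide) (by decide) fun q hq => by simpa using h' q hq
      simp only [Finset.mem_insert, Finset.mem_singleton] at e1 e2
      omega
  have hdz : (ℓ : ℤ) ∣ z := by
    have hd := (hone x hx hdx).sub (hone y hy hdy)
    rw [sub_sub_sub_cancel_right] at hd
    rcases Int.natAbs_eq x with ex | ex <;> rcases Int.natAbs_eq y with ey | ey
    · exact absurd (by omega) hsum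
    · rw [show z = -((x.natAbs : ℤ) - y.natAbs) by omega]
      exact hd.neg_right
    · rw [show z = (x.natAbs : ℤ) - y.natAbs by omega]
      exact hd
    · exact absurd (by omega) hsum
  rcases hs ℓ hℓ (hdz.mul_left _) with e | e
  · exact hℓ2 e
  · have := h1 ℓ e
    rw [Nat.mod_self] at this
    omega

/-- **No torsion divisible by four** without a triple. -/
theorem not_four_dvd_torsion {S : Finset ℕ} (hS : ∀ q ∈ S, q.Prime) (hrel : NoSUnitTriple S)
    {V : WeierstrassCurve ℤ} (hΔ : V.Δ ≠ 0) (hV : V.IsSemistableModel)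
    (hgood : ∀ l : ℕ, l.Prime → l ≠ 2 → l ∉ S → V.IsGoodPrimeFor l) :
    ¬ 4 ∣ Nat.card (AddCommGroup.torsion (ratCurve V).toAffine.Point) := fun h4 => by
  haveI := ratCurve_isElliptic_of_Δ hΔ
  have hmem : ∀ l : ℕ, ¬ l ∣ 2 * ∏ q ∈ S, q → l ≠ 2 ∧ l ∉ S := fun l hd =>
    ⟨fun e => hd (by subst e; exact dvd_mul_right _ _),
      fun e => hd ((Finset.dvd_prod_of_mem _ e).mul_left 2)⟩
  refine not_four_dvd_traces_of_noTriple hS hrel hΔ hV
    (fun l hl hd => hgood l hl (hmem l hd).1 (hmem l hd).2) fun l hl hd => ?_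
  obtain ⟨hl2, hlS⟩ := hmem l hd
  haveI := Fact.mk hl
  obtain ⟨-, hdvd⟩ := FA.Torsion.natCard_torsion_dvd_of_three_le l V
    (by have := hl.two_le; omega) (hgood l hl hl2 hlS)
  have := Int.natCast_dvd_natCast.mpr (h4.trans hdvd)
  rw [show (Nat.card (V.map (Int.castRingHom (ZMod l))).toAffine.Point : ℤ) =
    (l : ℤ) + 1 - V.apOfModel l from FA.Ribet.natCard_reduction] at this
  exact_mod_cast this

end FA.CurveCriterion

end
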