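import Fermat.Agent.Ribet.SerreTrace
import Fermat.Agent.GoodReduction.Congruence
import Fermat.Agent.Root.SummaryInertiaTraces

/-!
# A curve congruent to a semistable one

If the traces of an elliptic curve agree modulo a prime `p ≥ 5` at almost all primes with those of a
semistable equation, then inertia at every `q ≠ p` has trace `2` on its `p`-torsion, so the curve
is semistable at `q`; and if it is multiplicative at `q` where the semistable one is good, the
trace of the latter is `± (q + 1)` modulo `p`.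
-/

set_option autoImplicit false
set_option linter.style.haveILetI false
set_option linter.unusedSectionVars false

noncomputable section

open Matrix WeierstrassCurve WeierstrassCurve.Affine FA.EC FA.Frob FA.RT FA.RT.Tate
open scoped WeierstrassCurve.Affine

local notation "Qb" => AlgebraicClosure ℚ
local notation "GQ" => AlgebraicClosure ℚ ≃ₐ[ℚ] AlgebraicClosure ℚ

namespace FA.CurveCriterion

variable {p : ℕ} [hp : Fact p.Prime] {W V : WeierstrassCurve ℤ}
  [(ratCurve W).IsElliptic] [(ratCurve V).IsElliptic]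

/-- Traces congruent at almost all primes give equal traces and determinants of all of Galois. -/
theorem trace_det_eq (S : Finset ℕ)
    (h : ∀ l : ℕ, l.Prime → l ∉ S → W.IsGoodPrimeFor l → V.IsGoodPrimeFor l → l ≠ p →
      (p : ℤ) ∣ W.apOfModel l - V.apOfModel l) (σ : GQ) :
    (curveRep p W σ).trace = (curveRep p V σ).trace ∧
      (curveRep p W σ).det = (curveRep p V σ).det :=
  FA.Density.trace_det_eq_of_frobenius (curveRep p W) (curveRep p V)
    (isOpen_ker_curveRep W) (isOpen_ker_curveRep V)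
    (insert p (S ∪ W.Δ.natAbs.primeFactors ∪ V.Δ.natAbs.primeFactors))
    (fun l hl hlS B hB τ hτ => by
      simp only [Finset.mem_insert, Finset.mem_union, Nat.mem_primeFactors, not_or] at hlS
      obtain ⟨hlp, ⟨hS, hWl⟩, hVl⟩ := hlS
      have hWg : W.IsGoodPrimeFor l := fun h => hWl ⟨hl, Int.natCast_dvd.mp h,
        Int.natAbs_ne_zero.mpr FA.GoodReduction.Δ_ne_zero_of_isElliptic⟩
      have hVg : V.IsGoodPrimeFor l := fun h => hVl ⟨hl, Int.natCast_dvd.mp h,
        Int.natAbs_ne_zero.mpr FA.GoodReduction.Δ_ne_zero_of_isElliptic⟩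
      obtain ⟨t1, d1⟩ := FA.Ribet.curveRep_frobenius (p := p) hl hlp hWg hB hτ
      obtain ⟨t2, d2⟩ := FA.Ribet.curveRep_frobenius (p := p) hl hlp hVg hB hτ
      refine ⟨?_, d1.trans d2.symm⟩
      rw [t1, t2, ← sub_eq_zero, ← Int.cast_sub, ZMod.intCast_zmod_eq_zero_iff_dvd]
      exact h l hl hS hWg hVg hlp) σ

/-- Cayley and Hamilton in size two over a field. -/
theorem mul_self_add_det {k : Type*} [Field k] (M : Matrix (Fin 2) (Fin 2) k) :
    M * M + M.det • (1 : Matrix (Fin 2) (Fin 2) k) = M.trace • M := by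
  ext i j
  fin_cases i <;> fin_cases j <;>
    simp [Matrix.mul_apply, Fin.sum_univ_two, Matrix.trace_fin_two, Matrix.det_fin_two] <;> ring

/-- Inertia at `q ≠ p` has trace two and determinant one on a semistable curve. -/
theorem inertia_trace_det (hW : W.IsSemistableModel) {q : ℕ} (hq : q.Prime) (hqp : q ≠ p)
    {A : ValuationSubring Qb} (hA : A.LiesOverPrime q) {σ : GQ}
    (hσ : σ ∈ A.inertiaSubgroupIn ℚ) :
    (curveRep p W σ).trace = 2 ∧ (curveRep p W σ).det = 1 := by
  have hu : (curveRep p W σ - 1) * (curveRep p W σ - 1) = 0 := by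
    by_cases hd : (q : ℤ) ∣ W.Δ
    · exact curveRep_unipotent W FA.GoodReduction.Δ_ne_zero_of_isElliptic hW hq hqp hd hA hσ
    · obtain ⟨B⟩ := exists_tateBasis (p := p) (W := W)
      rw [FA.Ribet.curveRep_eq_map B, B.rep_inertia_good hq hA hqp hd hσ, Matrix.map_one _
        (map_zero _) (map_one _), sub_self, mul_zero]
  have ht := FA.GoodReduction.trace_eq_two hu
  refine ⟨ht, ?_⟩
  have h := mul_self_add_det (curveRep p W σ)
  have h1 : ((curveRep p W σ).det - 1) • (1 : Matrix (Fin 2) (Fin 2) (ZMod p)) = 0 := by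
    have e : (curveRep p W σ - 1) * (curveRep p W σ - 1) = curveRep p W σ * curveRep p W σ +
        (1 : Matrix (Fin 2) (Fin 2) (ZMod p)) - (2 : ZMod p) • curveRep p W σ := by
      rw [two_smul]; noncomm_ring
    rw [hu, ← ht, ← h] at e
    rw [sub_smul, one_smul, ← neg_eq_zero, e]
    abel
  simpa [sub_eq_zero] using (smul_eq_zero.mp h1).resolve_right one_ne_zero

/-- **Semistability from a congruence**: a curve with the residual traces of a semistable one is
semistable at every `q ≠ p`, for `p ≥ 5`. -/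
theorem semistableAt_of_congr (h5 : 5 ≤ p) (hW : W.IsSemistableModel) (E : WeierstrassCurve ℚ)
    [E.IsElliptic] (hV : V.IsIntegralModelOf E)
    (hcong : ∀ σ : GQ, (curveRep p W σ).trace = (curveRep p V σ).trace ∧
      (curveRep p W σ).det = (curveRep p V σ).det)
    {q : ℕ} [Fact q.Prime] (hqp : q ≠ p) :
    ∃ C : VariableChange ℚ_[q], HasGoodReduction ℤ_[q] (C • E.map (algebraMap ℚ ℚ_[q])) ∨
      HasMultiplicativeReduction ℤ_[q] (C • E.map (algebraMap ℚ ℚ_[q])) := by
  have hq : q.Prime := Fact.out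
  rw [FA.Summary.semistableAt_iff_trace_two E]
  intro A hA σ hσ
  obtain ⟨t, ht2, ht⟩ := FA.Summary.inertia_trace_independent E hA hσ
  suffices t = 2 by subst this; exact ht
  obtain ⟨h1, h2⟩ := inertia_trace_det (p := p) hW hq hqp hA hσ
  obtain ⟨e1, e2⟩ := hcong σ
  rw [e1] at h1
  rw [e2] at h2
  obtain ⟨e, he⟩ := FA.Root.exists_equiv_of_model hV
  have hpq : ¬ q ∣ p := fun h => hqp ((Nat.prime_dvd_prime_iff_eq hq hp.out).mp h)
  have hM : curveRep p V σ * curveRep p V σ + 1 = (t : ZMod p) • curveRep p V σ := by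
    refine Matrix.ext_of_mulVec_single fun i => ?_
    obtain ⟨x, hx⟩ := (torsBasis (p := p) V).equivFun.surjective
      (Pi.single i 1 : Fin 2 → ZMod p)
    have hxp : p • x.1 = 0 := by
      have h := x.2
      rwa [Submodule.mem_torsionBy_iff, natCast_zsmul] at h
    have hx' : σ • (σ • x) + x = t • (σ • x) := Subtype.ext (e.injective (by
      show e (σ • (σ • x.1) + x.1) = e (t • (σ • x.1))
      rw [map_add, map_zsmul, he, he]
      exact ht p hpq _ (by rw [← map_nsmul, hxp, map_zero])))
    rw [← hx, add_mulVec, one_mulVec, ← mulVec_mulVec, smul_mulVec, toMatrix_mulVec,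
      toMatrix_mulVec, ← map_add, hx', map_zsmul, Int.cast_smul_eq_zsmul]
  have h := mul_self_add_det (curveRep p V σ)
  rw [h1, h2, one_smul, hM, ← sub_eq_zero, ← sub_smul, smul_eq_zero] at h
  have h0 : curveRep p V σ ≠ 0 := fun h0 => by simp [h0] at h2
  have hd : (p : ℤ) ∣ t - 2 := by
    rw [← ZMod.intCast_zmod_eq_zero_iff_dvd]
    push_cast
    exact h.resolve_right h0
  obtain ⟨hlo, hhi⟩ := abs_le.mp ht2
  by_contra hne
  have := Nat.le_of_dvd (by omega) (Int.natCast_dvd.mp hd)
  omega

/-- **A multiplicative prime of the congruent curve**: there the trace of the good curve is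
`± (q + 1)` modulo `p`. -/
theorem dvd_of_multiplicative {q : ℕ} (hq : q.Prime) (hqp : q ≠ p) (hgood : W.IsGoodPrimeFor q)
    (hbad : (q : ℤ) ∣ V.Δ) (hc : ¬ (q : ℤ) ∣ V.c₄)
    (hcong : ∀ σ : GQ, (curveRep p W σ).trace = (curveRep p V σ).trace ∧
      (curveRep p W σ).det = (curveRep p V σ).det) :
    (p : ℤ) ∣ W.apOfModel q - ((q : ℤ) + 1) ∨ (p : ℤ) ∣ W.apOfModel q + ((q : ℤ) + 1) := by
  obtain ⟨A, hA⟩ := FA.Deform.exists_liesOverPrime hq
  obtain ⟨σ, hσ⟩ := FA.Deform.exists_isFrobeniusAt hq hA
  obtain ⟨B⟩ := exists_tateBasis (p := p) (W := V)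
  have hm : MultAt V q A := ⟨FA.GoodReduction.Δ_ne_zero_of_isElliptic, hq, hbad, hc, hA⟩
  have h := (hcong σ).1
  rw [(FA.Ribet.curveRep_frobenius hq hqp hgood hA hσ).1, FA.Ribet.curveRep_eq_map B,
    ← AddMonoidHom.map_trace, FA.GoodReduction.trace_frobenius_mult_all B hm hqp hσ, map_mul,
    map_intCast, map_add, map_natCast, map_one] at h
  have key : (p : ℤ) ∣ W.apOfModel q - FA.Root.splitSign V q * ((q : ℤ) + 1) := by
    rw [← ZMod.intCast_zmod_eq_zero_iff_dvd]
    push_cast
    rw [h, sub_self]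
  unfold FA.Root.splitSign at key
  split_ifs at key
  · left; simpa using key
  · right; rwa [neg_one_mul, sub_neg_eq_add] at key

end FA.CurveCriterion

end
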