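import Fermat.Agent.Ribet.CurveCriterion.TwoTorsion

/-!
# No two-torsion with bad primes among `2` and a prime `3, 5 (mod 8)`

A semistable equation with a root of the two-division cubic has parameters `a² - 64 d = g`. When
`d g` is supported on `2` and `q ≡ 3, 5 (mod 8)` and `q` does not divide both, this is a square next
to a power of two times a power of `q`, or two squares differing by a power of two: impossible.
-/

set_option autoImplicit false
set_option linter.style.haveILetI false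

noncomputable section

open WeierstrassCurve

namespace FA.CurveCriterion

variable {q : ℕ}

/-- The powers of `q` modulo eight. -/
theorem pow_mod_eight (h8 : q % 8 = 3 ∨ q % 8 = 5) (m : ℕ) :
    (Even m ∧ q ^ m % 8 = 1) ∨ (Odd m ∧ q ^ m % 8 = q % 8) := by
  induction m with
  | zero => simp
  | succ k ih =>
    rw [pow_succ, Nat.mul_mod]
    rcases ih with ⟨he, h⟩ | ⟨ho, h⟩ <;> rw [h]
    · exact Or.inr ⟨he.add_one, by omega⟩
    · exact Or.inl ⟨ho.add_one, by rcases h8 with h' | h' <;> rw [h']⟩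

/-- No power of `q ≡ 3, 5 (mod 8)` is next to a power of two from sixteen on. -/
theorem pow_ne_two_pow_eight (h8 : q % 8 = 3 ∨ q % 8 = 5) (b : ℕ) {k : ℕ} (hk : 4 ≤ k) :
    q ^ b ≠ 2 ^ k + 1 ∧ q ^ b + 1 ≠ 2 ^ k := by
  obtain ⟨c, hc⟩ : 8 ∣ 2 ^ k :=
    (show 8 = 2 ^ 3 by norm_num) ▸ pow_dvd_pow 2 (show 3 ≤ k by omega)
  rcases pow_mod_eight h8 b with ⟨⟨m, rfl⟩, h⟩ | ⟨-, h⟩
  swap
  · omega
  refine ⟨fun e => ?_, by omega⟩
  obtain ⟨t, ht⟩ : ∃ t, q ^ m = 2 * t + 1 :=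
    ((Nat.odd_iff.mpr (by omega) : Odd q).pow)
  rw [pow_add, ht] at e
  have e' : 4 * (t * (t + 1)) = 2 ^ k := by linarith
  obtain ⟨i, -, hi⟩ := (Nat.dvd_prime_pow Nat.prime_two).mp
    (show t ∣ 2 ^ k from ⟨4 * (t + 1), by linarith⟩)
  obtain ⟨j, -, hj⟩ := (Nat.dvd_prime_pow Nat.prime_two).mp
    (show t + 1 ∣ 2 ^ k from ⟨4 * t, by linarith⟩)
  rcases Nat.eq_zero_or_pos i with rfl | hi0
  · rw [pow_zero] at hi
    subst hi
    rw [show 4 * (1 * (1 + 1)) = 2 ^ 3 by norm_num] at e'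
    have := Nat.pow_right_injective le_rfl e'
    omega
  · rcases Nat.eq_zero_or_pos j with rfl | hj0
    · rw [pow_zero] at hj
      rw [show t = 0 by omega] at e'
      have := Nat.two_pow_pos k
      omega
    · have h1 : 2 ∣ 2 ^ i := dvd_pow_self 2 hi0.ne'
      have h2 : 2 ∣ 2 ^ j := dvd_pow_self 2 hj0.ne'
      omega

/-- Two odd numbers whose squares differ by a power of two. -/
theorem eq_of_sq_sub_sq {P Q k : ℕ} (hP : Odd P) (hQ : Odd Q) (h : P ^ 2 = Q ^ 2 + 2 ^ k) :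
    ∃ j, Q + 1 = 2 ^ j ∧ P = 2 ^ j + 1 ∧ k = j + 2 := by
  have hlt : Q < P := (Nat.pow_lt_pow_iff_left two_ne_zero).mp
    (h ▸ Nat.lt_add_of_pos_right (Nat.two_pow_pos k))
  have hm : (P + Q) * (P - Q) = 2 ^ k := by
    rw [← Nat.sq_sub_sq, h, Nat.add_sub_cancel_left]
  obtain ⟨i, -, hi⟩ := (Nat.dvd_prime_pow Nat.prime_two).mp (Dvd.intro_left _ hm)
  obtain ⟨j, -, hj⟩ := (Nat.dvd_prime_pow Nat.prime_two).mp (Dvd.intro _ hm)
  obtain ⟨u, rfl⟩ := hP
  obtain ⟨v, rfl⟩ := hQ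
  rcases i with _ | _ | i
  · rw [pow_zero] at hi; omega
  · rcases j with _ | j
    · rw [pow_zero] at hj; omega
    · rw [pow_succ] at hi hj
      refine ⟨j, by omega, by omega, ?_⟩
      rw [hi, hj] at hm
      exact (Nat.pow_right_injective le_rfl (by rw [← hm]; ring : 2 ^ (j + 2) = 2 ^ k)).symm
  · rcases j with _ | _ | j
    · rw [pow_zero] at hj; omega
    all_goals simp only [pow_succ] at hi hj; omega

/-- The equation `a² - 64 d = g`. -/
theorem shape_false (hq : q.Prime) (h8 : q % 8 = 3 ∨ q % 8 = 5) {a d g : ℤ} (ha : Odd a)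
    (hd0 : d ≠ 0) (hg0 : g ≠ 0) (h : a ^ 2 - 64 * d = g)
    (hd : ∀ r : ℕ, r.Prime → (r : ℤ) ∣ d → r = 2 ∨ r = q)
    (hg : ∀ r : ℕ, r.Prime → (r : ℤ) ∣ g → r = 2 ∨ r = q)
    (hco : ¬ ((q : ℤ) ∣ d ∧ (q : ℤ) ∣ g)) : False := by
  have ha8 : a ^ 2 % 8 = 1 := by
    obtain ⟨t, rfl⟩ := ha
    obtain ⟨s, hs⟩ := Int.even_mul_succ_self t
    rw [show (2 * t + 1) ^ 2 = 4 * (t * (t + 1)) + 1 by ring, hs]
    omega
  obtain ⟨m, hm⟩ := FA.SetzerNeumann.exists_natAbs_eq_pow hg0 fun r hr hrg =>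
    (hg r hr hrg).resolve_left fun e => by
      subst e
      have : (2 : ℤ) ∣ g := hrg
      omega
  rcases pow_mod_eight h8 m with ⟨⟨m', rfl⟩, hm8⟩ | ⟨-, hm8⟩
  swap
  · omega
  have hgpos : g = ((q ^ (m' + m') : ℕ) : ℤ) := by omega
  rcases Nat.eq_zero_or_pos m' with rfl | hm'
  · -- `a² - 1 = 64 d`
    simp only [add_zero, pow_zero, Nat.cast_one] at hgpos
    obtain ⟨t, ht⟩ : Odd a.natAbs := Int.natAbs_odd.mpr ha
    have he : t * (t + 1) = 16 * d.natAbs := by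
      have h' : (64 * d).natAbs + 1 = a.natAbs ^ 2 := by
        have hsq : ((a.natAbs ^ 2 : ℕ) : ℤ) = a ^ 2 := by push_cast; exact sq_abs a
        have : 0 < a ^ 2 := by omega
        omega
      rw [Int.natAbs_mul, ht] at h'
      simp only [show (64 : ℤ).natAbs = 64 from rfl] at h'
      linarith
    have ht0 : t ≠ 0 := fun e => hd0 (Int.natAbs_eq_zero.mp (by rw [e] at he; omega))
    have hsupp : ∀ r : ℕ, r.Prime → r ∣ t * (t + 1) → r = 2 ∨ r = q := fun r hr hrt => by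
      rcases hr.dvd_mul.mp (he ▸ hrt) with h' | h'
      · exact Or.inl ((Nat.prime_dvd_prime_iff_eq hr Nat.prime_two).mp
          (hr.dvd_of_dvd_pow (n := 4) h'))
      · exact hd r hr (Int.natCast_dvd.mpr h')
    rcases Nat.even_or_odd t with hte | hto
    · obtain ⟨r, hr⟩ : ∃ r, t + 1 = q ^ r := ⟨_, Nat.eq_prime_pow_of_unique_prime_dvd (by omega)
        fun {p} hp hpt => (hsupp p hp (hpt.mul_left t)).resolve_left fun e => by
          subst e
          exact Nat.not_even_iff_odd.mpr hte.add_one (even_iff_two_dvd.mpr hpt)⟩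
      have hr0 : r ≠ 0 := fun e => ht0 (by rw [e, pow_zero] at hr; omega)
      obtain ⟨u, hu⟩ : ∃ u, t = 2 ^ u := ⟨_, Nat.eq_prime_pow_of_unique_prime_dvd ht0
        fun {p} hp hpt => (hsupp p hp (hpt.mul_right _)).resolve_right fun e => by
          subst e
          exact hp.not_dvd_one ((Nat.dvd_add_right hpt).mp (hr ▸ dvd_pow_self p hr0))⟩
      have h16 : 16 ∣ t := (show Nat.Coprime 16 (t + 1) from (Nat.Coprime.pow_left 4
        (Nat.coprime_two_left.mpr hte.add_one) : Nat.Coprime (2 ^ 4) (t + 1))).dvd_of_dvd_mul_right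
          (he ▸ dvd_mul_right 16 _)
      rw [hu, show (16 : ℕ) = 2 ^ 4 by norm_num, Nat.pow_dvd_pow_iff_le_right one_lt_two] at h16
      exact (pow_ne_two_pow_eight h8 r h16).1 (by omega)
    · obtain ⟨r, hr⟩ : ∃ r, t = q ^ r := ⟨_, Nat.eq_prime_pow_of_unique_prime_dvd ht0
        fun {p} hp hpt => (hsupp p hp (hpt.mul_right _)).resolve_left fun e => by
          subst e
          exact Nat.not_even_iff_odd.mpr hto (even_iff_two_dvd.mpr hpt)⟩
      have h16 : 16 ∣ t + 1 := (show Nat.Coprime 16 t from (Nat.Coprime.pow_left 4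
        (Nat.coprime_two_left.mpr hto) : Nat.Coprime (2 ^ 4) t)).dvd_of_dvd_mul_left
          (he ▸ dvd_mul_right 16 _)
      have hr0 : r ≠ 0 := fun e => by rw [e, pow_zero] at hr; omega
      obtain ⟨u, hu⟩ : ∃ u, t + 1 = 2 ^ u := ⟨_, Nat.eq_prime_pow_of_unique_prime_dvd (by omega)
        fun {p} hp hpt => (hsupp p hp (hpt.mul_left t)).resolve_right fun e => by
          subst e
          exact hp.not_dvd_one ((Nat.dvd_add_right (hr ▸ dvd_pow_self p hr0)).mp hpt)⟩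
      rw [hu, show (16 : ℕ) = 2 ^ 4 by norm_num, Nat.pow_dvd_pow_iff_le_right one_lt_two] at h16
      exact (pow_ne_two_pow_eight h8 r h16).2 (by omega)
  · -- `a² - Q² = 64 d`, `d` a power of two
    have hqg : (q : ℤ) ∣ g := hgpos ▸ Int.natCast_dvd_natCast.mpr (dvd_pow_self q (by omega))
    obtain ⟨i, hi⟩ := FA.SetzerNeumann.exists_natAbs_eq_pow (p := 2) hd0 fun r hr hrd =>
      (hd r hr hrd).resolve_right fun e => hco ⟨e ▸ hrd, hqg⟩
    have hQ : Odd (q ^ m') := (Nat.odd_iff.mpr (by omega) : Odd q).pow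
    have hsq : ((a.natAbs ^ 2 : ℕ) : ℤ) = a ^ 2 := by push_cast; exact sq_abs a
    have hpow : 2 ^ (i + 6) = 64 * d.natAbs := by rw [pow_add, hi]; ring
    rw [pow_add, ← sq] at hgpos
    rcases lt_or_gt_of_ne hd0 with hneg | hpos
    · obtain ⟨j, -, hj, hk⟩ := eq_of_sq_sub_sq hQ (Int.natAbs_odd.mpr ha)
        (show (q ^ m') ^ 2 = a.natAbs ^ 2 + 2 ^ (i + 6) by omega)
      exact (pow_ne_two_pow_eight h8 m' (by omega : 4 ≤ j)).1 hj
    · obtain ⟨j, hj, -, hk⟩ := eq_of_sq_sub_sq (Int.natAbs_odd.mpr ha) hQ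
        (show a.natAbs ^ 2 = (q ^ m') ^ 2 + 2 ^ (i + 6) by omega)
      exact (pow_ne_two_pow_eight h8 m' (by omega : 4 ≤ j)).2 hj

/-- **No semistable curve with bad primes in `{2, q}` has reducible two-torsion.** -/
theorem not_reducible_two (hq : q.Prime) (h8 : q % 8 = 3 ∨ q % 8 = 5) {V : WeierstrassCurve ℤ}
    (hΔ : V.Δ ≠ 0) (hV : V.IsSemistableModel)
    (hgood : ∀ l : ℕ, l.Prime → ¬ l ∣ 2 * q → V.IsGoodPrimeFor l) : V.ModRepIsIrreducible 2 := by
  by_contra hred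
  obtain ⟨x, hx⟩ := FA.SetzerNeumann.exists_root_of_reducible_two hΔ hred
  obtain ⟨X, -, hX⟩ := FA.SetzerNeumann.exists_int_root hx
  obtain ⟨A, B, -, -, hc, hD⟩ := FA.SetzerNeumann.exists_shift hX
  obtain ⟨a, d, g, ha, hg, hcase⟩ := FA.SetzerNeumann.two_shapes hV hc hD
  have hdiv : d ∣ V.Δ ∧ g ∣ V.Δ := by
    rcases hcase with ⟨e, -⟩ | ⟨e, -⟩ <;> rw [e]
    · exact ⟨(dvd_pow_self d two_ne_zero).mul_right g, dvd_mul_left g _⟩
    · exact ⟨dvd_mul_left d _, (dvd_pow_self g two_ne_zero).mul_right d⟩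
  have hsupp : ∀ r : ℕ, r.Prime → (r : ℤ) ∣ V.Δ → r = 2 ∨ r = q := fun r hr hrΔ => by
    by_contra! hne
    exact hgood r hr (fun h' => (hr.dvd_mul.mp h').elim
      (fun e => hne.1 ((Nat.prime_dvd_prime_iff_eq hr Nat.prime_two).mp e))
      fun e => hne.2 ((Nat.prime_dvd_prime_iff_eq hr hq).mp e)) hrΔ
  refine shape_false hq h8 ha (fun e => hΔ (zero_dvd_iff.mp (e ▸ hdiv.1)))
    (fun e => hΔ (zero_dvd_iff.mp (e ▸ hdiv.2))) hg (fun r hr h => hsupp r hr (h.trans hdiv.1))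
    (fun r hr h => hsupp r hr (h.trans hdiv.2)) fun ⟨hqd, hqg⟩ => ?_
  have hqa : (q : ℤ) ∣ a := (Nat.prime_iff_prime_int.mp hq).dvd_of_dvd_pow (n := 2)
    (by rw [show a ^ 2 = g + 64 * d by linarith]; exact hqg.add (hqd.mul_left 64))
  refine hV q hq (hqd.trans hdiv.1) ?_
  rcases hcase with ⟨-, e, -⟩ | ⟨-, e, -⟩ <;> rw [e]
  · exact (dvd_pow hqa two_ne_zero).sub (hqd.mul_left 48)
  · exact ((dvd_pow hqa two_ne_zero).mul_left 4).sub (hqg.mul_left 3)

end FA.CurveCriterion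

end
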