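import Fermat.Agent.Ribet.CurveCriterion.SUnitCriterion
import Fermat.Agent.Ribet.CurveCriterion.TwoPoint
import Fermat.Agent.Ribet.SignatureCurves

/-!
# The converse of the criterion, and one prime

A triple `x + y + z = 0` with `16 ∣ z` supported on `S ∪ {2}` gives a semistable Frey curve good
outside `S ∪ {2}` with four dividing all `l + 1 - a_l`. For one odd prime `q` a triple exists only
when `q` is `2 ^ k + 1` or `2 ^ k - 1` with `k ≥ 4`: no higher power of `q` is next to one of two.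
-/

set_option autoImplicit false
set_option linter.style.haveILetI false

noncomputable section

open WeierstrassCurve

namespace FA.CurveCriterion

/-- The curve of a triple. -/
theorem exists_curve_of_triple {S : Finset ℕ} {x y z : ℤ} (hne : x * y * z ≠ 0)
    (h : x + y + z = 0) (hco : IsCoprime x y) (h16 : (16 : ℤ) ∣ z)
    (hs : ∀ r : ℕ, r.Prime → (r : ℤ) ∣ x * y * z → r = 2 ∨ r ∈ S) :
    ∃ V : WeierstrassCurve ℤ, V.Δ ≠ 0 ∧ V.IsSemistableModel ∧
      ∀ l : ℕ, l.Prime → l ≠ 2 → l ∉ S →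
        V.IsGoodPrimeFor l ∧ (4 : ℤ) ∣ (l : ℤ) + 1 - V.apOfModel l := by
  obtain ⟨A, B, hA, hB, -, hcop, hne', hsq⟩ := FA.Ribet.exists_frey h hco h16 hne
  refine ⟨FA.Ribet.curve A B, FA.Ribet.curve_Δ_ne_zero hA hB hne',
    FA.Ribet.curve_semistable hA hB hcop, fun l hl hl2 hlS => ?_⟩
  have hgood : (FA.Ribet.curve A B).IsGoodPrimeFor l := fun hd => by
    have h' : (l : ℤ) ∣ (x * y * z) ^ 2 := by
      rw [← hsq, ← FA.Ribet.curve_Δ hA hB]
      exact hd.mul_left _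
    exact (hs l hl ((Nat.prime_iff_prime_int.mp hl).dvd_of_dvd_pow h')).elim hl2 hlS
  exact ⟨hgood, FA.Ribet.four_dvd_apOfModel_curve hA hB hl hl2 hgood⟩

/-- No power above the first of an odd number is next to a power of two from sixteen on. -/
theorem eq_one_of_pow_eq_two_pow {q b a : ℕ} (hq : Odd q) (hb : b ≠ 0) (ha : 4 ≤ a)
    (h : q ^ b = 2 ^ a + 1 ∨ q ^ b + 1 = 2 ^ a) : b = 1 := by
  have h16 : 16 ∣ 2 ^ a := (show 16 = 2 ^ 4 by norm_num) ▸ pow_dvd_pow 2 ha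
  obtain ⟨m, rfl | rfl⟩ := Nat.even_or_odd' b
  · exfalso
    have hQ : Odd (q ^ m) := hq.pow
    rw [mul_comm, pow_mul] at h
    rcases h with h | h
    · obtain ⟨j, hj, -, hk⟩ := eq_of_sq_sub_sq (Q := 1) (k := a) hQ odd_one (by rw [h]; ring)
      obtain rfl : j = 1 := Nat.pow_right_injective le_rfl (hj.symm.trans (pow_one 2).symm)
      omega
    · obtain ⟨t, ht⟩ := hQ
      rw [ht, show (2 * t + 1) ^ 2 = 4 * (t * t + t) + 1 by ring] at h
      omega
  · by_contra hm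
    have h3 : 3 ≤ 2 * m + 1 := by omega
    have hq3 : 3 ≤ q := by
      by_contra! hlt
      obtain rfl : q = 1 := by obtain ⟨t, rfl⟩ := hq; omega
      simp at h
      omega
    -- `Q = ± q` makes both cases `Q ^ b - 1 = ± 2 ^ a`
    obtain ⟨Q, hQ, hQb⟩ : ∃ Q : ℤ, Q.natAbs = q ∧ (Q ^ (2 * m + 1) - 1).natAbs = 2 ^ a := by
      rcases h with h | h
      · refine ⟨q, Int.natAbs_natCast q, ?_⟩
        rw [← Nat.cast_pow, h]
        push_cast
        rw [add_sub_cancel_right, Int.natAbs_pow]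
        rfl
      · refine ⟨-q, by simp, ?_⟩
        rw [Odd.neg_pow (odd_two_mul_add_one m), ← Nat.cast_pow, ← Int.natAbs_neg,
          show -(-((q ^ (2 * m + 1) : ℕ) : ℤ) - 1) = ((q ^ (2 * m + 1) + 1 : ℕ) : ℤ) by
            push_cast; ring, Int.natAbs_natCast, h]
    have hgs := geom_sum_mul Q (2 * m + 1)
    set G := ∑ i ∈ Finset.range (2 * m + 1), Q ^ i
    have hGodd : Odd G.natAbs := by
      rw [Int.natAbs_odd, ← Int.not_even_iff_odd, even_iff_two_dvd,
        show (2 : ℤ) = ((2 : ℕ) : ℤ) from rfl, ← ZMod.intCast_zmod_eq_zero_iff_dvd]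
      have hQ1 : ((Q : ℤ) : ZMod 2) = 1 := by
        have hQodd : Odd Q := Int.natAbs_odd.mp (hQ ▸ hq)
        obtain ⟨t, rfl⟩ := hQodd
        push_cast
        rw [show (2 : ZMod 2) = 0 from rfl]
        ring
      push_cast [G]
      rw [hQ1]
      simp [show (2 : ZMod 2) = 0 from rfl]
    have hmul : G.natAbs * (Q - 1).natAbs = 2 ^ a := by rw [← Int.natAbs_mul, hgs, hQb]
    obtain ⟨i, -, hi⟩ := (Nat.dvd_prime_pow Nat.prime_two).mp (Dvd.intro _ hmul)
    obtain rfl : i = 0 := by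
      by_contra hi0
      rw [hi] at hGodd
      exact Nat.not_even_iff_odd.mpr hGodd (even_iff_two_dvd.mpr (dvd_pow_self 2 hi0))
    rw [hi, pow_zero, one_mul] at hmul
    have hle : q ^ 3 ≤ q ^ (2 * m + 1) := Nat.pow_le_pow_right (by omega) h3
    have hle' : 9 * q ≤ q ^ 3 := by nlinarith [Nat.mul_le_mul hq3 hq3]
    omega

/-- **One prime**: no triple with `2 ^ j ∣ z` unless `q` is `2 ^ k ± 1` with `k ≥ j`, for
`j ≥ 4`. -/
theorem noTriple_single_pow {q : ℕ} (hq : q.Prime) (hq2 : q ≠ 2) {j : ℕ} (hj : 4 ≤ j)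
    (hne : ∀ k : ℕ, j ≤ k → q ≠ 2 ^ k + 1 ∧ q + 1 ≠ 2 ^ k) {x y z : ℤ} (hne' : x * y * z ≠ 0)
    (h : x + y + z = 0) (hx : Odd x) (hy : Odd y) (hco : IsCoprime x y) (hjz : (2 : ℤ) ^ j ∣ z)
    (hs : ∀ r : ℕ, r.Prime → (r : ℤ) ∣ x * y * z → r = 2 ∨ r ∈ ({q} : Finset ℕ)) : False := by
  simp only [Finset.mem_singleton] at hs
  have h16 : (16 : ℤ) ∣ z :=
    ((show (16 : ℤ) = 2 ^ 4 by norm_num) ▸ pow_dvd_pow 2 hj).trans hjz
  have odd_pow : ∀ t : ℤ, Odd t → t ∣ x * y * z → ∃ b, t.natAbs = q ^ b := fun t ht hd =>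
    FA.SetzerNeumann.exists_natAbs_eq_pow (fun e => by subst e; exact absurd ht (by decide))
      fun r hr hrt => (hs r hr (hrt.trans hd)).resolve_left fun e => by
        subst e
        exact Int.not_even_iff_odd.mpr ht (even_iff_two_dvd.mpr hrt)
  obtain ⟨b, hb⟩ := odd_pow x hx ((dvd_mul_right x y).mul_right z)
  obtain ⟨c, hc⟩ := odd_pow y hy ((dvd_mul_left y x).mul_right z)
  have hz0 : z ≠ 0 := right_ne_zero_of_mul hne'
  have key : ∀ {u v : ℤ} {n : ℕ}, u.natAbs = q ^ n → n ≠ 0 → v.natAbs = 1 → u + v + z = 0 →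
      False := by
    intro u v n hu hn hv huv
    have hqu : (q : ℤ) ∣ u := Int.natCast_dvd.mpr (hu ▸ dvd_pow_self q hn)
    have hqz : ¬ (q : ℤ) ∣ z := fun hd => hq.not_dvd_one (hv ▸ Int.natCast_dvd.mp
      (by rw [show v = -(u + z) by linarith]; exact (hqu.add hd).neg_right))
    obtain ⟨a, ha⟩ := FA.SetzerNeumann.exists_natAbs_eq_pow (p := 2) hz0 fun r hr hrz =>
      (hs r hr (hrz.mul_left _)).resolve_right fun e => hqz (e ▸ hrz)
    have hj' : 2 ^ j ∣ 2 ^ a := ha ▸ Int.natCast_dvd.mp (by exact_mod_cast hjz)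
    have haj : j ≤ a := (Nat.pow_dvd_pow_iff_le_right one_lt_two).mp hj'
    have ha4 : 4 ≤ a := hj.trans haj
    have hcase : q ^ n = 2 ^ a + 1 ∨ q ^ n + 1 = 2 ^ a := by omega
    obtain rfl := eq_one_of_pow_eq_two_pow (hq.odd_of_ne_two hq2) hn ha4 hcase
    rw [pow_one] at hcase
    exact hcase.elim (hne a haj).1 (hne a haj).2
  rcases eq_or_ne b 0 with rfl | hb0
  · rcases eq_or_ne c 0 with rfl | hc0
    · simp only [pow_zero] at hb hc
      omega
    · exact key hc hc0 (by simpa using hb) (by linarith)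
  · rcases eq_or_ne c 0 with rfl | hc0
    · exact key hb hb0 (by simpa using hc) h
    · exact (Nat.prime_iff_prime_int.mp hq).not_isUnit (hco.isUnit_of_dvd'
        (Int.natCast_dvd.mpr (hb ▸ dvd_pow_self q hb0))
        (Int.natCast_dvd.mpr (hc ▸ dvd_pow_self q hc0)))

/-- **One prime**: no triple unless `q` is `2 ^ k ± 1` with `k ≥ 4`. -/
theorem noSUnitTriple_single {q : ℕ} (hq : q.Prime) (hq2 : q ≠ 2)
    (hne : ∀ k : ℕ, 4 ≤ k → q ≠ 2 ^ k + 1 ∧ q + 1 ≠ 2 ^ k) : NoSUnitTriple {q} :=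
  fun _ _ _ hne' h hx hy hco h16 hs =>
    noTriple_single_pow hq hq2 le_rfl hne hne' h hx hy hco (by simpa using h16) hs

end FA.CurveCriterion

end
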