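import Fermat.Agent.Ribet.CurveCriterion.SquareAuxiliary
import Mathlib.Data.Nat.Factorization.Root

/-!
# Auxiliary primes for `x ^ 3 = A y ^ n + B z ^ n`

With `3 ∣ z` the two terms are a cube times coprime ones, the second divisible by `27`; the
semistable curve of such a solution is congruent to one with good reduction at every small prime
outside `3 A B`, so none of these divides `y z`.
-/

set_option autoImplicit false
set_option linter.style.haveILetI false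

noncomputable section

open WeierstrassCurve

namespace FA.CurveCriterion

/-- The curve of the cube equation, with its bad primes. -/
theorem exists_cubeCurve_discr {M : ℕ} (h3 : 3 ∣ M) {n p : ℕ} (hp : p.Prime) (hpn : p ∣ n)
    (hn : n ≠ 0) {A B x y z : ℤ} (hA : A ≠ 0) (hB : B ≠ 0) (hy : y ≠ 0) (hz : z ≠ 0)
    (hs : ∀ r : ℕ, r.Prime → (r : ℤ) ∣ A * B → r ∣ M)
    (hcop : IsCoprime x (B * z ^ n)) (h27 : (27 : ℤ) ∣ B * z ^ n)
    (heq : x ^ 3 = A * y ^ n + B * z ^ n) :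
    ∃ W : WeierstrassCurve ℤ, W.Δ ≠ 0 ∧ W.IsSemistableModel ∧
      (∀ r : ℕ, r.Prime → (r : ℤ) ∣ W.Δ → ¬ r ∣ M → p ∣ padicValInt r W.Δ) ∧
      ∀ l : ℕ, l.Prime → ¬ l ∣ M → (l : ℤ) ∣ y * z → (l : ℤ) ∣ W.Δ := by
  obtain ⟨m, rfl⟩ := hpn
  have hm : m ≠ 0 := right_ne_zero_of_mul hn
  rw [mul_comm p m, pow_mul, pow_mul] at *
  have h4 := Int.mul_ediv_cancel' h27
  have hΔ := FA.PowerEquations.cube_Δ_eq (x := x) h27
  rw [heq, add_sub_cancel_right] at hΔ
  have hT : B * (z ^ m) ^ p ≠ 0 := mul_ne_zero hB (pow_ne_zero _ (pow_ne_zero _ hz))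
  have hΔ0 : (FA.PowerEquations.cubeCurve x (B * (z ^ m) ^ p)).Δ ≠ 0 := by
    rw [hΔ]
    exact mul_ne_zero (pow_ne_zero _ fun h => hT (by rw [← h4, h, mul_zero]))
      (mul_ne_zero hA (pow_ne_zero _ (pow_ne_zero _ hy)))
  have hd : 3 ^ 9 * (FA.PowerEquations.cubeCurve x (B * (z ^ m) ^ p)).Δ =
      B ^ 3 * A * ((z ^ m) ^ 3 * y ^ m) ^ p := by
    rw [hΔ, show ∀ t : ℤ, 3 ^ 9 * (t ^ 3 * (A * (y ^ m) ^ p)) = (27 * t) ^ 3 * (A * (y ^ m) ^ p)
      from fun t => by ring, h4]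
    ring
  have hsb : ∀ r : ℕ, r.Prime → (r : ℤ) ∣ B ^ 3 * A → r ∣ M := fun r hr h => by
    rcases (Nat.prime_iff_prime_int.1 hr).dvd_or_dvd h with h | h
    · exact hs r hr (((Nat.prime_iff_prime_int.1 hr).dvd_of_dvd_pow h).mul_left A)
    · exact hs r hr (h.mul_right B)
  refine ⟨_, hΔ0, FA.PowerEquations.cube_isSemistableModel h27 hcop,
    fun r hr _ hrM => FA.Ribet.dvd_padicValInt_of_eq hp.ne_zero hr (by norm_num) hΔ0
      (by simpa using FA.Ribet.not_dvd_prime_pow_of_dvd (k := 9) Nat.prime_three h3 hr hrM)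
      (fun h => hrM (hsb r hr h)) hd, fun l hl hlM hlyz => ?_⟩
  have hli := Nat.prime_iff_prime_int.1 hl
  have h : (l : ℤ) ∣ 3 ^ 9 * (FA.PowerEquations.cubeCurve x (B * (z ^ m) ^ p)).Δ := by
    rw [hd]
    refine (dvd_pow ?_ hp.ne_zero).mul_left _
    rcases hli.dvd_or_dvd hlyz with h' | h'
    · exact (dvd_pow h' hm).mul_left _
    · exact (dvd_pow (dvd_pow h' hm) three_ne_zero).mul_right _
  exact (hli.dvd_or_dvd h).resolve_left
    (by simpa using FA.Ribet.not_dvd_prime_pow_of_dvd (k := 9) Nat.prime_three h3 hl hlM)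

/-- **No small prime outside the coefficients divides `y z`** in a coprime solution with
`27 ∣ B z ^ n`. -/
theorem exists_bound_cube_aux {S : Finset ℕ} (hS : ∀ q ∈ S, q.Prime) (N : ℕ) :
    ∃ C₀ : ℕ, ∀ n p : ℕ, p.Prime → C₀ < p → p ∣ n → n ≠ 0 → ∀ A B x y z : ℤ,
      A ≠ 0 → B ≠ 0 → y ≠ 0 → z ≠ 0 → (∀ r : ℕ, r.Prime → (r : ℤ) ∣ A * B → r = 3 ∨ r ∈ S) →
      IsCoprime x (B * z ^ n) → (27 : ℤ) ∣ B * z ^ n →
      x ^ 3 = A * y ^ n + B * z ^ n →
      ∀ l : ℕ, l.Prime → l ≤ N → l ≠ 3 → l ∉ S → ¬ (l : ℤ) ∣ y * z := by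
  have hM : 3 * ∏ q ∈ S, q ≠ 0 :=
    mul_ne_zero three_ne_zero (Finset.prod_ne_zero_iff.mpr fun q hq => (hS q hq).ne_zero)
  obtain ⟨C₀, hC⟩ := exists_bound_curve_exact hM (fun _ => Set.univ) N
  refine ⟨C₀, fun n p hp hpC hpn hn A B x y z hA hB hy hz hs hcop h27 heq l hl hlN hl3 hlS
    hlyz => ?_⟩
  have hsM : ∀ r : ℕ, r.Prime → (r : ℤ) ∣ A * B → r ∣ 3 * ∏ q ∈ S, q := fun r hr hd => by
    rcases hs r hr hd with rfl | h
    exacts [dvd_mul_right 3 _, (Finset.dvd_prod_of_mem _ h).mul_left 3]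
  have hlM : ¬ l ∣ 3 * ∏ q ∈ S, q := fun h => by
    rcases hl.dvd_mul.mp h with h' | h'
    · exact hl3 ((Nat.prime_dvd_prime_iff_eq hl Nat.prime_three).mp h')
    · obtain ⟨q, hq, hlq⟩ := hl.prime.exists_mem_finset_dvd h'
      exact hlS ((Nat.prime_dvd_prime_iff_eq hl (hS q hq)).mp hlq ▸ hq)
  obtain ⟨W, hΔ, hW, hdiv, hbad⟩ :=
    exists_cubeCurve_discr (dvd_mul_right 3 _) hp hpn hn hA hB hy hz hsM hcop h27 heq
  obtain ⟨V, -, -, hV, hex⟩ := hC p hp hpC W hΔ hW hdiv fun _ _ _ _ => Set.mem_univ _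
  exact (hex l hl hlN).mp (hV l hl hlM).1 (hbad l hl hlM hlyz)

variable {S : Finset ℕ} {n : ℕ}

/-- **The power gcd**: a primitive solution of `x ^ k = A y ^ n + B z ^ n`, `A` prime to `B`, has
terms a `k`-th power times coprime ones. -/
theorem exists_power_gcd {k : ℕ} (hk : k ≠ 0) {A B x y z : ℤ} (hn : A.natAbs + B.natAbs < n)
    (hA : A ≠ 0) (hB : B ≠ 0) (hy : y ≠ 0) (hz : z ≠ 0) (hx : x ≠ 0) (hAB : IsCoprime A B)
    (hyz : IsCoprime y z) (heq : x ^ k = A * y ^ n + B * z ^ n) :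
    ∃ g x' a b : ℤ, g ≠ 0 ∧ A * y ^ n = g ^ k * a ∧ B * z ^ n = g ^ k * b ∧ x = g * x' ∧
      IsCoprime a b ∧ x' ^ k = a + b ∧ ∀ r : ℕ, r.Prime → (r : ℤ) ∣ g → (r : ℤ) ∣ A * B := by
  have hn0 : n ≠ 0 := by omega
  set s := A * y ^ n
  set t := B * z ^ n
  have hs : s ≠ 0 := mul_ne_zero hA (pow_ne_zero n hy)
  have ht : t ≠ 0 := mul_ne_zero hB (pow_ne_zero n hz)
  have hG : Int.gcd s t ≠ 0 := (Int.gcd_pos_of_ne_zero_left t hs).ne'
  have hboth : ∀ r : ℕ, r.Prime → (r : ℤ) ∣ s → (r : ℤ) ∣ t → (r : ℤ) ∣ A * B := by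
    intro r hr h1 h2
    have hp := Nat.prime_iff_prime_int.mp hr
    rcases hp.dvd_or_dvd h1 with e | e
    · exact e.mul_right B
    rcases hp.dvd_or_dvd h2 with f | f
    · exact f.mul_left A
    exact absurd (hyz.isUnit_of_dvd' (hp.dvd_of_dvd_pow e) (hp.dvd_of_dvd_pow f)) hp.not_isUnit
  have hdvd : ∀ r : ℕ, r.Prime → k ∣ (Int.gcd s t).factorization r := by
    intro r hr
    rw [Int.gcd_def, Nat.factorization_gcd (Int.natAbs_ne_zero.mpr hs) (Int.natAbs_ne_zero.mpr ht),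
      Finsupp.inf_apply]
    have hx2 : (x ^ k).natAbs.factorization r = k * x.natAbs.factorization r := by
      rw [Int.natAbs_pow, Nat.factorization_pow, Finsupp.smul_apply, smul_eq_mul]
    rcases lt_trichotomy (s.natAbs.factorization r) (t.natAbs.factorization r) with h | h | h
    · rw [inf_eq_left.mpr h.le,
        ← factorization_eq_of_add_lt hr hs ht (pow_ne_zero k hx) heq h, hx2]
      exact dvd_mul_right k _
    · -- equal valuations are zero
      rw [h, inf_idem]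
      have hp := Nat.prime_iff_prime_int.mp hr
      have hmul : ∀ (M w : ℤ), M ≠ 0 → w ≠ 0 → (M * w ^ n).natAbs.factorization r =
          M.natAbs.factorization r + n * w.natAbs.factorization r := fun M w hM hw => by
        rw [Int.natAbs_mul, Int.natAbs_pow, Nat.factorization_mul (Int.natAbs_ne_zero.mpr hM)
          (pow_ne_zero n (Int.natAbs_ne_zero.mpr hw)), Finsupp.add_apply, Nat.factorization_pow,
          Finsupp.smul_apply, smul_eq_mul]
      have zero : ∀ (M : ℤ), M.natAbs.factorization r ≠ 0 → (r : ℤ) ∣ M := fun M h0 =>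
        Int.natCast_dvd.mpr (Nat.dvd_of_factorization_pos h0)
      simp only [s, t] at h
      rw [hmul A y hA hy, hmul B z hB hz] at h
      simp only [t]
      rw [hmul B z hB hz]
      have hA' := Nat.factorization_lt r (Int.natAbs_ne_zero.mpr hA)
      have hB' := Nat.factorization_lt r (Int.natAbs_ne_zero.mpr hB)
      rcases Nat.eq_zero_or_pos (y.natAbs.factorization r) with e | e <;>
        rcases Nat.eq_zero_or_pos (z.natAbs.factorization r) with f | f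
      · rw [f, mul_zero, add_zero]
        rw [e, f] at h
        rcases Nat.eq_zero_or_pos (B.natAbs.factorization r) with g | g
        · simp [g]
        · exact absurd (hAB.isUnit_of_dvd' (zero A (by omega)) (zero B g.ne')) hp.not_isUnit
      · have := Nat.mul_le_mul_left n f
        rw [e] at h
        omega
      · have := Nat.mul_le_mul_left n e
        rw [f] at h
        omega
      · exact absurd (hyz.isUnit_of_dvd' (zero y e.ne') (zero z f.ne')) hp.not_isUnit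
    · rw [inf_eq_right.mpr h.le, ← factorization_eq_of_add_lt hr ht hs (pow_ne_zero k hx)
        (by rw [heq]; ring) h, hx2]
      exact dvd_mul_right k _
  obtain ⟨g, hg⟩ : ∃ g : ℕ, Int.gcd s t = g ^ k := by
    refine ⟨Nat.floorRoot k (Int.gcd s t), Nat.eq_of_factorization_eq hG
      (pow_ne_zero _ (Nat.floorRoot_ne_zero.2 ⟨hk, hG⟩)) fun r => ?_⟩
    rw [Nat.factorization_pow, Nat.factorization_floorRoot, Finsupp.smul_apply,
      Finsupp.floorDiv_apply, smul_eq_mul, Nat.floorDiv_eq_div]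
    by_cases hr : r.Prime
    · exact (Nat.mul_div_cancel' (hdvd r hr)).symm
    · simp [Nat.factorization_eq_zero_of_not_prime _ hr]
  have hg' : ((g : ℤ)) ^ k = (Int.gcd s t : ℤ) := by rw [hg]; push_cast; ring
  have hg0 : (g : ℤ) ≠ 0 := fun e => hG (by
    have e' : g = 0 := by exact_mod_cast e
    rw [hg, e', zero_pow hk])
  obtain ⟨a, ha⟩ : (g : ℤ) ^ k ∣ s := hg' ▸ Int.gcd_dvd_left s t
  obtain ⟨b, hb⟩ : (g : ℤ) ^ k ∣ t := hg' ▸ Int.gcd_dvd_right s t
  obtain ⟨x', rfl⟩ : (g : ℤ) ∣ x := (Int.pow_dvd_pow_iff hk).mp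
    (heq ▸ ha ▸ hb ▸ ⟨a + b, by ring⟩)
  refine ⟨g, x', a, b, hg0, ha, hb, rfl, ?_, ?_, fun r hr hd => ?_⟩
  · rw [Int.isCoprime_iff_gcd_eq_one]
    have e := congrArg₂ Int.gcd ha hb
    rw [Int.gcd_mul_left, ← Nat.cast_pow, Int.natAbs_natCast, hg] at e
    exact (mul_eq_left₀ (hg ▸ hG)).mp e.symm
  · refine mul_left_cancel₀ (pow_ne_zero k hg0) ?_
    rw [← mul_pow, heq, ha, hb]
    ring
  · exact hboth r hr (ha ▸ (dvd_pow hd hk).mul_right a) (hb ▸ (dvd_pow hd hk).mul_right b)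

/-- **A variable divisible by three**: the prime `l` divides no variable of a primitive solution
with `3 ∣ z` if it divides none in coprime solutions with `27` dividing a term. -/
theorem cube_not_dvd_of_three_dvd {A B x y z : ℤ} {l : ℕ} (hl : l.Prime) (hl3 : l ≠ 3)
    (hlS : l ∉ S) (hn : A.natAbs + B.natAbs + 3 ≤ n)
    (hsupp : ∀ r : ℕ, r.Prime → (r : ℤ) ∣ A * B → r ∈ S) (hA : A ≠ 0) (hB : B ≠ 0) (hy : y ≠ 0)
    (hz : z ≠ 0) (hx : x ≠ 0) (hAB : IsCoprime A B) (hyz : IsCoprime y z) (hz3 : (3 : ℤ) ∣ z)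
    (heq : x ^ 3 = A * y ^ n + B * z ^ n)
    (hbase : ∀ A' B' x' y' z' : ℤ, A' ≠ 0 → B' ≠ 0 → y' ≠ 0 → z' ≠ 0 →
      (∀ r : ℕ, r.Prime → (r : ℤ) ∣ A' * B' → r = 3 ∨ r ∈ S) →
      IsCoprime x' (B' * z' ^ n) → (27 : ℤ) ∣ B' * z' ^ n →
      x' ^ 3 = A' * y' ^ n + B' * z' ^ n → ¬ (l : ℤ) ∣ y' * z') :
    ¬ (l : ℤ) ∣ y * z := by
  intro hlyz
  have hn0 : n ≠ 0 := by omega
  obtain ⟨g, x', a, b, hg0, ha, hb, rfl, hab, he, hgAB⟩ :=
    exists_power_gcd three_ne_zero (by omega) hA hB hy hz hx hAB hyz heq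
  have ha0 : a ≠ 0 := fun e => mul_ne_zero hA (pow_ne_zero n hy) (by rw [ha, e, mul_zero])
  have hb0 : b ≠ 0 := fun e => mul_ne_zero hB (pow_ne_zero n hz) (by rw [hb, e, mul_zero])
  have h27 : (27 : ℤ) ∣ b := by
    have hy3 : y.natAbs.factorization 3 = 0 := Nat.factorization_eq_zero_of_not_dvd fun h =>
      Nat.prime_three.not_isUnit (by
        have := hyz.isUnit_of_dvd' (Int.natCast_dvd.mpr h) (by exact_mod_cast hz3)
        simpa using Int.isUnit_iff_natAbs_eq.mp this)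
    have ea := congrArg (fun w : ℤ => w.natAbs.factorization 3) ha
    have eb := congrArg (fun w : ℤ => w.natAbs.factorization 3) hb
    simp only [Int.natAbs_mul, Int.natAbs_pow,
      Nat.factorization_mul (pow_ne_zero 3 (Int.natAbs_ne_zero.mpr hg0))
        (Int.natAbs_ne_zero.mpr ha0), Nat.factorization_mul (Int.natAbs_ne_zero.mpr hA)
        (pow_ne_zero n (Int.natAbs_ne_zero.mpr hy)), Nat.factorization_pow, Finsupp.add_apply,
      Finsupp.smul_apply, smul_eq_mul, hy3, mul_zero, add_zero] at ea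
    simp only [Int.natAbs_mul, Int.natAbs_pow,
      Nat.factorization_mul (pow_ne_zero 3 (Int.natAbs_ne_zero.mpr hg0))
        (Int.natAbs_ne_zero.mpr hb0), Nat.factorization_mul (Int.natAbs_ne_zero.mpr hB)
        (pow_ne_zero n (Int.natAbs_ne_zero.mpr hz)), Nat.factorization_pow, Finsupp.add_apply,
      Finsupp.smul_apply, smul_eq_mul] at eb
    have h1 : 1 ≤ z.natAbs.factorization 3 := Nat.prime_three.factorization_pos_of_dvd
      (Int.natAbs_ne_zero.mpr hz) (Int.natCast_dvd.mp (by exact_mod_cast hz3))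
    have h2 := Nat.mul_le_mul_left n h1
    have h3 := Nat.factorization_lt 3 (Int.natAbs_ne_zero.mpr hA)
    have h : 3 ^ 3 ∣ b.natAbs :=
      (Nat.prime_three.pow_dvd_iff_le_factorization (Int.natAbs_ne_zero.mpr hb0)).mpr (by omega)
    rw [show (27 : ℤ) = ((3 ^ 3 : ℕ) : ℤ) by norm_num]
    exact Int.natCast_dvd.mpr h
  have hco : IsCoprime x' b := by
    refine IsCoprime.of_isCoprime_of_dvd_left ?_ (dvd_pow_self x' three_ne_zero)
    rw [he, show a + b = a + b * 1 by ring]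
    exact hab.add_mul_left_left 1
  have hterm : ∀ {M w u : ℤ}, M ∣ A * B → M * w ^ n = g ^ 3 * u → IsSTerm S n u := by
    intro M w u hd hu
    have hG0 : (g ^ 3).natAbs ≠ 0 := Int.natAbs_ne_zero.mpr (pow_ne_zero 3 hg0)
    have hGS : ∀ r : ℕ, r.Prime → r ∣ (g ^ 3).natAbs → r ∈ S := fun r hr hd' => hsupp r hr
      (hgAB r hr ((Nat.prime_iff_prime_int.mp hr).dvd_of_dvd_pow (Int.natCast_dvd.mpr hd')))
    rcases Int.natAbs_eq (g ^ 3) with e | e
    · refine IsSTerm.div_supported hn0 hG0 hGS ?_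
      rw [← e, ← hu]
      exact ⟨M, w, rfl, fun r hr h => hsupp r hr (h.trans hd)⟩
    · refine IsSTerm.div_supported hn0 hG0 hGS ?_
      rw [show ((g ^ 3).natAbs : ℤ) = -(g ^ 3) by linarith, neg_mul, ← hu]
      exact ⟨-M, w, (neg_mul _ _).symm, fun r hr h => hsupp r hr ((dvd_neg.mp h).trans hd)⟩
  have hp := Nat.prime_iff_prime_int.mp hl
  have hlAB : ¬ (l : ℤ) ∣ A * B := fun h => hlS (hsupp l hl h)
  have hd : (l : ℤ) ∣ a * b := by
    have h : (l : ℤ) ∣ g ^ 6 * (a * b) := by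
      rw [show g ^ 6 * (a * b) = (g ^ 3 * a) * (g ^ 3 * b) by ring, ← ha, ← hb,
        show A * y ^ n * (B * z ^ n) = A * B * (y * z) ^ n by ring]
      exact (dvd_pow hlyz hn0).mul_left _
    exact (hp.dvd_or_dvd h).resolve_left fun e => hlAB (hgAB l hl (hp.dvd_of_dvd_pow e))
  obtain ⟨A', y', rfl, hA'⟩ := hterm (dvd_mul_right A B) ha
  obtain ⟨B', z', rfl, hB'⟩ := hterm (dvd_mul_left B A) hb
  have hnz : ∀ {u : ℤ}, u ^ n ≠ 0 → u ≠ 0 := fun h e => h (by rw [e, zero_pow hn0])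
  have hs : ∀ r : ℕ, r.Prime → (r : ℤ) ∣ A' * B' → r = 3 ∨ r ∈ S := fun r hr h =>
    Or.inr (((Nat.prime_iff_prime_int.mp hr).dvd_or_dvd h).elim (hA' r hr) (hB' r hr))
  refine hbase A' B' x' y' z' (left_ne_zero_of_mul ha0) (left_ne_zero_of_mul hb0)
    (hnz (right_ne_zero_of_mul ha0)) (hnz (right_ne_zero_of_mul hb0)) hs hco h27 he ?_
  have hd' : (l : ℤ) ∣ A' * B' * (y' * z') ^ n := by
    rw [show A' * B' * (y' * z') ^ n = A' * y' ^ n * (B' * z' ^ n) by ring]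
    exact hd
  exact hp.dvd_of_dvd_pow ((hp.dvd_or_dvd hd').resolve_left fun e =>
    (hs l hl e).elim hl3 hlS)

/-- A number prime to three to a power divisible by `2 · 3 ^ N` is one modulo `3 ^ (N + 1)`. -/
theorem three_pow_dvd_pow_sub_one {t : ℤ} (ht : ¬ (3 : ℤ) ∣ t) {N m : ℕ} (h : 2 * 3 ^ N ∣ m) :
    (3 : ℤ) ^ (N + 1) ∣ t ^ m - 1 := by
  have key : (3 : ℤ) ^ (N + 1) ∣ t ^ (2 * 3 ^ N) - 1 := by
    induction N generalizing m with
    | zero =>
      obtain ⟨q, hq⟩ : ∃ q : ℤ, t = 3 * q + 1 ∨ t = 3 * q + 2 := ⟨t / 3, by omega⟩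
      rcases hq with rfl | rfl
      · exact ⟨3 * q ^ 2 + 2 * q, by ring⟩
      · exact ⟨3 * q ^ 2 + 4 * q + 1, by ring⟩
    | succ k ih =>
      obtain ⟨f, hf⟩ := ih (m := 2 * 3 ^ k) dvd_rfl
      refine ⟨f * (1 + 3 ^ (k + 1) * f + 3 ^ k * 3 ^ (k + 1) * f ^ 2), ?_⟩
      rw [pow_succ 3 k, ← mul_assoc 2, pow_mul, show t ^ (2 * 3 ^ k) = 3 ^ (k + 1) * f + 1 by
        linarith]
      ring
  obtain ⟨j, rfl⟩ := h
  rw [pow_mul]
  have := sub_dvd_pow_sub_pow (t ^ (2 * 3 ^ N)) 1 j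
  rw [one_pow] at this
  exact key.trans this

end FA.CurveCriterion

end
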