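import Fermat.Agent.Root.Integral.Deplete

/-!
# An integral eigenform from the integral eigenvalues away from `M`

An eigenform of a level dividing `M` whose eigenvalues at the primes outside `M` are integers is
depleted at every prime of `M`, also those outside its level: all coefficients become integers.
-/

set_option autoImplicit false

noncomputable section

open UpperHalfPlane ModularForm CongruenceSubgroup
open scoped MatrixGroups

namespace FA.CurveCriterion

open FA.Period FA.LTInt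

variable {L : ℕ} [NeZero L]

/-- Depletion at any finite set of primes, in or outside the level. -/
theorem exists_depleted_all {f : CuspForm (Gamma0 L) 2} (hf : f.IsNormalizedEigenform)
    (s : Finset ℕ) (hs : ∀ q ∈ s, q.Prime) :
    ∃ g ∈ cuspForms (L * ∏ q ∈ s, q ^ 2) 2, ∀ n,
      (qExp g).coeff n = depl s (fun n => ModularFormClass.qCoeff f n) n := by
  classical
  induction s using Finset.induction_on with
  | empty =>
    refine ⟨⇑f, by simpa using coe_mem_cuspForms f, fun n => ?_⟩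
    simp [depl, ModularFormClass.qCoeff]
  | @insert q s hqs ih =>
    obtain ⟨g, hg, hgc⟩ := ih fun r hr => hs r (Finset.mem_insert_of_mem hr)
    have hq := hs q (Finset.mem_insert_self q s)
    set P := L * ∏ r ∈ s, r ^ 2 with hP
    let c₁ : ℂ := ModularFormClass.qCoeff f q / (q : ℂ) ^ ((2 : ℤ) - 1)
    let c₂ : ℂ := FA.Deform.cor L q / ((q : ℂ) ^ ((2 : ℤ) - 1)) ^ 2
    have hd : dilate q 2 g ∈ cuspForms (P * q) 2 := dilate_mem_cuspForms hq.ne_zero hg
    have hd2 : dilate q 2 (dilate q 2 g) ∈ cuspForms (P * q * q) 2 :=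
      dilate_mem_cuspForms hq.ne_zero hd
    have hlev : L * ∏ r ∈ insert q s, r ^ 2 = P * q * q := by
      rw [Finset.prod_insert hqs, hP]; ring
    have h1 : g - c₁ • dilate q 2 g ∈ cuspForms (P * q) 2 :=
      sub_mem (forms_le_mul P q 2 hg) (Submodule.smul_mem _ c₁ hd)
    have h1' := forms_le_mul (P * q) q 2 h1
    refine ⟨g - c₁ • dilate q 2 g + c₂ • dilate q 2 (dilate q 2 g),
      hlev ▸ add_mem h1' (Submodule.smul_mem _ c₂ hd2), fun n => ?_⟩
    have hdQ := isQFun_of_mem hd.1
    have hd2Q := isQFun_of_mem hd2.1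
    rw [(isQFun_of_mem h1'.1).qExp_add (hd2Q.smul c₂), hd2Q.qExp_smul c₂,
      (isQFun_of_mem hg.1).qExp_sub (hdQ.smul c₁), hdQ.qExp_smul c₁, map_add, map_sub,
      PowerSeries.coeff_smul, PowerSeries.coeff_smul, qExp_dilate hq.ne_zero hd,
      qExp_dilate hq.ne_zero hg, smul_eq_mul, smul_eq_mul, ← mul_assoc, ← mul_assoc]
    have hq0 : (q : ℂ) ^ ((2 : ℤ) - 1) ≠ 0 := zpow_ne_zero _ (Nat.cast_ne_zero.2 hq.ne_zero)
    rw [show c₁ * (q : ℂ) ^ ((2 : ℤ) - 1) = ModularFormClass.qCoeff f q from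
      div_mul_cancel₀ _ hq0]
    have hiff : ∀ m, (∀ r ∈ s, ¬ r ∣ q * m) ↔ ∀ r ∈ s, ¬ r ∣ m := fun m => by
      refine ⟨fun h r hr hd => h r hr (hd.mul_left q), fun h r hr hd => ?_⟩
      have hr' := hs r (Finset.mem_insert_of_mem hr)
      rcases hr'.dvd_mul.1 hd with h1 | h1
      · exact hqs (((Nat.prime_dvd_prime_iff_eq hr' hq).1 h1) ▸ hr)
      · exact h r hr h1
    by_cases hqn : q ∣ n
    · obtain ⟨m, rfl⟩ := hqn
      rw [if_pos (dvd_mul_right q m), if_pos (dvd_mul_right q m),
        Nat.mul_div_cancel_left _ hq.pos, qExp_dilate hq.ne_zero hg, hgc, hgc]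
      have hno : ¬ ∀ r ∈ insert q s, ¬ r ∣ q * m := fun h =>
        h q (Finset.mem_insert_self q s) (dvd_mul_right q m)
      have hrec := FA.JTorsion.qCoeff_rec hf hq m
      simp only [FA.Deform.qLin_apply, mul_comm m q] at hrec
      have hc2 : ∀ x : ℂ, c₂ * (q : ℂ) ^ ((2 : ℤ) - 1) * ((q : ℂ) ^ ((2 : ℤ) - 1) * x) =
          FA.Deform.cor L q * x := fun x => by
        rw [← mul_assoc, mul_assoc c₂, ← sq]
        exact congrArg (· * x) (div_mul_cancel₀ _ (pow_ne_zero _ hq0))
      by_cases hqm : q ∣ m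
      · obtain ⟨k, rfl⟩ := hqm
        rw [if_pos (dvd_mul_right q k), Nat.mul_div_cancel_left _ hq.pos, hc2, hgc k]
        rw [if_pos (dvd_mul_right q k), Nat.mul_div_cancel_left _ hq.pos] at hrec
        simp only [depl, hiff, if_neg hno]
        split_ifs with h
        · linear_combination hrec
        · simp
      · rw [if_neg hqm]
        rw [if_neg hqm] at hrec
        simp only [depl, hiff, if_neg hno]
        split_ifs with h
        · linear_combination hrec
        · simp
    · have hiff' : (∀ r ∈ insert q s, ¬ r ∣ n) ↔ ∀ r ∈ s, ¬ r ∣ n := by simp [hqn]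
      rw [if_neg hqn, if_neg hqn, mul_zero, mul_zero, sub_zero, add_zero, hgc n]
      simp only [depl, hiff']

/-- **The integral eigenform**: if the eigenvalues at the primes outside `M` are the integers `t`,
an eigenform with integer coefficients has them too. -/
theorem exists_integral_eigenform {M : ℕ} (hM : M ≠ 0) (hL : L ∣ M)
    {f : CuspForm (Gamma0 L) 2} (hf : f.IsNormalizedEigenform) (t : ℕ → ℤ)
    (ht : ∀ l : ℕ, l.Prime → ¬ l ∣ M → ModularFormClass.qCoeff f l = (t l : ℂ)) :
    ∃ (K : ℕ) (_ : NeZero K) (g : CuspForm (Gamma0 K) 2) (a : ℕ → ℤ),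
      g.IsNormalizedEigenform ∧ (∀ n, ModularFormClass.qCoeff g n = (a n : ℂ)) ∧
        ∀ l : ℕ, l.Prime → ¬ l ∣ M → a l = t l := by
  classical
  obtain ⟨g, hg, hgc⟩ :=
    exists_depleted_all hf M.primeFactors fun q hq => Nat.prime_of_mem_primeFactors hq
  set K := L * ∏ q ∈ M.primeFactors, q ^ 2
  have hK : NeZero K := ⟨mul_ne_zero (NeZero.ne L) (Finset.prod_ne_zero_iff.2 fun q hq =>
    pow_ne_zero _ (Nat.prime_of_mem_primeFactors hq).ne_zero)⟩
  let G : CuspForm (Gamma0 K) 2 := toCuspForm' g hg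
  set c : ℕ → ℂ := fun n => ModularFormClass.qCoeff f n with hc
  have hG : ∀ n, ModularFormClass.qCoeff G n = depl M.primeFactors c n := fun n => by
    rw [← hgc n]; rfl
  have hmem : ∀ {p : ℕ}, p.Prime → p ∣ M → p ∈ M.primeFactors := fun hp h =>
    Nat.mem_primeFactors.2 ⟨hp, h, hM⟩
  have hzero : ∀ {p m : ℕ}, p.Prime → p ∣ M → p ∣ m → depl M.primeFactors c m = 0 :=
    fun hp hpM hpm => if_neg fun h => h _ (hmem hp hpM) hpm
  have hdvd : ∀ {p : ℕ}, p.Prime → (p ∣ K ↔ p ∣ M) := fun {p} hp => by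
    refine ⟨fun h => ?_, fun h =>
      dvd_mul_of_dvd_right ((dvd_pow_self p two_ne_zero).trans
        (Finset.dvd_prod_of_mem (fun q => q ^ 2) (hmem hp h))) L⟩
    rcases hp.dvd_mul.1 h with h | h
    · exact h.trans hL
    · obtain ⟨q, hq, hd⟩ := (Prime.dvd_finsetProd_iff hp.prime _).1 h
      exact ((Nat.prime_dvd_prime_iff_eq hp (Nat.prime_of_mem_primeFactors hq)).1
        (hp.dvd_of_dvd_pow hd)) ▸ Nat.dvd_of_mem_primeFactors hq
  have hcop : ∀ {p : ℕ}, p.Prime → ¬ p ∣ M → ∀ r, ∀ q ∈ M.primeFactors, ¬ q ∣ p ^ r :=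
    fun hp hpM r q hq h => hpM (((Nat.prime_dvd_prime_iff_eq (Nat.prime_of_mem_primeFactors hq)
      hp).1 ((Nat.prime_of_mem_primeFactors hq).dvd_of_dvd_pow h)) ▸
        Nat.dvd_of_mem_primeFactors hq)
  have hGe : G.IsNormalizedEigenform := by
    refine ⟨?_, fun m n hmn => ?_, fun p r hp hpK => ?_, fun p r hp hpK => ?_⟩
    · rw [hG, depl, if_pos fun q hq h =>
        (Nat.prime_of_mem_primeFactors hq).ne_one (Nat.dvd_one.1 h)]
      exact hf.qCoeff_one
    · simp only [hG, depl]
      by_cases h : ∀ q ∈ M.primeFactors, ¬ q ∣ m * n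
      · rw [if_pos h, if_pos fun q hq hd => h q hq (hd.mul_right n),
          if_pos fun q hq hd => h q hq (hd.mul_left m)]
        exact hf.qCoeff_mul_of_coprime m n hmn
      · rw [if_neg h]
        push Not at h
        obtain ⟨q, hq, hd⟩ := h
        rcases (Nat.prime_of_mem_primeFactors hq).dvd_mul.1 hd with h' | h'
        · rw [if_neg (c := ∀ q ∈ M.primeFactors, ¬ q ∣ m) fun h => h q hq h', zero_mul]
        · rw [if_neg (c := ∀ q ∈ M.primeFactors, ¬ q ∣ n) fun h => h q hq h', mul_zero]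
    · have hpM : ¬ p ∣ M := fun h => hpK ((hdvd hp).2 h)
      simp only [hG, depl, if_pos (hcop hp hpM _)]
      rw [if_pos (by simpa using hcop hp hpM 1)]
      exact hf.qCoeff_prime_pow_of_not_dvd p r hp fun h => hpM (h.trans hL)
    · have hpM := (hdvd hp).1 hpK
      rw [hG, hG, hG, hzero hp hpM (dvd_pow_self p (Nat.succ_ne_zero _)), hzero hp hpM dvd_rfl,
        zero_mul]
  have hint : ∀ n : ℕ, ∃ z : ℤ, depl M.primeFactors c n = (z : ℂ) := fun n => by
    induction n using Nat.strong_induction_on with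
    | _ n ih =>
      by_cases hn : ∀ q ∈ M.primeFactors, ¬ q ∣ n
      swap
      · exact ⟨0, by rw [depl, if_neg hn]; simp⟩
      have hd : depl M.primeFactors c n = c n := if_pos hn
      rcases eq_or_ne n 0 with rfl | hn0
      · exact ⟨0, by rw [hd, hc]; simp [← FA.Deform.qLin_apply, FA.Deform.qLin_zero_apply]⟩
      rcases eq_or_ne n 1 with rfl | hn1
      · exact ⟨1, by rw [hd, hc]; simp [hf.qCoeff_one]⟩
      obtain ⟨p, hp, k, rfl⟩ := Nat.exists_prime_and_dvd hn1
      have hpM : ¬ p ∣ M := fun h => hn p (hmem hp h) (dvd_mul_right p k)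
      have hk0 : 0 < k := Nat.pos_of_ne_zero fun h => hn0 (by simp [h])
      have hlt : k < p * k := lt_mul_of_one_lt_left hk0 hp.one_lt
      have hkc : ∀ q ∈ M.primeFactors, ¬ q ∣ k := fun q hq h => hn q hq (h.mul_left p)
      obtain ⟨z, hz⟩ := ih k hlt
      rw [depl, if_pos hkc] at hz
      have hrec := FA.JTorsion.qCoeff_rec hf hp k
      simp only [FA.Deform.qLin_apply, mul_comm k p, ht p hp hpM, FA.Deform.cor,
        if_neg fun h : p ∣ L => hpM (h.trans hL)] at hrec
      rw [hd]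
      by_cases hpk : p ∣ k
      · obtain ⟨z', hz'⟩ := ih (k / p) ((Nat.div_le_self _ _).trans_lt hlt)
        rw [depl, if_pos fun q hq h => hkc q hq (h.trans (Nat.div_dvd_of_dvd hpk))] at hz'
        rw [if_pos hpk] at hrec
        simp only [hc] at hz hz' ⊢
        refine ⟨t p * z - p * z', ?_⟩
        push_cast
        linear_combination hrec + (t p : ℂ) * hz - (p : ℂ) * hz'
      · rw [if_neg hpk, add_zero] at hrec
        simp only [hc] at hz ⊢
        refine ⟨t p * z, ?_⟩
        push_cast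
        linear_combination hrec + (t p : ℂ) * hz
  choose a ha using hint
  refine ⟨K, hK, G, a, hGe, fun n => (hG n).trans (ha n), fun l hl hlM => ?_⟩
  have h := (ha l).symm.trans (if_pos (by simpa using hcop hl hlM 1))
  rw [hc] at h
  exact_mod_cast h.trans (ht l hl hlM)

end FA.CurveCriterion

end
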