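import Fermat.Agent.Ribet.Asymptotic
import Fermat.Agent.Ribet.CurveCriterion.Congruent
import Fermat.Agent.Ribet.CurveCriterion.Depletion
import Fermat.Agent.Root.SummaryWeilCurve
import Fermat.Agent.Root.SummaryTwistCriterion

/-!
# The asymptotic criterion in the language of curves

The integral eigenform of the modular method gives a Weil curve. For large `p` it is congruent to
the semistable curve it came from, so it is semistable, and its bad primes divide `M`.
-/

set_option autoImplicit false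
set_option linter.style.haveILetI false
set_option linter.unusedSectionVars false

noncomputable section

open WeierstrassCurve CongruenceSubgroup FA.RT FA.RT.Tate FA.Frob

namespace FA.CurveCriterion

local notation "ZB" => integralClosure ℤ ℂ
local notation "GQ" => AlgebraicClosure ℚ ≃ₐ[ℚ] AlgebraicClosure ℚ

/-- The systems of integral eigenvalues away from `M`, within Hasse's bound, zero elsewhere. -/
def systems (M : ℕ) : Set (ℕ → ℤ) :=
  {t | (∀ n, ¬ (n.Prime ∧ ¬ n ∣ M) → t n = 0) ∧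
    (∀ l : ℕ, l.Prime → ¬ l ∣ M → t l ^ 2 ≤ 4 * (l : ℤ)) ∧
    ∃ (N : ℕ) (f : CuspForm (Gamma0 N) 2), N ∣ M ∧ f.IsNormalizedEigenform ∧
      ∀ l : ℕ, l.Prime → ¬ l ∣ M → ModularFormClass.qCoeff f l = (t l : ℂ)}

open scoped Classical in
/-- There are finitely many systems: each comes from a character of a Hecke algebra. -/
theorem systems_finite {M : ℕ} (hM : M ≠ 0) : (systems M).Finite := by
  let dec : (N : ℕ) → [NeZero N] → (FA.ModField.HFull N →+* ZB) → ℕ → ℤ := fun N _ ψ n =>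
    if h : n.Prime ∧ ¬ n ∣ M ∧ ¬ n ∣ N then
      if hz : ∃ z : ℤ,
          ψ (CuspForm.heckeAlgebra.T (k := 2) h.1 h.2.2 (Set.notMem_empty _)) = (z : ZB)
      then hz.choose else 0
    else 0
  have hfin : (⋃ N ∈ (M.divisors : Set ℕ),
      ⋃ h : NeZero N, Set.range (@dec N h)).Finite := by
    refine M.divisors.finite_toSet.biUnion fun N _ => Set.finite_iUnion fun hN => ?_
    haveI := hN
    haveI : Module.Finite ℤ (FA.ModField.HFull N) := FA.Period.moduleFinite_heckeAlgebra N 2 _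
    haveI := FA.Ribet.finite_ringHom_complex (FA.ModField.HFull N)
    haveI : Finite (FA.ModField.HFull N →+* ZB) :=
      Finite.of_injective (fun ψ => (algebraMap ZB ℂ).comp ψ) fun ψ ψ' h =>
        RingHom.ext fun x => Subtype.ext (RingHom.congr_fun h x)
    exact Set.finite_range _
  refine hfin.subset fun t ht => ?_
  obtain ⟨h0, -, N, f, hN, hf, hft⟩ := ht
  have : NeZero N := ⟨fun h => hM (Nat.eq_zero_of_zero_dvd (h ▸ hN))⟩
  obtain ⟨ψ, hψ, -⟩ := FA.Root.exists_eigenChar_full hf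
  refine Set.mem_iUnion₂.mpr ⟨N, Finset.mem_coe.mpr (Nat.mem_divisors.mpr ⟨hN, hM⟩),
    Set.mem_iUnion.mpr ⟨this, ψ, funext fun n => ?_⟩⟩
  by_cases h : n.Prime ∧ ¬ n ∣ M
  · have hn : ¬ n ∣ N := fun hd => h.2 (hd.trans hN)
    have hz : ∃ z : ℤ,
        ψ (CuspForm.heckeAlgebra.T (k := 2) h.1 hn (Set.notMem_empty _)) = (z : ZB) :=
      ⟨t n, Subtype.ext (by rw [hψ n h.1 hn, hft n h.1 h.2]; simp)⟩
    simp only [dec]
    rw [dif_pos ⟨h.1, h.2, hn⟩, dif_pos hz]
    have e := congrArg Subtype.val hz.choose_spec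
    rw [hψ n h.1 hn, hft n h.1 h.2] at e
    simp only [SubringClass.coe_intCast] at e
    exact_mod_cast e.symm
  · simp only [dec]
    rw [dif_neg fun h' => h ⟨h'.1, h'.2.1⟩, h0 n h]

/-- The Weil curve of a system: an equation with these traces at almost all primes. -/
theorem exists_curve_of_system {M : ℕ} (hM : M ≠ 0) {t : ℕ → ℤ} (ht : t ∈ systems M) :
    ∃ (V : WeierstrassCurve ℤ) (S : Finset ℕ), V.Δ ≠ 0 ∧
      ∀ l : ℕ, l.Prime → l ∉ S → V.IsGoodPrimeFor l ∧ ¬ l ∣ M ∧ V.apOfModel l = t l := by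
  obtain ⟨-, hsq, N, f, hN, hf, hft⟩ := ht
  have : NeZero N := ⟨fun h => hM (Nat.eq_zero_of_zero_dvd (h ▸ hN))⟩
  obtain ⟨K, hK, g, a, hg, ha, hat⟩ := exists_integral_eigenform hM hN hf t hft
  obtain ⟨-, E, S, hE, -, -, htr⟩ := FA.Summary.weilCurve_eichlerShimura hg ha
  obtain ⟨V, hV⟩ := FA.Frob.exists_integralModel E
  have hΔ := FA.Frob.Δ_ne_zero_of_model hV
  refine ⟨V, S ∪ M.primeFactors ∪ V.Δ.natAbs.primeFactors, hΔ, fun l hl hlS => ?_⟩
  simp only [Finset.mem_union, Nat.mem_primeFactors, not_or] at hlS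
  have hgood : V.IsGoodPrimeFor l := fun h =>
    hlS.2 ⟨hl, Int.natCast_dvd.mp h, Int.natAbs_ne_zero.mpr hΔ⟩
  have hlM : ¬ l ∣ M := fun h => hlS.1.2 ⟨hl, h, hM⟩
  refine ⟨hgood, hlM, ?_⟩
  rw [← FA.Root.LFunction_apply_prime E V hV hl hgood, ← hat l hl hlM]
  exact (htr l hl hlS.1.1).2 (by rw [hat l hl hlM]; exact hsq l hl hlM)

/-- An integer below `l + 1` in absolute value is not `± (l + 1)` modulo a large prime. -/
theorem not_dvd_of_sq_le {p l : ℕ} (hl : 2 ≤ l) (hp : 2 * (l + 1) ≤ p) {x : ℤ}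
    (hx : x ^ 2 ≤ 4 * (l : ℤ)) :
    ¬ (p : ℤ) ∣ x - ((l : ℤ) + 1) ∧ ¬ (p : ℤ) ∣ x + ((l : ℤ) + 1) := by
  have hlt : -((l : ℤ) + 1) < x ∧ x < (l : ℤ) + 1 := by
    have : (2 : ℤ) ≤ l := by exact_mod_cast hl
    constructor <;> nlinarith
  constructor <;> intro h <;>
    (have := Nat.le_of_dvd (by omega) (Int.natCast_dvd.mp h); omega)

/-- Two integers within Hasse's bound congruent modulo a large prime are equal. -/
theorem eq_of_dvd_of_sq_le {p l : ℕ} (hl : 2 ≤ l) (hp : 2 * (l + 1) ≤ p) {x y : ℤ}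
    (hx : x ^ 2 ≤ 4 * (l : ℤ)) (hy : y ^ 2 ≤ 4 * (l : ℤ)) (h : (p : ℤ) ∣ x - y) : x = y := by
  by_contra hne
  have : (2 : ℤ) ≤ l := by exact_mod_cast hl
  have h1 : -((l : ℤ) + 1) < x ∧ x < (l : ℤ) + 1 := by constructor <;> nlinarith
  have h2 : -((l : ℤ) + 1) < y ∧ y < (l : ℤ) + 1 := by constructor <;> nlinarith
  have := Nat.le_of_dvd (by omega) (Int.natCast_dvd.mp h)
  omega

open scoped Classical in
/-- **Mazur's asymptotic criterion with curves and the congruence**: beyond a bound, a semistable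
curve whose discriminant is a `p`-th power away from `M`, with traces among `T`, has the residual
traces of a semistable curve with good reduction away from `M` and traces among `T`. -/
theorem exists_bound_curve_congr {M : ℕ} (hM : M ≠ 0) (T : ℕ → Set ℤ) :
    ∃ C : ℕ, ∀ p : ℕ, p.Prime → C < p → ∀ W : WeierstrassCurve ℤ, W.Δ ≠ 0 → W.IsSemistableModel →
      (∀ r : ℕ, r.Prime → (r : ℤ) ∣ W.Δ → ¬ r ∣ M → p ∣ padicValInt r W.Δ) →
      (∀ l : ℕ, l.Prime → ¬ l ∣ M → W.IsGoodPrimeFor l → W.apOfModel l ∈ T l) →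
      ∃ V : WeierstrassCurve ℤ, V.Δ ≠ 0 ∧ V.IsSemistableModel ∧
        (∀ l : ℕ, l.Prime → ¬ l ∣ M → V.IsGoodPrimeFor l ∧ V.apOfModel l ∈ T l) ∧
        ∀ [Fact p.Prime] [(ratCurve W).IsElliptic] [(ratCurve V).IsElliptic] (σ : GQ),
          (curveRep p W σ).trace = (curveRep p V σ).trace ∧
            (curveRep p W σ).det = (curveRep p V σ).det := by
  let B : (ℕ → ℤ) → ℕ := fun t => if ht : t ∈ systems M then
    (exists_curve_of_system hM ht).choose_spec.choose.sup id ⊔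
      (exists_curve_of_system hM ht).choose.Δ.natAbs else 0
  obtain ⟨B₀, hB₀⟩ := ((systems_finite hM).image B).bddAbove
  obtain ⟨C₀, hC₀⟩ := FA.Ribet.exists_bound_lowering_congr hM T
  refine ⟨max (max C₀ 7) (max M (2 * (B₀ + 1))), fun p hp hpC W hΔ hW hdiv hT => ?_⟩
  haveI := Fact.mk hp
  simp only [max_lt_iff] at hpC
  obtain ⟨N, hN, f, hf, h⟩ := hC₀ p hp hpC.1.1 W hΔ hW hdiv hT
  let t : ℕ → ℤ := fun n => if hn : n.Prime ∧ ¬ n ∣ M then (h n hn.1 hn.2).choose else 0
  have ht : ∀ l (hl : l.Prime) (hlM : ¬ l ∣ M), t l ∈ T l ∧ t l ^ 2 ≤ 4 * (l : ℤ) ∧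
      ModularFormClass.qCoeff f l = (t l : ℂ) ∧
      (l ≠ p → (W.IsGoodPrimeFor l → (p : ℤ) ∣ t l - W.apOfModel l) ∧
        (¬ W.IsGoodPrimeFor l →
          (p : ℤ) ∣ t l - ((l : ℤ) + 1) ∨ (p : ℤ) ∣ t l + ((l : ℤ) + 1))) := by
    intro l hl hlM
    simp only [t, dif_pos (And.intro hl hlM)]
    exact (h l hl hlM).choose_spec
  have hts : t ∈ systems M := ⟨fun n hn => dif_neg hn, fun l hl hlM => (ht l hl hlM).2.1, N, f,
    hN, hf, fun l hl hlM => (ht l hl hlM).2.2.1⟩
  have hBt : B t ≤ B₀ := hB₀ ⟨t, hts, rfl⟩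
  simp only [B, dif_pos hts] at hBt
  set V := (exists_curve_of_system hM hts).choose
  set S := (exists_curve_of_system hM hts).choose_spec.choose
  obtain ⟨hVΔ, hVS⟩ := (exists_curve_of_system hM hts).choose_spec.choose_spec
  have hS : ∀ l ∈ S, l ≤ B₀ := fun l hl =>
    ((Finset.le_sup (f := id) hl).trans le_sup_left).trans hBt
  have hVdvd : ∀ l : ℕ, (l : ℤ) ∣ V.Δ → l ≤ B₀ := fun l hl =>
    (Nat.le_of_dvd (Int.natAbs_pos.mpr hVΔ) (Int.natCast_dvd.mp hl)).trans
      (le_sup_right.trans hBt)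
  haveI := ratCurve_isElliptic_of_Δ hΔ
  haveI hVell := ratCurve_isElliptic_of_Δ hVΔ
  have hVV : V.IsIntegralModelOf (ratCurve V) := ⟨1, one_smul _ _⟩
  -- the Weil curve is semistable
  have hcong := trace_det_eq (p := p) (W := W) (V := V) S fun l hl hlS hWg _ hlp => by
    obtain ⟨-, hlM, e⟩ := hVS l hl hlS
    rw [e]
    exact dvd_sub_comm.mp (((ht l hl hlM).2.2.2 hlp).1 hWg)
  obtain ⟨V', hV', hV's⟩ := FA.Root.exists_semistableModel (ratCurve V) fun q hq => by
    by_cases hqp : q = p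
    · obtain ⟨C, hC⟩ := FA.Root.exists_good_of_not_dvd V q fun hd => by
        have := hVdvd q hd
        omega
      exact FA.Root.isSemistableAt_of_reduction (ratCurve V) (Or.inl hC)
    · obtain ⟨C, hC⟩ := semistableAt_of_congr (by omega) hW (ratCurve V) hVV hcong hqp
      exact FA.Root.isSemistableAt_of_reduction (ratCurve V) hC
  have hV'Δ := FA.Frob.Δ_ne_zero_of_model hV'
  haveI := ratCurve_isElliptic_of_Δ hV'Δ
  have hap : ∀ l : ℕ, l.Prime → V.IsGoodPrimeFor l → V'.IsGoodPrimeFor l →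
      V'.apOfModel l = V.apOfModel l := fun l hl h1 h2 => by
    rw [← FA.Root.LFunction_apply_prime _ V hVV hl h1,
      FA.Root.LFunction_apply_prime _ V' hV' hl h2]
  have hcong' := trace_det_eq (p := p) (W := W) (V := V')
    (S ∪ V.Δ.natAbs.primeFactors) fun l hl hlS hWg hV'g hlp => by
    simp only [Finset.mem_union, Nat.mem_primeFactors, not_or] at hlS
    obtain ⟨hVg, hlM, e⟩ := hVS l hl hlS.1
    rw [hap l hl hVg hV'g, e]
    exact dvd_sub_comm.mp (((ht l hl hlM).2.2.2 hlp).1 hWg)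
  refine ⟨V', hV'Δ, hV's, fun l hl hlM => ?_, fun σ => hcong' σ⟩
  obtain ⟨htT, htsq, -, htc⟩ := ht l hl hlM
  by_cases hlB : l ≤ B₀
  · -- a small prime: the curve it came from is good there
    have hlp : l ≠ p := by omega
    have hsmall := not_dvd_of_sq_le (p := p) hl.two_le (by omega) htsq
    have hWg : W.IsGoodPrimeFor l := by
      by_contra hbad
      rcases (htc hlp).2 hbad with h' | h'
      exacts [hsmall.1 h', hsmall.2 h']
    have hd := (htc hlp).1 hWg
    have hV'g : V'.IsGoodPrimeFor l := fun hbad => by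
      rcases dvd_of_multiplicative hl hlp hWg hbad (hV's l hl hbad) hcong' with h' | h'
      · exact hsmall.1 (by simpa using dvd_add hd h')
      · exact hsmall.2 (by simpa [← add_assoc] using dvd_add hd h')
    refine ⟨hV'g, ?_⟩
    obtain ⟨A, hA⟩ := FA.Deform.exists_liesOverPrime hl
    obtain ⟨σ, hσ⟩ := FA.Deform.exists_isFrobeniusAt hl hA
    have e := (hcong' σ).1
    rw [(FA.Ribet.curveRep_frobenius hl hlp hWg hA hσ).1,
      (FA.Ribet.curveRep_frobenius hl hlp hV'g hA hσ).1, ← sub_eq_zero, ← Int.cast_sub,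
      ZMod.intCast_zmod_eq_zero_iff_dvd] at e
    have : t l = V'.apOfModel l := eq_of_dvd_of_sq_le (p := p) hl.two_le (by omega) htsq
      (FA.Ribet.apOfModel_sq_le hl hV'g) (by simpa using dvd_add hd e)
    rw [← this]
    exact htT
  · -- a large prime: the Weil curve is good there
    have hlS : l ∉ S := fun h => hlB (hS l h)
    obtain ⟨hVg, -, e⟩ := hVS l hl hlS
    have hV'g : V'.IsGoodPrimeFor l := fun hbad => by
      have h2 := FA.Root.LFunction_apply_prime_pow_good _ V hVV hl hVg 0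
      have h3 := FA.Root.LFunction_apply_prime _ V hVV hl hVg
      have m2 := FA.Root.LFunction_apply_prime_pow_mult _ V' hV' hl hbad hV'Δ (hV's l hl hbad) 2
      have m1 := FA.Root.LFunction_apply_prime_pow_mult _ V' hV' hl hbad hV'Δ (hV's l hl hbad) 1
      have m0 := FA.Root.LFunction_apply_prime_pow_mult _ V' hV' hl hbad hV'Δ (hV's l hl hbad) 0
      simp only [zero_add, pow_one, pow_zero] at h2 m1 m0
      rw [← h3, m1, m0, m2] at h2
      have : (l : ℤ) = 0 := by linear_combination h2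
      exact hl.ne_zero (by exact_mod_cast this)
    exact ⟨hV'g, by rw [hap l hl hVg hV'g, e]; exact htT⟩

/-- **Mazur's asymptotic criterion with curves**: beyond a bound, a semistable curve whose
discriminant is a `p`-th power away from `M`, with traces among `T`, gives a semistable curve with
good reduction away from `M` and traces among `T`. -/
theorem exists_bound_curve {M : ℕ} (hM : M ≠ 0) (T : ℕ → Set ℤ) :
    ∃ C : ℕ, ∀ p : ℕ, p.Prime → C < p → ∀ W : WeierstrassCurve ℤ, W.Δ ≠ 0 → W.IsSemistableModel →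
      (∀ r : ℕ, r.Prime → (r : ℤ) ∣ W.Δ → ¬ r ∣ M → p ∣ padicValInt r W.Δ) →
      (∀ l : ℕ, l.Prime → ¬ l ∣ M → W.IsGoodPrimeFor l → W.apOfModel l ∈ T l) →
      ∃ V : WeierstrassCurve ℤ, V.Δ ≠ 0 ∧ V.IsSemistableModel ∧
        ∀ l : ℕ, l.Prime → ¬ l ∣ M → V.IsGoodPrimeFor l ∧ V.apOfModel l ∈ T l := by
  obtain ⟨C, hC⟩ := exists_bound_curve_congr hM T
  refine ⟨C, fun p hp hpC W hΔ hW hdiv hT => ?_⟩
  obtain ⟨V, hVΔ, hV, h, -⟩ := hC p hp hpC W hΔ hW hdiv hT
  exact ⟨V, hVΔ, hV, h⟩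

end FA.CurveCriterion

end
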