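import Fermat.Agent.Ribet.CurveCriterion.Curve
import Fermat.Agent.Ribet.SignatureCurves

/-!
# The bad primes of the congruent curve

Beyond a bound the curve of the criterion is bad at a prime `l ≤ B` exactly when the original one
is: good against multiplicative reduction forces `a_l ≡ ± (l + 1) (mod p)`, against Hasse's bound.
-/

set_option autoImplicit false
set_option linter.style.haveILetI false

noncomputable section

open WeierstrassCurve FA.RT FA.RT.Tate FA.Frob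

local notation "GQ" => AlgebraicClosure ℚ ≃ₐ[ℚ] AlgebraicClosure ℚ

namespace FA.CurveCriterion

/-- **The criterion with exact bad primes**: up to `B` the new curve has the reduction type of the
old one. -/
theorem exists_bound_curve_exact {M : ℕ} (hM : M ≠ 0) (T : ℕ → Set ℤ) (B : ℕ) :
    ∃ C : ℕ, ∀ p : ℕ, p.Prime → C < p → ∀ W : WeierstrassCurve ℤ, W.Δ ≠ 0 → W.IsSemistableModel →
      (∀ r : ℕ, r.Prime → (r : ℤ) ∣ W.Δ → ¬ r ∣ M → p ∣ padicValInt r W.Δ) →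
      (∀ l : ℕ, l.Prime → ¬ l ∣ M → W.IsGoodPrimeFor l → W.apOfModel l ∈ T l) →
      ∃ V : WeierstrassCurve ℤ, V.Δ ≠ 0 ∧ V.IsSemistableModel ∧
        (∀ l : ℕ, l.Prime → ¬ l ∣ M → V.IsGoodPrimeFor l ∧ V.apOfModel l ∈ T l) ∧
        ∀ l : ℕ, l.Prime → l ≤ B → (V.IsGoodPrimeFor l ↔ W.IsGoodPrimeFor l) := by
  obtain ⟨C, hC⟩ := exists_bound_curve_congr hM T
  refine ⟨max C (2 * (B + 1)), fun p hp hpC W hΔ hW hdiv hT => ?_⟩
  simp only [max_lt_iff] at hpC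
  obtain ⟨V, hVΔ, hV, hVM, hcong⟩ := hC p hp hpC.1 W hΔ hW hdiv hT
  haveI := Fact.mk hp
  haveI := ratCurve_isElliptic_of_Δ hΔ
  haveI := ratCurve_isElliptic_of_Δ hVΔ
  refine ⟨V, hVΔ, hV, hVM, fun l hl hlB => ?_⟩
  have hlp : l ≠ p := by omega
  have key : ∀ (X Y : WeierstrassCurve ℤ) [(ratCurve X).IsElliptic] [(ratCurve Y).IsElliptic],
      (∀ σ : GQ, (curveRep p X σ).trace = (curveRep p Y σ).trace ∧
        (curveRep p X σ).det = (curveRep p Y σ).det) →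
      Y.IsSemistableModel → X.IsGoodPrimeFor l → Y.IsGoodPrimeFor l := by
    intro X Y _ _ h hY hX
    by_contra hbad
    have hY' : (l : ℤ) ∣ Y.Δ := not_not.mp hbad
    obtain ⟨h1, h2⟩ := not_dvd_of_sq_le (p := p) hl.two_le (by omega)
      (FA.Ribet.apOfModel_sq_le hl hX)
    rcases dvd_of_multiplicative hl hlp hX hY' (hY l hl hY') h with h' | h'
    exacts [h1 h', h2 h']
  exact ⟨key V W (fun σ => ⟨(hcong σ).1.symm, (hcong σ).2.symm⟩) hW,
    key W V (fun σ => hcong σ) hV⟩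

/-- The reduced Frey curve of a solution, with its discriminant. -/
theorem exists_fermatCurve_discr {n p : ℕ} (hp : p.Prime) (hpn : p ∣ n) {M : ℕ} (h2 : 2 ∣ M)
    {A B C x y z : ℤ} (hne : A * B * C ≠ 0) (hxyz : x * y * z ≠ 0)
    (hs : ∀ r : ℕ, r.Prime → (r : ℤ) ∣ A * B * C → r ∣ M)
    (hcop : IsCoprime (A * x ^ n) (B * y ^ n)) (h16 : (16 : ℤ) ∣ C * z ^ n)
    (heq : A * x ^ n + B * y ^ n + C * z ^ n = 0) :
    ∃ W : WeierstrassCurve ℤ, W.Δ ≠ 0 ∧ W.IsSemistableModel ∧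
      256 * W.Δ = (A * B * C * (x * y * z) ^ n) ^ 2 ∧
      (∀ r : ℕ, r.Prime → (r : ℤ) ∣ W.Δ → ¬ r ∣ M → p ∣ padicValInt r W.Δ) ∧
      ∀ l : ℕ, l.Prime → ¬ l ∣ M → W.IsGoodPrimeFor l → (4 : ℤ) ∣ (l : ℤ) + 1 - W.apOfModel l := by
  obtain ⟨k, rfl⟩ := hpn
  have hprod : A * x ^ (p * k) * (B * y ^ (p * k)) * (C * z ^ (p * k)) =
      A * B * C * (x * y * z) ^ (p * k) := by ring
  obtain ⟨A', B', h1, h2', -, hcop', hne', h6⟩ := FA.Ribet.exists_frey heq hcop h16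
    (by rw [hprod]; exact mul_ne_zero hne (pow_ne_zero _ hxyz))
  have hΔ := FA.Ribet.curve_Δ_ne_zero h1 h2' hne'
  have hd : 256 * (FA.Ribet.curve A' B').Δ = (A * B * C) ^ 2 * ((x * y * z) ^ (2 * k)) ^ p := by
    rw [FA.Ribet.curve_Δ h1 h2', h6, hprod]
    ring
  exact ⟨_, hΔ, FA.Ribet.curve_semistable h1 h2' hcop', by rw [hd]; ring,
    fun r hr _ hrM => FA.Ribet.dvd_padicValInt_of_eq hp.ne_zero hr (by norm_num) hΔ
      (by simpa using FA.Ribet.not_dvd_prime_pow_of_dvd (k := 8) Nat.prime_two h2 hr hrM)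
      (fun h => hrM (hs r hr ((Nat.prime_iff_prime_int.mp hr).dvd_of_dvd_pow h))) hd,
    fun l hl hlM hgood =>
      FA.Ribet.four_dvd_apOfModel_curve h1 h2' hl (fun h => hlM (h ▸ h2)) hgood⟩

end FA.CurveCriterion

end
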