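import Mathlib

/-!
# Reduction of `A x ^ n + B y ^ n + C z ^ n = 0` with odd coefficients

When the coefficients are odd and supported on a finite set `S` of primes, common prime factors of
the three terms can be removed: a prime of `S` goes into the coefficients and any other prime into
`x, y, z`. What remains has pairwise coprime terms, exactly one of them even, and that one is
divisible by `2 ^ n`.
-/

set_option autoImplicit false

noncomputable section

namespace FA.CurveCriterion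

/-- An odd number supported on `S` times an `n`-th power. -/
def IsOddSTerm (S : Finset ℕ) (n : ℕ) (t : ℤ) : Prop :=
  ∃ c w : ℤ, t = c * w ^ n ∧ Odd c ∧ ∀ r : ℕ, r.Prime → (r : ℤ) ∣ c → r ∈ S

variable {S : Finset ℕ} {n : ℕ}

/-- Removing a prime factor from a term. -/
theorem IsOddSTerm.exists_div (h2 : 2 ∉ S) (hn : n ≠ 0) {t : ℤ} {r : ℕ} (hr : r.Prime)
    (ht : IsOddSTerm S n t) (hd : (r : ℤ) ∣ t) :
    ∃ t' : ℤ, t = (if r ∈ S then (r : ℤ) else (r : ℤ) ^ n) * t' ∧ IsOddSTerm S n t' := by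
  obtain ⟨c, w, rfl, hc, hs⟩ := ht
  have hri := Nat.prime_iff_prime_int.mp hr
  split_ifs with hrS
  · by_cases hrc : (r : ℤ) ∣ c
    · obtain ⟨c', rfl⟩ := hrc
      exact ⟨c' * w ^ n, by ring, c', w, rfl, (Int.odd_mul.mp hc).2,
        fun q hq hqd => hs q hq (hqd.mul_left _)⟩
    · obtain ⟨w', rfl⟩ : (r : ℤ) ∣ w := hri.dvd_of_dvd_pow ((hri.dvd_or_dvd hd).resolve_left hrc)
      obtain ⟨m, rfl⟩ := Nat.exists_eq_add_one_of_ne_zero hn
      have hrodd : Odd (r : ℤ) := (Int.odd_coe_nat r).mpr (hr.odd_of_ne_two fun e => h2 (e ▸ hrS))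
      refine ⟨c * (r : ℤ) ^ m * w' ^ (m + 1), by ring, c * (r : ℤ) ^ m, w', rfl,
        hc.mul hrodd.pow, fun q hq hqd => ?_⟩
      rcases (Nat.prime_iff_prime_int.mp hq).dvd_or_dvd hqd with h | h
      · exact hs q hq h
      · exact (Nat.prime_dvd_prime_iff_eq hq hr).mp
          (Int.natCast_dvd_natCast.mp ((Nat.prime_iff_prime_int.mp hq).dvd_of_dvd_pow h)) ▸ hrS
  · obtain ⟨w', rfl⟩ : (r : ℤ) ∣ w :=
      hri.dvd_of_dvd_pow ((hri.dvd_or_dvd hd).resolve_left fun h => hrS (hs r hr h))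
    exact ⟨c * w' ^ n, by ring, c, w', rfl, hc, hs⟩

/-- The even term is divisible by `32`. -/
theorem IsOddSTerm.thirtyTwo_dvd (h5 : 5 ≤ n) {t : ℤ} (ht : IsOddSTerm S n t) (he : Even t) :
    (32 : ℤ) ∣ t := by
  obtain ⟨c, w, rfl, hc, -⟩ := ht
  have hw : (2 : ℤ) ∣ w := Int.prime_two.dvd_of_dvd_pow (n := n)
    ((Int.prime_two.dvd_or_dvd (even_iff_two_dvd.mp he)).resolve_left fun h =>
      Int.not_even_iff_odd.mpr hc (even_iff_two_dvd.mpr h))
  exact (((show (32 : ℤ) = 2 ^ 5 by norm_num) ▸ pow_dvd_pow 2 h5).trans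
    (pow_dvd_pow_of_dvd hw n)).mul_left c

/-- **The reduction**: three terms with sum zero come, up to a common factor, from coprime ones
with one divisible by `32`. -/
theorem exists_coprime_oddSTerms (h2 : 2 ∉ S) (h5 : 5 ≤ n) {t₁ t₂ t₃ : ℤ}
    (h₁ : IsOddSTerm S n t₁) (h₂ : IsOddSTerm S n t₂) (h₃ : IsOddSTerm S n t₃)
    (hne : t₁ * t₂ * t₃ ≠ 0) (hsum : t₁ + t₂ + t₃ = 0) :
    ∃ A B C x y z k : ℤ, A * B * C ≠ 0 ∧ x * y * z ≠ 0 ∧
      (∀ r : ℕ, r.Prime → (r : ℤ) ∣ A * B * C → r = 2 ∨ r ∈ S) ∧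
      IsCoprime (A * x ^ n) (B * y ^ n) ∧ (32 : ℤ) ∣ C * z ^ n ∧
      A * x ^ n + B * y ^ n + C * z ^ n = 0 ∧
      k ^ 3 * (A * x ^ n * (B * y ^ n) * (C * z ^ n)) = t₁ * t₂ * t₃ ∧ k ∣ t₁ ∧ k ∣ t₂ := by
  induction hN : t₁.natAbs using Nat.strong_induction_on generalizing t₁ t₂ t₃ with
  | _ N ih =>
    simp only [mul_ne_zero_iff] at hne
    obtain ⟨⟨n1, n2⟩, n3⟩ := hne
    by_cases hcom : ∃ r : ℕ, r.Prime ∧ (r : ℤ) ∣ t₁ ∧ (r : ℤ) ∣ t₂
    · obtain ⟨r, hr, d1, d2⟩ := hcom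
      have d3 : (r : ℤ) ∣ t₃ := by
        rw [show t₃ = -(t₁ + t₂) by linarith]
        exact (d1.add d2).neg_right
      have hn : n ≠ 0 := by omega
      obtain ⟨u₁, e1, g1⟩ := h₁.exists_div h2 hn hr d1
      obtain ⟨u₂, e2, g2⟩ := h₂.exists_div h2 hn hr d2
      obtain ⟨u₃, e3, g3⟩ := h₃.exists_div h2 hn hr d3
      set k : ℤ := if r ∈ S then (r : ℤ) else (r : ℤ) ^ n with hk
      clear_value k
      have hk2 : 2 ≤ k.natAbs := by
        rw [hk]
        split_ifs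
        · simpa using hr.two_le
        · simpa [Int.natAbs_pow] using hr.two_le.trans (Nat.le_self_pow hn r)
      subst e1 e2 e3
      obtain ⟨A, B, C, x, y, z, j, a1, a2, a3, a4, a5, a6, a7, a8, a9⟩ :=
        ih u₁.natAbs (by
          rw [← hN, Int.natAbs_mul]
          exact lt_mul_of_one_lt_left (Int.natAbs_pos.mpr (right_ne_zero_of_mul n1)) hk2)
          g1 g2 g3 (mul_ne_zero (mul_ne_zero (right_ne_zero_of_mul n1) (right_ne_zero_of_mul n2))
            (right_ne_zero_of_mul n3))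
          ((mul_eq_zero.mp (show k * (u₁ + u₂ + u₃) = 0 by linear_combination hsum)).resolve_left
            (left_ne_zero_of_mul n1)) rfl
      exact ⟨A, B, C, x, y, z, k * j, a1, a2, a3, a4, a5, a6, by linear_combination k ^ 3 * a7,
        mul_dvd_mul_left k a8, mul_dvd_mul_left k a9⟩
    · have hco : IsCoprime t₁ t₂ := by
        rw [Int.isCoprime_iff_nat_coprime]
        exact Nat.coprime_of_dvd fun r hr a b =>
          hcom ⟨r, hr, Int.natCast_dvd.mpr a, Int.natCast_dvd.mpr b⟩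
      have key : ∀ {a b c : ℤ}, IsOddSTerm S n a → IsOddSTerm S n b → IsOddSTerm S n c →
          a ≠ 0 → b ≠ 0 → c ≠ 0 → Even c → IsCoprime a b → a + b + c = 0 →
          a * b * c = t₁ * t₂ * t₃ →
          ∃ A B C x y z k : ℤ, A * B * C ≠ 0 ∧ x * y * z ≠ 0 ∧
            (∀ r : ℕ, r.Prime → (r : ℤ) ∣ A * B * C → r = 2 ∨ r ∈ S) ∧
            IsCoprime (A * x ^ n) (B * y ^ n) ∧ (32 : ℤ) ∣ C * z ^ n ∧
            A * x ^ n + B * y ^ n + C * z ^ n = 0 ∧
            k ^ 3 * (A * x ^ n * (B * y ^ n) * (C * z ^ n)) = t₁ * t₂ * t₃ ∧ k ∣ t₁ ∧ k ∣ t₂ := by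
        intro a b c ha hb hc a0 b0 c0 he hab habc hprod
        have h32 := hc.thirtyTwo_dvd h5 he
        obtain ⟨A, x, rfl, -, hA⟩ := ha
        obtain ⟨B, y, rfl, -, hB⟩ := hb
        obtain ⟨C, z, rfl, -, hC⟩ := hc
        have hnz : ∀ {u : ℤ}, u ^ n ≠ 0 → u ≠ 0 := fun h e => h (by rw [e, zero_pow (by omega)])
        refine ⟨A, B, C, x, y, z, 1, mul_ne_zero (mul_ne_zero (left_ne_zero_of_mul a0)
          (left_ne_zero_of_mul b0)) (left_ne_zero_of_mul c0),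
          mul_ne_zero (mul_ne_zero (hnz (right_ne_zero_of_mul a0))
            (hnz (right_ne_zero_of_mul b0))) (hnz (right_ne_zero_of_mul c0)),
          fun r hr hd => Or.inr ?_, hab, h32, habc, by linear_combination hprod, one_dvd _,
          one_dvd _⟩
        rcases (Nat.prime_iff_prime_int.mp hr).dvd_or_dvd hd with h | h
        · exact ((Nat.prime_iff_prime_int.mp hr).dvd_or_dvd h).elim (hA r hr) (hB r hr)
        · exact hC r hr h
      rcases Int.even_or_odd t₃ with e3 | o3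
      · exact key h₁ h₂ h₃ n1 n2 n3 e3 hco hsum rfl
      rcases Int.even_or_odd t₁ with e1 | o1
      · refine key h₂ h₃ h₁ n2 n3 n1 e1 ?_ (by linarith) (by ring)
        rw [show t₃ = -(t₁ + t₂ * 1) by linarith]
        exact (hco.symm.add_mul_left_right 1).neg_right
      rcases Int.even_or_odd t₂ with e2 | o2
      · refine key h₁ h₃ h₂ n1 n3 n2 e2 ?_ (by linarith) (by ring)
        rw [show t₃ = -(t₂ + t₁ * 1) by linarith]
        exact (hco.add_mul_left_right 1).neg_right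
      have hodd := (o1.add_odd o2).add_odd o3
      rw [hsum] at hodd
      exact absurd hodd (by decide)

/-- **No solution with coprime terms, one divisible by `32`, means none at all.** -/
theorem sum_oddSTerms_ne_zero (h2 : 2 ∉ S) (h5 : 5 ≤ n)
    (hbase : ∀ A B C x y z : ℤ, A * B * C ≠ 0 → x * y * z ≠ 0 →
      (∀ r : ℕ, r.Prime → (r : ℤ) ∣ A * B * C → r = 2 ∨ r ∈ S) →
      IsCoprime (A * x ^ n) (B * y ^ n) → (32 : ℤ) ∣ C * z ^ n →
      A * x ^ n + B * y ^ n + C * z ^ n ≠ 0) {t₁ t₂ t₃ : ℤ}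
    (h₁ : IsOddSTerm S n t₁) (h₂ : IsOddSTerm S n t₂) (h₃ : IsOddSTerm S n t₃)
    (hne : t₁ * t₂ * t₃ ≠ 0) : t₁ + t₂ + t₃ ≠ 0 := fun hsum => by
  obtain ⟨A, B, C, x, y, z, -, a1, a2, a3, a4, a5, a6, -⟩ :=
    exists_coprime_oddSTerms h2 h5 h₁ h₂ h₃ hne hsum
  exact hbase A B C x y z a1 a2 a3 a4 a5 a6

end FA.CurveCriterion

end
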