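import Fermat.Agent.Ribet.CurveCriterion.BinaryPowers

/-!
# Auxiliary primes for odd exponents, and two terms at an odd exponent
-/

set_option autoImplicit false

noncomputable section

namespace FA.CurveCriterion

/-- A prime `l` beyond any bound with `(l - 1) / 2` odd and prime to `M`. -/
theorem exists_prime_half_pred_coprime {M : ℕ} (hM : M ≠ 0) (N : ℕ) :
    ∃ l m : ℕ, l.Prime ∧ N < l ∧ l = 2 * m + 1 ∧ Odd m ∧ m.Coprime M := by
  have : NeZero (4 * M) := ⟨by omega⟩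
  obtain ⟨l, ⟨hl, hmod⟩, hN⟩ := (Nat.infinite_setOfPred_prime_and_eq_mod (q := 4 * M)
    (a := -1) isUnit_one.neg).exists_gt N
  have h : ((l + 1 : ℕ) : ZMod (4 * M)) = 0 := by
    push_cast
    rw [hmod]
    ring
  obtain ⟨j, hj⟩ := (ZMod.natCast_eq_zero_iff _ _).mp h
  have hj0 : 1 ≤ M * j := Nat.one_le_iff_ne_zero.mpr fun e => by
    rw [mul_assoc, e, mul_zero] at hj
    omega
  refine ⟨l, 2 * (M * j) - 1, hl, hN, by rw [mul_assoc] at hj; omega,
    ⟨M * j - 1, by omega⟩, Nat.coprime_of_dvd' fun q hq hqm hqM => ?_⟩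
  have hd : q ∣ 2 * (M * j) := (hqM.mul_right j).mul_left 2
  have := Nat.dvd_sub hd hqm
  rwa [show 2 * (M * j) - (2 * (M * j) - 1) = 1 by omega] at this

/-- For `|A|, |B| < 2 ^ n` two terms cancel only if `A = ± B` and `|x| = |y|`. -/
theorem binary_powers_any {A B x y : ℤ} {n : ℕ} (hA : A ≠ 0) (hB : B ≠ 0)
    (hAn : A.natAbs < 2 ^ n) (hBn : B.natAbs < 2 ^ n) (hxy : x ≠ 0 ∨ y ≠ 0)
    (h : A * x ^ n + B * y ^ n = 0) : (A + B = 0 ∨ A - B = 0) ∧ x.natAbs = y.natAbs := by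
  have hlt : ∀ {L : ℤ}, L.natAbs < 2 ^ n → (L ^ 2).natAbs < 2 ^ (2 * n) := fun hL => by
    rw [Int.natAbs_pow, mul_comm 2 n, pow_mul]
    exact Nat.pow_lt_pow_left hL two_ne_zero
  obtain ⟨e, -, e'⟩ := binary_powers (A := A ^ 2) (B := -B ^ 2) (n := 2 * n) (even_two_mul n)
    (pow_ne_zero 2 hA) (neg_ne_zero.mpr (pow_ne_zero 2 hB)) (hlt hAn)
    (by rw [Int.natAbs_neg]; exact hlt hBn) hxy
    (by linear_combination (A * x ^ n - B * y ^ n) * h)
  exact ⟨mul_eq_zero.mp (show (A + B) * (A - B) = 0 by linear_combination e), e'⟩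

/-- A rational point gives an integral one with the same zero coordinates. -/
theorem exists_integral_point_of_rat {A B C : ℤ} {n : ℕ} {x y z : ℚ}
    (h : (A : ℚ) * x ^ n + B * y ^ n + C * z ^ n = 0) :
    ∃ a b c : ℤ, ((x ≠ 0 → a ≠ 0) ∧ (y ≠ 0 → b ≠ 0) ∧ (z ≠ 0 → c ≠ 0)) ∧
      A * a ^ n + B * b ^ n + C * c ^ n = 0 := by
  refine ⟨x.num * y.den * z.den, y.num * x.den * z.den, z.num * x.den * y.den,
    ⟨?_, ?_, ?_⟩, ?_⟩
  iterate 3
    intro hq
    simp [Rat.num_ne_zero.mpr hq]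
  · have e : ((A * (x.num * y.den * z.den) ^ n + B * (y.num * x.den * z.den) ^ n +
        C * (z.num * x.den * y.den) ^ n : ℤ) : ℚ) = 0 := by
      push_cast
      rw [← Rat.mul_den_eq_num x, ← Rat.mul_den_eq_num y, ← Rat.mul_den_eq_num z]
      simp only [mul_pow]
      linear_combination ((x.den : ℚ) ^ n * (y.den : ℚ) ^ n * (z.den : ℚ) ^ n) * h
    exact_mod_cast e

end FA.CurveCriterion

end
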