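import Mathlib

/-!
# The linear factors of `a ∏ (x - r) ^ m = c y ^ n` over `ℚ` as powers

At every prime the valuation of `x - r` is bounded, or large and then the only large one among the
factors, or very negative and then common to all. So for exponents divisible by a fixed `M` it is
congruent modulo `n` to a bounded number, and `K (x - r) = b u ^ n` with a bounded integer `b`.
-/

set_option autoImplicit false

noncomputable section

namespace FA.CurveCriterion

/-- The product of numerator and denominator of a rational, as a natural number. -/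
def numMulDen (q : ℚ) : ℕ := q.num.natAbs * q.den

theorem numMulDen_ne_zero {q : ℚ} (hq : q ≠ 0) : numMulDen q ≠ 0 :=
  mul_ne_zero (Int.natAbs_ne_zero.mpr (Rat.num_ne_zero.mpr hq)) q.den_nz

variable {p : ℕ} [hp : Fact p.Prime]

/-- The valuation of a rational is bounded by that of numerator times denominator. -/
theorem abs_padicValRat_le {q : ℚ} (hq : q ≠ 0) :
    |padicValRat p q| ≤ padicValNat p (numMulDen q) := by
  rw [padicValRat_def, numMulDen,
    padicValNat.mul (Int.natAbs_ne_zero.mpr (Rat.num_ne_zero.mpr hq)) q.den_nz]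
  simp only [padicValInt]
  rw [abs_le]
  omega

/-- The valuation of a product. -/
theorem padicValRat_finsetProd {ι : Type*} (s : Finset ι) (f : ι → ℚ) (h : ∀ i ∈ s, f i ≠ 0) :
    padicValRat p (∏ i ∈ s, f i) = ∑ i ∈ s, padicValRat p (f i) := by
  classical
  induction s using Finset.induction with
  | empty => simp
  | insert i s hi ih =>
    rw [Finset.prod_insert hi, Finset.sum_insert hi,
      padicValRat.mul (h i (Finset.mem_insert_self i s)) (Finset.prod_ne_zero_iff.mpr fun j hj =>
        h j (Finset.mem_insert_of_mem hj)), ih fun j hj => h j (Finset.mem_insert_of_mem hj)]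

/-- The valuation of a product of natural numbers. -/
theorem padicValNat_finsetProd {ι : Type*} (s : Finset ι) (f : ι → ℕ) (h : ∀ i ∈ s, f i ≠ 0) :
    padicValNat p (∏ i ∈ s, f i) = ∑ i ∈ s, padicValNat p (f i) := by
  classical
  induction s using Finset.induction with
  | empty => simp
  | insert i s hi ih =>
    rw [Finset.prod_insert hi, Finset.sum_insert hi,
      padicValNat.mul (h i (Finset.mem_insert_self i s)) (Finset.prod_ne_zero_iff.mpr fun j hj =>
        h j (Finset.mem_insert_of_mem hj)), ih fun j hj => h j (Finset.mem_insert_of_mem hj)]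

omit hp in
/-- A rational whose valuations are bounded modulo `n` is `b u ^ n / K` with bounded `b`. -/
theorem exists_rat_power_part {K n : ℕ} (hK : K ≠ 0) (hn : n ≠ 0) {s : ℚ} (hs : s ≠ 0)
    (h : ∀ p : ℕ, p.Prime → ∃ e : ℤ, |e| ≤ padicValNat p K ∧ (n : ℤ) ∣ padicValRat p s - e) :
    ∃ (b : ℤ) (u : ℚ), (K : ℚ) * s = b * u ^ n ∧ b ≠ 0 ∧ b.natAbs ≤ K ^ 2 ∧ u ≠ 0 := by
  classical
  obtain ⟨m, rfl⟩ := Nat.exists_eq_add_one_of_ne_zero hn
  set N := s.num.natAbs
  have hN : N ≠ 0 := Int.natAbs_ne_zero.mpr (Rat.num_ne_zero.mpr hs)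
  set W := K * N * s.den ^ m
  have hW : W ≠ 0 := mul_ne_zero (mul_ne_zero hK hN) (pow_ne_zero m s.den_nz)
  set F := W.factorization
  set Fr := F.mapRange (· % (m + 1)) (by simp)
  set Fq := F.mapRange (· / (m + 1)) (by simp)
  have hpr : ∀ G : ℕ →₀ ℕ, G.support ⊆ F.support → ∀ r ∈ G.support, r.Prime := fun G hG r hr =>
    Nat.prime_of_mem_primeFactors (by simpa [F, Nat.support_factorization] using hG hr)
  have hFr := hpr Fr Finsupp.support_mapRange
  have hFq := hpr Fq Finsupp.support_mapRange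
  set b₀ := Fr.prod (· ^ ·)
  set u₀ := Fq.prod (· ^ ·)
  have hb0 : b₀ ≠ 0 := Finset.prod_ne_zero_iff.mpr fun r hr => pow_ne_zero _ (hFr r hr).ne_zero
  have hu0 : u₀ ≠ 0 := Finset.prod_ne_zero_iff.mpr fun r hr => pow_ne_zero _ (hFq r hr).ne_zero
  have hfb : b₀.factorization = Fr := Nat.prod_pow_factorization_eq_self hFr
  have hfu : u₀.factorization = Fq := Nat.prod_pow_factorization_eq_self hFq
  have hdec : W = b₀ * u₀ ^ (m + 1) := Nat.eq_of_factorization_eq hW
    (mul_ne_zero hb0 (pow_ne_zero _ hu0)) fun r => by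
      simp only [Nat.factorization_mul hb0 (pow_ne_zero _ hu0), Nat.factorization_pow, hfb, hfu,
        Finsupp.add_apply, Finsupp.smul_apply, smul_eq_mul, Fr, Fq, Finsupp.mapRange_apply, F]
      exact (Nat.mod_add_div _ _).symm
  have hbK : b₀ ∣ K ^ 2 := by
    rw [← Nat.factorization_le_iff_dvd hb0 (pow_ne_zero 2 hK), Finsupp.le_def]
    intro r
    by_cases hr : r.Prime
    swap
    · simp [Nat.factorization_eq_zero_of_not_prime _ hr]
    have := Fact.mk hr
    obtain ⟨e, he, j, hj⟩ := h r hr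
    rw [hfb, Finsupp.mapRange_apply, Nat.factorization_def _ hr, Nat.factorization_def _ hr,
      padicValNat.pow, padicValNat.mul (mul_ne_zero hK hN) (pow_ne_zero m s.den_nz),
      padicValNat.mul hK hN, padicValNat.pow]
    rw [padicValRat_def] at hj
    simp only [padicValInt] at hj
    change (padicValNat r K + padicValNat r N + m * padicValNat r s.den) % (m + 1) ≤ _
    rw [abs_le] at he
    obtain ⟨i, hi⟩ : ∃ i : ℕ, (i : ℤ) = padicValNat r K + e :=
      ⟨((padicValNat r K : ℤ) + e).toNat, Int.toNat_of_nonneg (by linarith [he.1])⟩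
    have hmod : (padicValNat r K + padicValNat r N + m * padicValNat r s.den) % (m + 1) =
        i % (m + 1) := by
      refine Nat.modEq_iff_dvd.mpr ⟨-(j + padicValNat r s.den), ?_⟩
      simp only [Nat.cast_add, Nat.cast_mul, Nat.cast_one] at hj ⊢
      rw [hi]
      linear_combination -hj
    rw [hmod]
    have := Nat.mod_le i (m + 1)
    omega
  have hle : b₀ ≤ K ^ 2 := Nat.le_of_dvd (pow_pos (Nat.pos_of_ne_zero hK) 2) hbK
  have hsD : (K : ℚ) * (N : ℚ) / s.den = b₀ * ((u₀ : ℚ) / s.den) ^ (m + 1) := by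
    have e : ((K * N * s.den ^ m : ℕ) : ℚ) = ((b₀ * u₀ ^ (m + 1) : ℕ) : ℚ) := by
      exact_mod_cast hdec
    push_cast at e
    rw [div_pow, ← mul_div_assoc, ← e, pow_succ]
    have := s.den_nz
    field_simp
  have hu : (u₀ : ℚ) / s.den ≠ 0 :=
    div_ne_zero (by exact_mod_cast hu0) (by exact_mod_cast s.den_nz)
  rcases Int.natAbs_eq s.num with e | e
  · refine ⟨b₀, (u₀ : ℚ) / s.den, ?_, by exact_mod_cast hb0, by simpa using hle, hu⟩
    rw [Int.cast_natCast, ← hsD]
    nth_rw 1 [← Rat.num_div_den s]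
    rw [e]
    simp only [Int.cast_natCast, N]
    ring
  · refine ⟨-b₀, (u₀ : ℚ) / s.den, ?_, neg_ne_zero.mpr (by exact_mod_cast hb0), by simpa using hle,
      hu⟩
    rw [Int.cast_neg, Int.cast_natCast, neg_mul, ← hsD]
    nth_rw 1 [← Rat.num_div_den s]
    rw [e]
    simp only [Int.cast_natCast, Int.cast_neg, N]
    ring

omit hp in
/-- **The factors**: one `K` and one `M` serve all exponents `M n`. -/
theorem exists_factor_bound (R : Finset ℚ) {m : ℚ → ℕ} (hm : ∀ r ∈ R, m r ≠ 0) {a c : ℚ}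
    (ha : a ≠ 0) (hc : c ≠ 0) :
    ∃ K M : ℕ, K ≠ 0 ∧ M ≠ 0 ∧ ∀ n : ℕ, n ≠ 0 → ∀ x y : ℚ, y ≠ 0 →
      a * ∏ r ∈ R, (x - r) ^ m r = c * y ^ (M * n) →
      ∀ r ∈ R, ∃ (b : ℤ) (u : ℚ),
        (K : ℚ) * (x - r) = b * u ^ n ∧ b ≠ 0 ∧ b.natAbs ≤ K ^ 2 ∧ u ≠ 0 := by
  classical
  rcases R.eq_empty_or_nonempty with rfl | hR
  · exact ⟨1, 1, one_ne_zero, one_ne_zero,
      fun n _ x y _ _ r hr => absurd hr (Finset.notMem_empty r)⟩
  set Sm := ∑ r ∈ R, m r with hSm
  set Δ := ∏ i ∈ R, ∏ j ∈ R.erase i, numMulDen (i - j)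
  have hij : ∀ i : ℚ, ∀ j ∈ R.erase i, i - j ≠ 0 := fun i j hj =>
    sub_ne_zero.mpr (Finset.ne_of_mem_erase hj).symm
  have hΔ : Δ ≠ 0 := Finset.prod_ne_zero_iff.mpr fun i _ =>
    Finset.prod_ne_zero_iff.mpr fun j hj => numMulDen_ne_zero (hij i j hj)
  set K := numMulDen a * numMulDen c * Δ ^ (Sm + 1)
  set P := ∏ r ∈ R, m r
  have hSm0 : Sm ≠ 0 := fun e => by
    obtain ⟨r, hr⟩ := hR
    exact hm r hr (Finset.sum_eq_zero_iff.mp e r hr)
  have hP : P ≠ 0 := Finset.prod_ne_zero_iff.mpr hm
  have hK : K ≠ 0 := mul_ne_zero (mul_ne_zero (numMulDen_ne_zero ha) (numMulDen_ne_zero hc))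
    (pow_ne_zero _ hΔ)
  refine ⟨K, P * Sm, hK, mul_ne_zero hP hSm0, fun n hn x y hy heq r hr => ?_⟩
  have hne : ∀ i ∈ R, x - i ≠ 0 := fun i hi e => mul_ne_zero hc (pow_ne_zero _ hy) (by
    rw [← heq, Finset.prod_eq_zero hi (by rw [e, zero_pow (hm i hi)]), mul_zero])
  refine exists_rat_power_part hK hn (hne r hr) fun q hq => ?_
  have := Fact.mk hq
  set w : ℚ → ℤ := fun i => padicValRat q (x - i)
  have heqv : padicValRat q a + ∑ i ∈ R, (m i : ℤ) * w i =
      padicValRat q c + ((P * Sm * n : ℕ) : ℤ) * padicValRat q y := by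
    have h := congrArg (padicValRat q) heq
    rw [padicValRat.mul ha (Finset.prod_ne_zero_iff.mpr fun i hi => pow_ne_zero _ (hne i hi)),
      padicValRat.mul hc (pow_ne_zero _ hy),
      padicValRat_finsetProd R _ (fun i hi => pow_ne_zero _ (hne i hi))] at h
    simp only [padicValRat.pow] at h
    exact h
  push_cast at heqv
  have hvK : (padicValNat q K : ℤ) = padicValNat q (numMulDen a) + padicValNat q (numMulDen c) +
      (Sm + 1) * padicValNat q Δ := by
    rw [padicValNat.mul (mul_ne_zero (numMulDen_ne_zero ha) (numMulDen_ne_zero hc))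
      (pow_ne_zero _ hΔ), padicValNat.mul (numMulDen_ne_zero ha) (numMulDen_ne_zero hc),
      padicValNat.pow]
    push_cast
    ring
  have hd : ∀ j ∈ R.erase r, |padicValRat q (r - j)| ≤ padicValNat q Δ := by
    intro j hj
    refine (abs_padicValRat_le (hij r j hj)).trans ?_
    have h1 : padicValNat q Δ = ∑ i ∈ R, ∑ j ∈ R.erase i, padicValNat q (numMulDen (i - j)) := by
      rw [padicValNat_finsetProd R _ fun i _ => Finset.prod_ne_zero_iff.mpr fun j hj =>
        numMulDen_ne_zero (hij i j hj)]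
      exact Finset.sum_congr rfl fun i _ =>
        padicValNat_finsetProd _ _ fun j hj => numMulDen_ne_zero (hij i j hj)
    rw [h1]
    exact_mod_cast (Finset.single_le_sum (f := fun j => padicValNat q (numMulDen (r - j)))
      (fun _ _ => Nat.zero_le _) hj).trans (Finset.single_le_sum
        (f := fun i => ∑ j ∈ R.erase i, padicValNat q (numMulDen (i - j)))
        (fun _ _ => Nat.zero_le _) hr)
  set δ : ℤ := (padicValNat q Δ : ℤ)
  have hδ : 0 ≤ δ := Int.natCast_nonneg _
  have ha' := abs_padicValRat_le (p := q) ha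
  have hc' := abs_padicValRat_le (p := q) hc
  have hx : ∀ j ∈ R.erase r, x - j = r - j + (x - r) := fun j _ => by ring
  have hm1 : (1 : ℤ) ≤ m r := by exact_mod_cast Nat.pos_of_ne_zero (hm r hr)
  have hS1 : (1 : ℤ) ≤ Sm := by exact_mod_cast Nat.pos_of_ne_zero hSm0
  have hPK : δ + (padicValNat q (numMulDen a) + padicValNat q (numMulDen c)) ≤ padicValNat q K := by
    rw [hvK]
    nlinarith
  rcases lt_or_ge δ (w r) with hbig | hsmall
  · -- the only large one
    obtain ⟨M', hM'⟩ : m r ∣ P * Sm := (Finset.dvd_prod_of_mem m hr).mul_right Sm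
    have hoth : |∑ j ∈ R.erase r, (m j : ℤ) * w j| ≤ (Sm : ℤ) * δ := by
      refine (Finset.abs_sum_le_sum_abs _ _).trans ?_
      rw [hSm, Nat.cast_sum, Finset.sum_mul]
      refine (Finset.sum_le_sum (g := fun j => (m j : ℤ) * δ) fun j hj => ?_).trans
        (Finset.sum_le_sum_of_subset_of_nonneg (Finset.erase_subset r R)
          fun j _ _ => mul_nonneg (Int.natCast_nonneg _) hδ)
      rw [abs_mul, Nat.abs_cast]
      refine mul_le_mul_of_nonneg_left ?_ (Int.natCast_nonneg _)
      have e : w j = padicValRat q (r - j) := by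
        simp only [w]
        rw [hx j hj]
        exact padicValRat.add_eq_of_lt (hx j hj ▸ hne j (Finset.mem_of_mem_erase hj)) (hij r j hj)
          (hne r hr) (lt_of_le_of_lt (le_abs_self _) (lt_of_le_of_lt (hd j hj) hbig))
      rw [e]
      exact hd j hj
    rw [← Finset.add_sum_erase R (fun i => (m i : ℤ) * w i) hr] at heqv
    set E := ∑ j ∈ R.erase r, (m j : ℤ) * w j
    refine ⟨w r - M' * n * padicValRat q y, ?_, ⟨M' * padicValRat q y, by ring⟩⟩
    have e : (m r : ℤ) * (w r - M' * n * padicValRat q y) =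
        padicValRat q c - padicValRat q a - E := by
      have : ((P : ℤ) * Sm) = (m r : ℤ) * M' := by exact_mod_cast hM'
      linear_combination heqv + (n : ℤ) * padicValRat q y * this
    have h1 : |(m r : ℤ) * (w r - M' * n * padicValRat q y)| ≤ padicValNat q K := by
      rw [e, hvK]
      rw [abs_le] at ha' hc' hoth ⊢
      constructor <;> linarith [ha'.1, ha'.2, hc'.1, hc'.2, hoth.1, hoth.2]
    rw [abs_mul, Nat.abs_cast] at h1
    exact (le_mul_of_one_le_left (abs_nonneg _) hm1).trans h1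
  rcases lt_or_ge (w r) (-δ) with hneg | hbd
  · -- very negative: common to all factors
    have hall : ∀ j ∈ R, w j = w r := fun j hj => by
      rcases eq_or_ne j r with rfl | hjr
      · rfl
      have hj' := Finset.mem_erase.mpr ⟨hjr, hj⟩
      simp only [w]
      rw [hx j hj', add_comm]
      exact padicValRat.add_eq_of_lt (add_comm (r - j) (x - r) ▸ hx j hj' ▸ hne j hj) (hne r hr)
        (hij r j hj') (lt_of_lt_of_le hneg (abs_le.mp (hd j hj')).1)
    rw [Finset.sum_congr rfl fun i hi => by rw [hall i hi], ← Finset.sum_mul, ← Nat.cast_sum,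
      ← hSm] at heqv
    refine ⟨w r - P * n * padicValRat q y, ?_, ⟨P * padicValRat q y, by ring⟩⟩
    have e : (Sm : ℤ) * (w r - P * n * padicValRat q y) = padicValRat q c - padicValRat q a := by
      linear_combination heqv
    have h1 : |(Sm : ℤ) * (w r - P * n * padicValRat q y)| ≤ padicValNat q K := by
      rw [e]
      rw [abs_le] at ha' hc' ⊢
      constructor <;> linarith [ha'.1, ha'.2, hc'.1, hc'.2]
    rw [abs_mul, Nat.abs_cast] at h1
    exact (le_mul_of_one_le_left (abs_nonneg _) hS1).trans h1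
  exact ⟨w r, abs_le.mpr ⟨by linarith, by linarith⟩, ⟨0, by simp [w]⟩⟩

end FA.CurveCriterion

end
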