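import Fermat.Agent.Ribet.CurveCriterion.RationalPowerPart

/-!
# A rational zero or pole as a power: `P (x) / Q (x) = c y ^ n`

For `P, Q` without common zero over `ℚ` of different degrees, `r` a zero of one, the valuation of
`x - r` at a prime is bounded, or large and then given by the lowest terms of the expansions at `r`,
or very negative and then given by the highest: so for exponents divisible by a fixed `M` we get
`K (x - r) = b u ^ n` with a bounded integer `b`.
-/

set_option autoImplicit false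

noncomputable section

open Polynomial

namespace FA.CurveCriterion

variable {p : ℕ} [hp : Fact p.Prime]

/-- A sum of rationals of valuation above `e` vanishes or has valuation above `e`. -/
theorem sum_eq_zero_or_lt_padicValRat {ι : Type*} (s : Finset ι) (f : ι → ℚ) {e : ℤ}
    (h : ∀ i ∈ s, f i ≠ 0 → e < padicValRat p (f i)) :
    ∑ i ∈ s, f i = 0 ∨ e < padicValRat p (∑ i ∈ s, f i) := by
  classical
  induction s using Finset.induction with
  | empty => exact Or.inl Finset.sum_empty
  | insert i s hi ih =>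
    rw [Finset.sum_insert hi]
    have hi' := h i (Finset.mem_insert_self i s)
    rcases eq_or_ne (f i) 0 with h0 | h0
    · rw [h0, zero_add]
      exact ih fun j hj => h j (Finset.mem_insert_of_mem hj)
    rcases ih fun j hj => h j (Finset.mem_insert_of_mem hj) with h1 | h1
    · rw [h1, add_zero]
      exact Or.inr (hi' h0)
    · by_cases hs : f i + ∑ j ∈ s, f j = 0
      · exact Or.inl hs
      · exact Or.inr (lt_of_lt_of_le (lt_min (hi' h0) h1)
          (padicValRat.min_le_padicValRat_add hs))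

/-- The valuation of a sum with a dominant term. -/
theorem padicValRat_sum_dominant {ι : Type*} {s : Finset ι} {f : ι → ℚ} {i : ι} (hi : i ∈ s)
    (h0 : f i ≠ 0)
    (h : ∀ j ∈ s, j ≠ i → f j ≠ 0 → padicValRat p (f i) < padicValRat p (f j)) :
    padicValRat p (∑ j ∈ s, f j) = padicValRat p (f i) := by
  classical
  rw [← Finset.add_sum_erase s f hi]
  rcases sum_eq_zero_or_lt_padicValRat (p := p) (s.erase i) f
    (fun j hj => h j (Finset.mem_of_mem_erase hj) (Finset.ne_of_mem_erase hj)) with h1 | h1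
  · rw [h1, add_zero]
  rcases eq_or_ne (∑ j ∈ s.erase i, f j) 0 with h2 | h2
  · rw [h2, add_zero]
  refine padicValRat.add_eq_of_lt (fun e => h1.ne ?_) h0 h2 h1
  rw [eq_neg_of_add_eq_zero_left e, padicValRat.neg]

/-- The lowest term dominates near the centre. -/
theorem padicValRat_eval_of_large {g : ℚ[X]} (hg : g ≠ 0) {δ : ℤ}
    (hδ : ∀ i ∈ g.support, |padicValRat p (g.coeff i)| ≤ δ) {s : ℚ} (hs : s ≠ 0)
    (h : 2 * δ < padicValRat p s) :
    padicValRat p (g.eval s) =
      padicValRat p (g.coeff g.natTrailingDegree) + g.natTrailingDegree * padicValRat p s := by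
  have hi := natTrailingDegree_mem_support_of_nonzero hg
  have hterm : ∀ i ∈ g.support, padicValRat p (g.coeff i * s ^ i) =
      padicValRat p (g.coeff i) + i * padicValRat p s := fun i hi => by
    rw [padicValRat.mul (mem_support_iff.mp hi) (pow_ne_zero i hs), padicValRat.pow]
  rw [eval_eq_sum, Polynomial.sum_def, padicValRat_sum_dominant hi
    (mul_ne_zero (mem_support_iff.mp hi) (pow_ne_zero _ hs)) (fun j hj hjm _ => ?_), hterm _ hi]
  rw [hterm _ hi, hterm j hj]
  have hlt : g.natTrailingDegree + 1 ≤ j :=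
    lt_of_le_of_ne (natTrailingDegree_le_of_mem_supp j hj) (Ne.symm hjm)
  have h1 := abs_le.mp (hδ _ hi)
  have h2 := abs_le.mp (hδ j hj)
  have hlt' : ((g.natTrailingDegree : ℤ) + 1) * padicValRat p s ≤ (j : ℤ) * padicValRat p s :=
    mul_le_mul_of_nonneg_right (by exact_mod_cast hlt) (by linarith)
  linarith

/-- The highest term dominates far from the centre. -/
theorem padicValRat_eval_of_small {g : ℚ[X]} (hg : g ≠ 0) {δ : ℤ}
    (hδ : ∀ i ∈ g.support, |padicValRat p (g.coeff i)| ≤ δ) {s : ℚ} (hs : s ≠ 0)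
    (h : padicValRat p s < -(2 * δ)) :
    padicValRat p (g.eval s) =
      padicValRat p (g.coeff g.natDegree) + g.natDegree * padicValRat p s := by
  have hi := natDegree_mem_support_of_nonzero hg
  have hterm : ∀ i ∈ g.support, padicValRat p (g.coeff i * s ^ i) =
      padicValRat p (g.coeff i) + i * padicValRat p s := fun i hi => by
    rw [padicValRat.mul (mem_support_iff.mp hi) (pow_ne_zero i hs), padicValRat.pow]
  rw [eval_eq_sum, Polynomial.sum_def, padicValRat_sum_dominant hi
    (mul_ne_zero (mem_support_iff.mp hi) (pow_ne_zero _ hs)) (fun j hj hjD _ => ?_), hterm _ hi]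
  rw [hterm _ hi, hterm j hj]
  have hlt : j + 1 ≤ g.natDegree := lt_of_le_of_ne (le_natDegree_of_mem_supp j hj) hjD
  have h1 := abs_le.mp (hδ _ hi)
  have h2 := abs_le.mp (hδ j hj)
  have hlt' : (g.natDegree : ℤ) * padicValRat p s ≤ ((j : ℤ) + 1) * padicValRat p s :=
    mul_le_mul_of_nonpos_right (by exact_mod_cast hlt) (by linarith)
  linarith

omit hp in
/-- **A rational zero or pole** of `P / Q`, the degrees different: one `K` and one `M` serve all
exponents `M n`. -/
theorem exists_ratio_factor_bound {P Q : ℚ[X]} (hnot : ∀ t : ℚ, P.eval t = 0 → Q.eval t ≠ 0)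
    (hP : P ≠ 0) (hQ : Q ≠ 0)
    (hdeg : P.natDegree ≠ Q.natDegree) {r : ℚ} (hr : P.eval r = 0 ∨ Q.eval r = 0) {c : ℚ}
    (hc : c ≠ 0) :
    ∃ K M : ℕ, K ≠ 0 ∧ M ≠ 0 ∧ ∀ n : ℕ, n ≠ 0 → ∀ x y : ℚ, y ≠ 0 →
      P.eval x = c * y ^ (M * n) * Q.eval x →
      ∃ (b : ℤ) (u : ℚ), (K : ℚ) * (x - r) = b * u ^ n ∧ b ≠ 0 ∧ b.natAbs ≤ K ^ 2 ∧ u ≠ 0 := by
  classical
  set gP := taylor r P with hgP'
  set gQ := taylor r Q with hgQ'
  have hgP : gP ≠ 0 := fun e => hP (by simpa [gP] using e)
  have hgQ : gQ ≠ 0 := fun e => hQ (by simpa [gQ] using e)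
  set D : ℤ := (gP.natDegree : ℤ) - gQ.natDegree
  have hD : D ≠ 0 := fun e => hdeg (by
    have h : gP.natDegree = gQ.natDegree := by omega
    rwa [natDegree_taylor, natDegree_taylor] at h)
  set m : ℤ := (gP.natTrailingDegree : ℤ) - gQ.natTrailingDegree
  have hm : m ≠ 0 := by
    have key : ∀ g : ℚ[X], g ≠ 0 → (g.natTrailingDegree = 0 ↔ g.eval 0 ≠ 0) := fun g hg =>
      ⟨fun e h0 => trailingCoeff_eq_zero.not.mpr hg
        (by rw [trailingCoeff, e, coeff_zero_eq_eval_zero, h0]),
        fun h0 => natTrailingDegree_eq_zero.mpr (Or.inr (by rwa [coeff_zero_eq_eval_zero]))⟩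
    have eP : gP.eval 0 = P.eval r := by rw [hgP', taylor_eval, zero_add]
    have eQ : gQ.eval 0 = Q.eval r := by rw [hgQ', taylor_eval, zero_add]
    rcases hr with h | h
    · have h1 : gP.natTrailingDegree ≠ 0 := fun e => (key gP hgP).mp e (eP.trans h)
      have h2 : gQ.natTrailingDegree = 0 := (key gQ hgQ).mpr (by rw [eQ]; exact hnot r h)
      omega
    · have h1 : gQ.natTrailingDegree ≠ 0 := fun e => (key gQ hgQ).mp e (eQ.trans h)
      have h2 : gP.natTrailingDegree = 0 :=
        (key gP hgP).mpr (by rw [eP]; exact fun e => hnot r e h)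
      omega
  have hcoeff : ∀ g : ℚ[X], ∀ i ∈ g.support, numMulDen (g.coeff i) ≠ 0 := fun g i hi =>
    numMulDen_ne_zero (mem_support_iff.mp hi)
  set AP := ∏ i ∈ gP.support, numMulDen (gP.coeff i)
  set AQ := ∏ i ∈ gQ.support, numMulDen (gQ.coeff i)
  have hAP : AP ≠ 0 := Finset.prod_ne_zero_iff.mpr (hcoeff gP)
  have hAQ : AQ ≠ 0 := Finset.prod_ne_zero_iff.mpr (hcoeff gQ)
  set A := numMulDen c * AP * AQ
  have hA : A ≠ 0 := mul_ne_zero (mul_ne_zero (numMulDen_ne_zero hc) hAP) hAQ
  refine ⟨A ^ 3, m.natAbs * D.natAbs, pow_ne_zero 3 hA,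
    mul_ne_zero (Int.natAbs_ne_zero.mpr hm) (Int.natAbs_ne_zero.mpr hD),
    fun n hn x y hy heq => ?_⟩
  have hQx : Q.eval x ≠ 0 := fun e => hnot x (by rw [heq, e, mul_zero]) e
  have hs : x - r ≠ 0 := fun e => by
    rw [sub_eq_zero.mp e] at heq hQx
    rcases hr with h | h
    · rw [h] at heq
      exact mul_ne_zero (mul_ne_zero hc (pow_ne_zero _ hy)) hQx heq.symm
    · exact hQx h
  refine exists_rat_power_part (pow_ne_zero 3 hA) hn hs fun q hq => ?_
  have := Fact.mk hq
  set w := padicValRat q (x - r)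
  set δ : ℤ := (padicValNat q A : ℤ)
  have hδ : 0 ≤ δ := Int.natCast_nonneg _
  have hvK : (padicValNat q (A ^ 3) : ℤ) = 3 * δ := by
    rw [padicValNat.pow]
    simp [δ]
  have hvA : δ = padicValNat q (numMulDen c) + (padicValNat q AP : ℤ) + padicValNat q AQ := by
    simp only [δ, A]
    rw [padicValNat.mul (mul_ne_zero (numMulDen_ne_zero hc) hAP) hAQ,
      padicValNat.mul (numMulDen_ne_zero hc) hAP]
    push_cast
    ring
  have hnn : ∀ N : ℕ, (0 : ℤ) ≤ (N : ℤ) := Int.natCast_nonneg
  have hca : |padicValRat q c| ≤ δ := (abs_padicValRat_le hc).trans (by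
    linarith [hnn (padicValNat q AP), hnn (padicValNat q AQ)])
  have hsingle : ∀ g : ℚ[X], ∀ i ∈ g.support, |padicValRat q (g.coeff i)| ≤
      (padicValNat q (∏ j ∈ g.support, numMulDen (g.coeff j)) : ℤ) := fun g i hi =>
    (abs_padicValRat_le (mem_support_iff.mp hi)).trans (by
      rw [padicValNat_finsetProd _ _ (hcoeff g)]
      exact_mod_cast Finset.single_le_sum
        (f := fun j => padicValNat q (numMulDen (g.coeff j))) (fun _ _ => Nat.zero_le _) hi)
  have haP : ∀ i ∈ gP.support, |padicValRat q (gP.coeff i)| ≤ δ := fun i hi =>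
    (hsingle gP i hi).trans (by
      linarith [hnn (padicValNat q (numMulDen c)), hnn (padicValNat q AQ)])
  have haQ : ∀ i ∈ gQ.support, |padicValRat q (gQ.coeff i)| ≤ δ := fun i hi =>
    (hsingle gQ i hi).trans (by
      linarith [hnn (padicValNat q (numMulDen c)), hnn (padicValNat q AP)])
  have hv : padicValRat q (gP.eval (x - r)) = padicValRat q c +
      ((m.natAbs * D.natAbs * n : ℕ) : ℤ) * padicValRat q y + padicValRat q (gQ.eval (x - r)) := by
    rw [hgP', hgQ', taylor_eval, taylor_eval, sub_add_cancel, heq,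
      padicValRat.mul (mul_ne_zero hc (pow_ne_zero _ hy)) hQx,
      padicValRat.mul hc (pow_ne_zero _ hy), padicValRat.pow]
  -- the dominant terms give the valuation of `x - r` modulo `n`
  have key : ∀ (vP vQ i M' : ℤ), |vP| ≤ δ → |vQ| ≤ δ → i ≠ 0 →
      ((m.natAbs * D.natAbs : ℕ) : ℤ) = i * M' →
      padicValRat q (gP.eval (x - r)) - padicValRat q (gQ.eval (x - r)) = vP - vQ + i * w →
      ∃ e : ℤ, |e| ≤ padicValNat q (A ^ 3) ∧ (n : ℤ) ∣ w - e := by
    intro vP vQ i M' h1 h2 hi hM h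
    refine ⟨w - M' * n * padicValRat q y, ?_, ⟨M' * padicValRat q y, by ring⟩⟩
    have e : i * (w - M' * n * padicValRat q y) = padicValRat q c - vP + vQ := by
      push_cast at hv hM
      linear_combination -h + hv + (n : ℤ) * padicValRat q y * hM
    have h3 : |i * (w - M' * n * padicValRat q y)| ≤ padicValNat q (A ^ 3) := by
      rw [e, hvK]
      exact (abs_add_le _ _).trans (by linarith [abs_sub (padicValRat q c) vP])
    rw [abs_mul] at h3
    exact (le_mul_of_one_le_left (abs_nonneg _) (Int.one_le_abs hi)).trans h3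
  have hdvd : ∀ {i : ℤ}, i ∣ m * D → ∃ M' : ℤ, ((m.natAbs * D.natAbs : ℕ) : ℤ) = i * M' :=
    fun {i} hid => by
      rw [← Int.natAbs_mul, Int.natCast_natAbs]
      exact (dvd_abs i (m * D)).mpr hid
  rcases lt_or_ge (2 * δ) w with hbig | hsmall
  · obtain ⟨M', hM'⟩ := hdvd (dvd_mul_right m D)
    refine key _ _ m M' (haP _ (natTrailingDegree_mem_support_of_nonzero hgP))
      (haQ _ (natTrailingDegree_mem_support_of_nonzero hgQ)) hm hM' ?_
    rw [padicValRat_eval_of_large hgP haP hs hbig, padicValRat_eval_of_large hgQ haQ hs hbig]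
    simp only [m, w]
    ring
  rcases lt_or_ge w (-(2 * δ)) with hneg | hbd
  · obtain ⟨M', hM'⟩ := hdvd (dvd_mul_left D m)
    refine key _ _ D M' (haP _ (natDegree_mem_support_of_nonzero hgP))
      (haQ _ (natDegree_mem_support_of_nonzero hgQ)) hD hM' ?_
    rw [padicValRat_eval_of_small hgP haP hs hneg, padicValRat_eval_of_small hgQ haQ hs hneg]
    simp only [D, w]
    ring
  exact ⟨w, abs_le.mpr ⟨by linarith, by linarith⟩, ⟨0, by simp⟩⟩

omit hp in
/-- **A rational root**: one `K` and one `M` serve all exponents `M n`. -/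
theorem exists_root_factor_bound {f : ℚ[X]} (hf : f ≠ 0) {r : ℚ} (hr : f.eval r = 0) {c : ℚ}
    (hc : c ≠ 0) :
    ∃ K M : ℕ, K ≠ 0 ∧ M ≠ 0 ∧ ∀ n : ℕ, n ≠ 0 → ∀ x y : ℚ, y ≠ 0 →
      f.eval x = c * y ^ (M * n) →
      ∃ (b : ℤ) (u : ℚ), (K : ℚ) * (x - r) = b * u ^ n ∧ b ≠ 0 ∧ b.natAbs ≤ K ^ 2 ∧ u ≠ 0 := by
  have hdeg : f.natDegree ≠ (1 : ℚ[X]).natDegree := by
    rw [natDegree_one]
    intro e
    rw [eq_C_of_natDegree_eq_zero e] at hr hf
    exact hf (by rw [eval_C] at hr; rw [hr, C_0])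
  obtain ⟨K, M, hK, hM, h⟩ := exists_ratio_factor_bound (Q := 1)
    (fun t _ => by rw [eval_one]; exact one_ne_zero) hf one_ne_zero
    hdeg (Or.inl hr) hc
  exact ⟨K, M, hK, hM, fun n hn x y hy heq =>
    h n hn x y hy (by rw [eval_one, mul_one]; exact heq)⟩

end FA.CurveCriterion

end
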