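import Fermat.Agent.SetzerNeumann.Diophantine
import Mathlib.Algebra.Ring.GeomSum

/-!
# The equation `x + y + z = 0` in numbers supported on `2` and an odd prime

If `q` is neither `2 ^ k + 1` nor `2 ^ k - 1`, a solution with `q` not dividing all three has two
equal terms.
-/

set_option autoImplicit false

namespace FA.CurveCriterion

/-- No power of an odd prime other than `2 ^ k ± 1` is next to a power of two. -/
theorem pow_ne_two_pow {q : ℕ} (hq : q.Prime) (h2 : q ≠ 2)
    (hne : ∀ k : ℕ, q ≠ 2 ^ k + 1 ∧ q + 1 ≠ 2 ^ k) {b : ℕ} (hb : b ≠ 0) (a : ℕ) :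
    q ^ b ≠ 2 ^ a + 1 ∧ q ^ b + 1 ≠ 2 ^ a := by
  constructor
  · intro e
    have hd : q - 1 ∣ 2 ^ a := by
      have := Nat.sub_dvd_pow_sub_pow q 1 b
      rwa [one_pow, e, Nat.add_sub_cancel] at this
    obtain ⟨k, -, hk⟩ := (Nat.dvd_prime_pow Nat.prime_two).mp hd
    have := hq.two_le
    exact (hne k).1 (by omega)
  · intro e
    obtain ⟨m, rfl | rfl⟩ := Nat.even_or_odd' b
    · have h8 : 8 < q ^ (2 * m) := by
        have : 3 ≤ q := by have := hq.two_le; omega
        calc 8 < 3 ^ 2 := by norm_num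
          _ ≤ q ^ 2 := Nat.pow_le_pow_left this 2
          _ ≤ q ^ (2 * m) := Nat.pow_le_pow_right hq.pos (by omega)
      have h4 : 4 ∣ q ^ (2 * m) + 1 := by
        rw [e]
        refine pow_dvd_pow 2 (show 2 ≤ a from ?_)
        by_contra! ha
        interval_cases a <;> omega
      obtain ⟨t, ht⟩ := hq.odd_of_ne_two h2 |>.pow (n := m)
      have hsq : q ^ (2 * m) = 4 * (t * t + t) + 1 := by rw [mul_comm, pow_mul, ht]; ring
      omega
    · have hd : q + 1 ∣ 2 ^ a := by
        have := (odd_two_mul_add_one m).nat_add_dvd_pow_add_pow q 1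
        rwa [one_pow, e] at this
      obtain ⟨k, -, hk⟩ := (Nat.dvd_prime_pow Nat.prime_two).mp hd
      exact (hne k).2 hk

/-- One even term: the odd ones are equal. -/
theorem eq_of_one_even {q : ℕ} (hq : q.Prime) (h2 : q ≠ 2)
    (hne : ∀ k : ℕ, q ≠ 2 ^ k + 1 ∧ q + 1 ≠ 2 ^ k) {x y z : ℤ} (hx0 : x ≠ 0) (h : x + y + z = 0)
    (hy : Odd y) (hz : Odd z)
    (hs : ∀ r : ℕ, r.Prime → (r : ℤ) ∣ x * y * z → r = 2 ∨ r = q)
    (hco : ¬ ((q : ℤ) ∣ y ∧ (q : ℤ) ∣ z)) : y = z := by
  have odd_pow : ∀ t : ℤ, Odd t → t ∣ x * y * z → ∃ b, t.natAbs = q ^ b := fun t ht hd =>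
    FA.SetzerNeumann.exists_natAbs_eq_pow (fun e => by subst e; exact absurd ht (by decide))
      fun r hr hrt => (hs r hr (hrt.trans hd)).resolve_left fun e => by
        subst e
        exact (Int.not_even_iff_odd.mpr ht) (even_iff_two_dvd.mpr hrt)
  obtain ⟨b, hb⟩ := odd_pow y hy ((dvd_mul_left y x).mul_right z)
  obtain ⟨c, hc⟩ := odd_pow z hz (dvd_mul_left z _)
  have key : ∀ {u v : ℤ} {n : ℕ}, u.natAbs = q ^ n → n ≠ 0 → v.natAbs = 1 → x + u + v = 0 →
      False := by
    intro u v n hu hn hv huv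
    have hqu : (q : ℤ) ∣ u := Int.natCast_dvd.mpr (hu ▸ dvd_pow_self q hn)
    have hqx : ¬ (q : ℤ) ∣ x := fun hd => hq.not_dvd_one (hv ▸ Int.natCast_dvd.mp
      (by rw [show v = -(x + u) by linarith]; exact (hd.add hqu).neg_right))
    obtain ⟨a, ha⟩ := FA.SetzerNeumann.exists_natAbs_eq_pow (p := 2) hx0 fun r hr hrx =>
      (hs r hr ((hrx.mul_right y).mul_right z)).resolve_right fun e => hqx (e ▸ hrx)
    have := pow_ne_two_pow hq h2 hne hn a
    omega
  rcases eq_or_ne b 0 with rfl | hb0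
  · rcases eq_or_ne c 0 with rfl | hc0
    · simp only [pow_zero] at hb hc
      omega
    · exact (key hc hc0 (by simpa using hb) (by linarith)).elim
  · rcases eq_or_ne c 0 with rfl | hc0
    · exact (key hb hb0 (by simpa using hc) h).elim
    · exact absurd ⟨Int.natCast_dvd.mpr (hb ▸ dvd_pow_self q hb0),
        Int.natCast_dvd.mpr (hc ▸ dvd_pow_self q hc0)⟩ hco

/-- **The equation `x + y + z = 0` in numbers supported on `2` and `q`.** -/
theorem eq_of_add_eq_zero {q : ℕ} (hq : q.Prime) (h2 : q ≠ 2)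
    (hne : ∀ k : ℕ, q ≠ 2 ^ k + 1 ∧ q + 1 ≠ 2 ^ k) {x y z : ℤ} (hxyz : x * y * z ≠ 0)
    (h : x + y + z = 0) (hs : ∀ r : ℕ, r.Prime → (r : ℤ) ∣ x * y * z → r = 2 ∨ r = q)
    (hco : ¬ ((q : ℤ) ∣ x ∧ (q : ℤ) ∣ y)) : x = y ∨ y = z ∨ x = z := by
  induction hk : x.natAbs + y.natAbs using Nat.strong_induction_on generalizing x y z with
  | _ k ih =>
    simp only [mul_ne_zero_iff] at hxyz
    obtain ⟨⟨hx0, hy0⟩, hz0⟩ := hxyz
    rcases Int.even_or_odd x with hx | hx <;> rcases Int.even_or_odd y with hy | hy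
    · obtain ⟨x', rfl⟩ := even_iff_two_dvd.mp hx
      obtain ⟨y', rfl⟩ := even_iff_two_dvd.mp hy
      obtain ⟨z', rfl⟩ : (2 : ℤ) ∣ z := ⟨-(x' + y'), by linarith⟩
      rcases ih (x'.natAbs + y'.natAbs) (by omega) (x := x') (y := y') (z := z')
        (mul_ne_zero (mul_ne_zero (by omega) (by omega)) (by omega)) (by linarith)
        (fun r hr hd => hs r hr (hd.trans ⟨8, by ring⟩))
        (fun e => hco ⟨e.1.mul_left 2, e.2.mul_left 2⟩) rfl with e | e | e <;> omega
    · have hz : Odd z := Int.not_even_iff_odd.mp fun hz => by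
        rw [← Int.not_even_iff_odd, even_iff_two_dvd] at hy
        rw [even_iff_two_dvd] at hx hz
        omega
      exact Or.inr (Or.inl (eq_of_one_even hq h2 hne hx0 h hy hz hs fun e => hco
        ⟨by rw [show x = -(y + z) by linarith]; exact (e.1.add e.2).neg_right, e.1⟩))
    · have hz : Odd z := Int.not_even_iff_odd.mp fun hz => by
        rw [← Int.not_even_iff_odd, even_iff_two_dvd] at hx
        rw [even_iff_two_dvd] at hy hz
        omega
      exact Or.inr (Or.inr (eq_of_one_even hq h2 hne hy0 (by linarith) hx hz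
        (fun r hr hd => hs r hr (by rwa [mul_comm x y])) fun e => hco
          ⟨e.1, by rw [show y = -(x + z) by linarith]; exact (e.1.add e.2).neg_right⟩))
    · exact Or.inl (eq_of_one_even hq h2 hne hz0 (by linarith) hx hy
        (fun r hr hd => hs r hr (by rwa [show x * y * z = z * x * y by ring])) hco)

end FA.CurveCriterion
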