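import Fermat.Agent.Ribet.CurveCriterion.TwoTorsion

/-!
# The `S`-unit criterion

For a finite set `S` of odd primes, a semistable curve with good reduction outside `S ∪ {2}` and
four dividing all `l + 1 - a_l` gives `a² - 64 d = g`, `d` prime to `g`, with `d` or `g` a square:
so three pairwise coprime `S ∪ {2}`-numbers with sum zero, one divisible by sixteen.
-/

set_option autoImplicit false
set_option linter.style.haveILetI false

noncomputable section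

open WeierstrassCurve

namespace FA.CurveCriterion

/-- There are no pairwise coprime `x + y + z = 0` supported on `S ∪ {2}` with `x`, `y` odd and
sixteen dividing `z`. -/
def NoSUnitTriple (S : Finset ℕ) : Prop :=
  ∀ x y z : ℤ, x * y * z ≠ 0 → x + y + z = 0 → Odd x → Odd y → IsCoprime x y → (16 : ℤ) ∣ z →
    (∀ r : ℕ, r.Prime → (r : ℤ) ∣ x * y * z → r = 2 ∨ r ∈ S) → False

/-- A triple from `a² - 64 d = g` with `g` a square. -/
theorem false_of_g_square {S : Finset ℕ} {a d g r : ℤ}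
    (hrel : ∀ x y z : ℤ, x * y * z ≠ 0 → x + y + z = 0 → Odd x →
      Odd y → IsCoprime x y → (16 : ℤ) ∣ z →
      (∀ r : ℕ, r.Prime → (r : ℤ) ∣ x * y * z → r = 2 ∨ r ∈ S) → ((2 : ℤ) ∣ d → (32 : ℤ) ∣ z) →
      False) (ha : Odd a)
    (hd : d ≠ 0) (hg : g ≠ 0) (hco : IsCoprime d g) (h : a ^ 2 - 64 * d = g) (hr : g = r * r)
    (hs : ∀ p : ℕ, p.Prime → (p : ℤ) ∣ d * g → p = 2 ∨ p ∈ S) : False := by
  have hgodd : Odd g := by
    rw [← h]; exact (ha.pow (n := 2)).sub_even ⟨32 * d, by ring⟩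
  have hrodd : Odd r := by
    rw [hr] at hgodd
    exact (Int.odd_mul.mp hgodd).1
  obtain ⟨e, he⟩ : (2 : ℤ) ∣ a - r := even_iff_two_dvd.mp (ha.sub_odd hrodd)
  obtain rfl : a = r + 2 * e := by linarith
  have he' : e * (e + r) = 16 * d := by
    rw [hr] at h
    linarith
  have h2g : IsCoprime (16 : ℤ) g := by
    obtain ⟨t, rfl⟩ := hgodd
    exact (show IsCoprime (2 : ℤ) (2 * t + 1) from ⟨-t, 1, by ring⟩).pow_left (m := 4)
  have hre : IsCoprime r (e * (e + r)) := by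
    rw [he']
    exact ((h2g.symm.of_isCoprime_of_dvd_left (hr ▸ dvd_mul_right r r)).mul_right
      (hco.symm.of_isCoprime_of_dvd_left (hr ▸ dvd_mul_right r r)))
  have he0 : e ≠ 0 ∧ e + r ≠ 0 := mul_ne_zero_iff.mp (by rw [he']; omega)
  have hr0 : r ≠ 0 := fun e' => hg (by rw [hr, e', zero_mul])
  have hsupp : ∀ p : ℕ, p.Prime → (p : ℤ) ∣ r * (e * (e + r)) → p = 2 ∨ p ∈ S :=
      fun p hp hd' => by
    rw [he'] at hd'
    rcases (Nat.prime_iff_prime_int.mp hp).dvd_or_dvd hd' with h' | h'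
    · exact hs p hp ((hr ▸ h'.mul_right r).mul_left d)
    · rcases (Nat.prime_iff_prime_int.mp hp).dvd_or_dvd h' with h'' | h''
      · exact Or.inl ((Nat.prime_dvd_prime_iff_eq hp Nat.prime_two).mp
          (hp.dvd_of_dvd_pow (n := 4) (by exact_mod_cast h'')))
      · exact hs p hp (h''.mul_right g)
  rcases Int.even_or_odd e with hee | heo
  · have h16 : (16 : ℤ) ∣ e := by
      refine IsCoprime.dvd_of_dvd_mul_right ?_ (he' ▸ dvd_mul_right 16 d)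
      obtain ⟨t, ht⟩ := hee.add_odd hrodd
      rw [ht]
      exact (show IsCoprime (2 : ℤ) (2 * t + 1) from ⟨-t, 1, by ring⟩).pow_left (m := 4)
    have h32 : (2 : ℤ) ∣ d → (32 : ℤ) ∣ e := fun h2d => by
      refine IsCoprime.dvd_of_dvd_mul_right ?_
        (he' ▸ (mul_dvd_mul_left 16 h2d : (32 : ℤ) ∣ 16 * d))
      obtain ⟨t, ht⟩ := hee.add_odd hrodd
      rw [ht]
      exact (show IsCoprime (2 : ℤ) (2 * t + 1) from ⟨-t, 1, by ring⟩).pow_left (m := 5)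
    exact hrel r (-(e + r)) e (mul_ne_zero (mul_ne_zero hr0 (neg_ne_zero.mpr he0.2)) he0.1)
      (by ring) hrodd
      (hee.add_odd hrodd).neg hre.of_mul_right_right.neg_right h16 (fun p hp hd' =>
        hsupp p hp (by rwa [show r * (e * (e + r)) = -(r * -(e + r) * e) by ring, dvd_neg])) h32
  · have h16 : (16 : ℤ) ∣ e + r := by
      refine IsCoprime.dvd_of_dvd_mul_left ?_ (he' ▸ dvd_mul_right 16 d)
      obtain ⟨t, ht⟩ := heo
      rw [ht]
      exact (show IsCoprime (2 : ℤ) (2 * t + 1) from ⟨-t, 1, by ring⟩).pow_left (m := 4)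
    have h32 : (2 : ℤ) ∣ d → (32 : ℤ) ∣ e + r := fun h2d => by
      refine IsCoprime.dvd_of_dvd_mul_left ?_
        (he' ▸ (mul_dvd_mul_left 16 h2d : (32 : ℤ) ∣ 16 * d))
      obtain ⟨t, ht⟩ := heo
      rw [ht]
      exact (show IsCoprime (2 : ℤ) (2 * t + 1) from ⟨-t, 1, by ring⟩).pow_left (m := 5)
    exact hrel (-r) (-e) (e + r)
      (mul_ne_zero (mul_ne_zero (neg_ne_zero.mpr hr0) (neg_ne_zero.mpr he0.1)) he0.2)
      (by ring) hrodd.neg heo.neg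
      hre.of_mul_right_left.neg_neg h16 (fun p hp hd' =>
        hsupp p hp (by rwa [show r * (e * (e + r)) = -r * -e * (e + r) by ring])) h32

/-- A triple from `a² - 64 d = g` with `d` a square. -/
theorem false_of_d_square {S : Finset ℕ} {a d g t : ℤ}
    (hrel : ∀ x y z : ℤ, x * y * z ≠ 0 → x + y + z = 0 → Odd x →
      Odd y → IsCoprime x y → (16 : ℤ) ∣ z →
      (∀ r : ℕ, r.Prime → (r : ℤ) ∣ x * y * z → r = 2 ∨ r ∈ S) → ((2 : ℤ) ∣ d → (32 : ℤ) ∣ z) →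
      False) (ha : Odd a)
    (hd : d ≠ 0) (hg : g ≠ 0) (hco : IsCoprime d g) (h : a ^ 2 - 64 * d = g) (ht : d = t * t)
    (hs : ∀ p : ℕ, p.Prime → (p : ℤ) ∣ d * g → p = 2 ∨ p ∈ S) : False := by
  have he : (a - 8 * t) * (a + 8 * t) = g := by rw [← h, ht]; ring
  have hx : Odd (a - 8 * t) := ha.sub_even ⟨4 * t, by ring⟩
  have hy : Odd (a + 8 * t) := ha.add_even ⟨4 * t, by ring⟩
  have hcz : IsCoprime (a - 8 * t) (16 * t) := by
    refine IsCoprime.mul_right ?_ ((hco.symm.of_isCoprime_of_dvd_left (he ▸ dvd_mul_right _ _))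
      |>.of_isCoprime_of_dvd_right (ht ▸ dvd_mul_right t t))
    obtain ⟨k, hk⟩ := hx
    rw [hk]
    exact (show IsCoprime (2 * k + 1) (2 : ℤ) from ⟨1, -k, by ring⟩).pow_right (n := 4)
  have hxy : IsCoprime (a - 8 * t) (-(a + 8 * t)) := by
    rw [show -(a + 8 * t) = -(16 * t) + (a - 8 * t) * -1 by ring]
    exact hcz.neg_right.add_mul_left_right (-1)
  have ht0 : t ≠ 0 := fun e => hd (by rw [ht, e, zero_mul])
  have hne := mul_ne_zero_iff.mp (he.symm ▸ hg)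
  refine hrel (a - 8 * t) (-(a + 8 * t)) (16 * t)
    (mul_ne_zero (mul_ne_zero hne.1 (neg_ne_zero.mpr hne.2)) (by omega)) (by ring) hx hy.neg
    hxy (dvd_mul_right 16 t) (fun p hp hd' => ?_) fun h2d => (show (32 : ℤ) = 16 * 2 by norm_num) ▸
      mul_dvd_mul_left 16 ((Int.prime_two.dvd_or_dvd (ht ▸ h2d)).elim id id)
  rw [show (a - 8 * t) * -(a + 8 * t) * (16 * t) = -(16 * (g * t)) by rw [← he]; ring,
    dvd_neg] at hd'
  rcases (Nat.prime_iff_prime_int.mp hp).dvd_or_dvd hd' with h' | h'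
  · exact Or.inl ((Nat.prime_dvd_prime_iff_eq hp Nat.prime_two).mp
      (hp.dvd_of_dvd_pow (n := 4) (by exact_mod_cast h')))
  · exact hs p hp (h'.trans ⟨t, by rw [ht]; ring⟩)

/-- **The shape of the curve**: `a² - 64 d = g` with `d` or `g` a square. -/
theorem exists_shape_square {S : Finset ℕ} (hS : ∀ q ∈ S, q.Prime)
    {V : WeierstrassCurve ℤ} (hΔ : V.Δ ≠ 0) (hV : V.IsSemistableModel)
    (hgood : ∀ l : ℕ, l.Prime → ¬ l ∣ 2 * ∏ q ∈ S, q → V.IsGoodPrimeFor l)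
    (h4 : ∀ l : ℕ, l.Prime → ¬ l ∣ 2 * ∏ q ∈ S, q → (4 : ℤ) ∣ (l : ℤ) + 1 - V.apOfModel l) :
    ∃ a d g : ℤ, Odd a ∧ d ≠ 0 ∧ g ≠ 0 ∧ IsCoprime d g ∧ a ^ 2 - 64 * d = g ∧
      (∀ p : ℕ, p.Prime → (p : ℤ) ∣ d * g → p = 2 ∨ p ∈ S) ∧ ((2 : ℤ) ∣ V.Δ → (2 : ℤ) ∣ d) ∧
      (IsSquare d ∨ IsSquare g) := by
  have hM : 2 * ∏ q ∈ S, q ≠ 0 :=
    mul_ne_zero two_ne_zero (Finset.prod_ne_zero_iff.mpr fun q hq => (hS q hq).ne_zero)
  obtain ⟨x, hx⟩ := FA.SetzerNeumann.exists_root_of_reducible_two hΔ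
    (reducible_two_of_even hΔ hM fun l hl hlM =>
      (show (2 : ℤ) ∣ 4 from ⟨2, rfl⟩).trans (h4 l hl hlM))
  obtain ⟨X, -, hX⟩ := FA.SetzerNeumann.exists_int_root hx
  obtain ⟨A, B, hA, hB, hc, hD⟩ := FA.SetzerNeumann.exists_shift hX
  obtain ⟨a, d, g, ha, hg, hcase⟩ := FA.SetzerNeumann.two_shapes hV hc hD
  have hdiv : d ∣ V.Δ ∧ g ∣ V.Δ := by
    rcases hcase with ⟨e, -⟩ | ⟨e, -⟩ <;> rw [e]
    · exact ⟨(dvd_pow_self d two_ne_zero).mul_right g, dvd_mul_left g _⟩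
    · exact ⟨dvd_mul_left d _, (dvd_pow_self g two_ne_zero).mul_right d⟩
  have hd0 : d ≠ 0 := fun e => hΔ (zero_dvd_iff.mp (e ▸ hdiv.1))
  have hg0 : g ≠ 0 := fun e => hΔ (zero_dvd_iff.mp (e ▸ hdiv.2))
  have hco : IsCoprime d g := by
    rw [Int.isCoprime_iff_nat_coprime]
    refine Nat.coprime_of_dvd fun r hr hrd hrg => ?_
    have h1 : (r : ℤ) ∣ d := Int.natCast_dvd.mpr hrd
    have h2 : (r : ℤ) ∣ g := Int.natCast_dvd.mpr hrg
    have hra : (r : ℤ) ∣ a := (Nat.prime_iff_prime_int.mp hr).dvd_of_dvd_pow (n := 2)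
      (by rw [show a ^ 2 = g + 64 * d by linarith]; exact h2.add (h1.mul_left 64))
    refine hV r hr (h1.trans hdiv.1) ?_
    rcases hcase with ⟨-, e, -⟩ | ⟨-, e, -⟩ <;> rw [e]
    · exact (dvd_pow hra two_ne_zero).sub (h1.mul_left 48)
    · exact ((dvd_pow hra two_ne_zero).mul_left 4).sub (h2.mul_left 3)
  have hsupp : ∀ p : ℕ, p.Prime → (p : ℤ) ∣ d * g → p = 2 ∨ p ∈ S := fun p hp hpdg => by
    have hpΔ : (p : ℤ) ∣ V.Δ := ((Nat.prime_iff_prime_int.mp hp).dvd_or_dvd hpdg).elim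
      (·.trans hdiv.1) (·.trans hdiv.2)
    by_contra! hne
    refine hgood p hp (fun h' => (hp.dvd_mul.mp h').elim
      (fun e => hne.1 ((Nat.prime_dvd_prime_iff_eq hp Nat.prime_two).mp e)) fun e => ?_) hpΔ
    obtain ⟨q, hq, hpq⟩ := hp.prime.exists_mem_finset_dvd e
    exact hne.2 ((Nat.prime_dvd_prime_iff_eq hp (hS q hq)).mp hpq ▸ hq)
  have hsq : IsSquare B ∨ IsSquare (A ^ 2 - 4 * B) := by
    by_contra! h
    obtain ⟨l, hl, h5, hlF, hb, hd⟩ :=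
      exists_prime_not_isSquare h.1 h.2 (2 * ∏ q ∈ S, q).primeFactors
    have hl2q : ¬ l ∣ 2 * ∏ q ∈ S, q := fun e => hlF (Nat.mem_primeFactors.mpr ⟨hl, e, hM⟩)
    rcases isSquare_mod_or hX hA hB hl (by omega) (hgood l hl hl2q) (h4 l hl hl2q) with e | e
    exacts [hb e, hd e]
  have hdg : IsSquare d ∨ IsSquare g := by
    rcases hcase with ⟨-, -, eA, eB⟩ | ⟨-, -, eA, eB⟩ <;> rw [eA, eB] at hsq
    · refine hsq.imp (fun ⟨s, hs⟩ => FA.SetzerNeumann.isSquare_of_mul_sq (a := 4) (b := s)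
        (fun e => ?_) (by linarith))
        fun h => by rwa [show a ^ 2 - 4 * (16 * d) = g by linarith] at h
      rw [e] at hs
      omega
    · refine hsq.symm.imp (fun ⟨s, hs⟩ => FA.SetzerNeumann.isSquare_of_mul_sq (a := 16) (b := s)
        (fun e => ?_) (by linarith)) id
      rw [e] at hs
      exact hd0 (by linarith)
  refine ⟨a, d, g, ha, hd0, hg0, hco, hg, hsupp, fun h2 => ?_, hdg⟩
  have hgodd : Odd g := by
    rw [← hg]; exact (ha.pow (n := 2)).sub_even ⟨32 * d, by ring⟩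
  have h2g : ¬ (2 : ℤ) ∣ g := fun h => Int.not_even_iff_odd.mpr hgodd (even_iff_two_dvd.mpr h)
  rcases hcase with ⟨e, -⟩ | ⟨e, -⟩ <;> rw [e] at h2 <;>
    rcases Int.prime_two.dvd_or_dvd h2 with h | h
  exacts [Int.prime_two.dvd_of_dvd_pow h, absurd h h2g,
    absurd (Int.prime_two.dvd_of_dvd_pow h) h2g, h]

/-- **The criterion on curves.** -/
theorem not_four_dvd_traces_of_noTriple {S : Finset ℕ} (hS : ∀ q ∈ S, q.Prime)
    (hrel : NoSUnitTriple S) {V : WeierstrassCurve ℤ} (hΔ : V.Δ ≠ 0) (hV : V.IsSemistableModel)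
    (hgood : ∀ l : ℕ, l.Prime → ¬ l ∣ 2 * ∏ q ∈ S, q → V.IsGoodPrimeFor l)
    (h4 : ∀ l : ℕ, l.Prime → ¬ l ∣ 2 * ∏ q ∈ S, q → (4 : ℤ) ∣ (l : ℤ) + 1 - V.apOfModel l) :
    False := by
  obtain ⟨a, d, g, ha, hd0, hg0, hco, hg, hs, -, hdg⟩ := exists_shape_square hS hΔ hV hgood h4
  rcases hdg with ⟨t, ht⟩ | ⟨r, hr⟩
  · exact false_of_d_square (fun x y z h1 h2 h3 h4 h5 h6 h7 _ => hrel x y z h1 h2 h3 h4 h5 h6 h7)
      ha hd0 hg0 hco hg ht hs
  · exact false_of_g_square (fun x y z h1 h2 h3 h4 h5 h6 h7 _ => hrel x y z h1 h2 h3 h4 h5 h6 h7)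
      ha hd0 hg0 hco hg hr hs

/-- **The criterion on curves bad at two**: only triples with `32 ∣ z` count. -/
theorem not_four_dvd_traces_of_noTriple_two {S : Finset ℕ} (hS : ∀ q ∈ S, q.Prime)
    (hrel : ∀ x y z : ℤ, x * y * z ≠ 0 → x + y + z = 0 → Odd x → Odd y → IsCoprime x y →
      (32 : ℤ) ∣ z → (∀ r : ℕ, r.Prime → (r : ℤ) ∣ x * y * z → r = 2 ∨ r ∈ S) → False)
    {V : WeierstrassCurve ℤ} (hΔ : V.Δ ≠ 0) (hV : V.IsSemistableModel) (h2 : (2 : ℤ) ∣ V.Δ)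
    (hgood : ∀ l : ℕ, l.Prime → ¬ l ∣ 2 * ∏ q ∈ S, q → V.IsGoodPrimeFor l)
    (h4 : ∀ l : ℕ, l.Prime → ¬ l ∣ 2 * ∏ q ∈ S, q → (4 : ℤ) ∣ (l : ℤ) + 1 - V.apOfModel l) :
    False := by
  obtain ⟨a, d, g, ha, hd0, hg0, hco, hg, hs, h2d, hdg⟩ := exists_shape_square hS hΔ hV hgood h4
  rcases hdg with ⟨t, ht⟩ | ⟨r, hr⟩
  · exact false_of_d_square (fun x y z h1 h3 h4 h5 h6 _ h7 h32 =>
      hrel x y z h1 h3 h4 h5 h6 (h32 (h2d h2)) h7) ha hd0 hg0 hco hg ht hs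
  · exact false_of_g_square (fun x y z h1 h3 h4 h5 h6 _ h7 h32 =>
      hrel x y z h1 h3 h4 h5 h6 (h32 (h2d h2)) h7) ha hd0 hg0 hco hg hr hs

/-- Products of primes `≡ 1, 19 (mod 24)`. -/
theorem mod_twentyFour {n : ℕ} (hn : n ≠ 0)
    (h : ∀ p : ℕ, p.Prime → p ∣ n → p % 24 = 1 ∨ p % 24 = 19) : n % 24 = 1 ∨ n % 24 = 19 := by
  induction n using Nat.recOnMul with
  | zero => exact absurd rfl hn
  | one => exact Or.inl rfl
  | prime p hp => exact h p hp dvd_rfl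
  | mul a b iha ihb =>
    obtain ⟨ha, hb⟩ := mul_ne_zero_iff.mp hn
    have h1 := iha ha fun p hp hd => h p hp (hd.mul_right b)
    have h2 := ihb hb fun p hp hd => h p hp (hd.mul_left a)
    rw [Nat.mul_mod]
    rcases h1 with e | e <;> rcases h2 with e' | e' <;> rw [e, e'] <;> norm_num

/-- **No triple when all primes are `≡ 1, 19 (mod 24)`.** -/
theorem noSUnitTriple_twentyFour {S : Finset ℕ} (hS : ∀ q ∈ S, q % 24 = 1 ∨ q % 24 = 19) :
    NoSUnitTriple S := by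
  intro x y z hne h hx hy _ h16 hs
  have hodd : ∀ t : ℤ, Odd t → t ∣ x * y * z → t.natAbs % 24 = 1 ∨ t.natAbs % 24 = 19 :=
    fun t ht htd => mod_twentyFour (by obtain ⟨k, rfl⟩ := ht; omega) fun p hp hpt => hS p <|
      (hs p hp ((Int.natCast_dvd.mpr hpt).trans htd)).resolve_left fun e => by
        subst e
        exact Int.not_even_iff_odd.mpr ht (Int.natAbs_even.mp (even_iff_two_dvd.mpr hpt))
  have h1 := hodd x hx ((dvd_mul_right x y).mul_right z)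
  have h2 := hodd y hy ((dvd_mul_left y x).mul_right z)
  have h3 : ¬ (3 : ℤ) ∣ z := fun hd => by
    rcases hs 3 Nat.prime_three ((show ((3 : ℕ) : ℤ) ∣ z by exact_mod_cast hd).mul_left _) with
      e | e
    · omega
    · have := hS 3 e
      omega
  omega

end FA.CurveCriterion

end
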