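import Mathlib

/-!
# The factors of a split polynomial whose value is a multiple of a power

If `s t = c z ^ n` and every common divisor of `s`, `t` divides `G`, then `G s = a u ^ n` with
`|a| ≤ |G ^ 2 c|`: so the factors of `(x - r₁) ⋯ (x - rₖ) = c z ^ n` are `n`-th powers up to
finitely many rational factors, whatever `n`.
-/

set_option autoImplicit false

noncomputable section

namespace FA.CurveCriterion

/-- The power in one of two factors, for natural numbers. -/
theorem exists_power_part_nat {s t c z G n : ℕ} (hs : s ≠ 0) (ht : t ≠ 0) (hc : c ≠ 0) (hz : z ≠ 0)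
    (hG : G ≠ 0) (hst : s * t = c * z ^ n) (hg : Nat.gcd s t ∣ G) :
    ∃ a u : ℕ, G * s = a * u ^ n ∧ a ∣ G ^ 2 * c := by
  classical
  set F := z.factorization.filter fun r => G.factorization r < s.factorization r with hF
  set u := F.prod (· ^ ·) with hu
  have hFp : ∀ r ∈ F.support, r.Prime := fun r hr => by
    rw [hF, Finsupp.support_filter, Finset.mem_filter, Nat.support_factorization] at hr
    exact Nat.prime_of_mem_primeFactors hr.1
  have hfu : u.factorization = F := Nat.prod_pow_factorization_eq_self hFp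
  have hu0 : u ≠ 0 := Finset.prod_ne_zero_iff.mpr fun r hr => pow_ne_zero _ (hFp r hr).ne_zero
  have hsum : ∀ r, s.factorization r + t.factorization r =
      c.factorization r + n * z.factorization r := fun r => by
    have h := congrArg (fun m => Nat.factorization m r) hst
    simp only [Nat.factorization_mul hs ht, Nat.factorization_mul hc (pow_ne_zero n hz),
      Nat.factorization_pow, Finsupp.add_apply, Finsupp.smul_apply, smul_eq_mul] at h
    exact h
  have hmin : ∀ r, min (s.factorization r) (t.factorization r) ≤ G.factorization r := fun r => by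
    have h := (Nat.factorization_le_iff_dvd (Nat.gcd_ne_zero_left hs) hG).mpr hg r
    rw [Nat.factorization_gcd hs ht] at h
    exact h
  have hd : u ^ n ∣ G * s := by
    rw [← Nat.factorization_le_iff_dvd (pow_ne_zero n hu0) (mul_ne_zero hG hs), Finsupp.le_def]
    intro r
    simp only [Nat.factorization_pow, hfu, Nat.factorization_mul hG hs, Finsupp.add_apply,
      Finsupp.smul_apply, smul_eq_mul, hF, Finsupp.filter_apply]
    split_ifs with hr
    · have := hsum r
      have := hmin r
      omega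
    · simp
  obtain ⟨a, ha⟩ := hd
  have ha0 : a ≠ 0 := fun e => mul_ne_zero hG hs (by rw [ha, e, mul_zero])
  refine ⟨a, u, by rw [ha, mul_comm], ?_⟩
  rw [← Nat.factorization_le_iff_dvd ha0 (mul_ne_zero (pow_ne_zero 2 hG) hc), Finsupp.le_def]
  intro r
  have h := congrArg (fun m => Nat.factorization m r) ha
  simp only [Nat.factorization_mul hG hs, Nat.factorization_mul (pow_ne_zero n hu0) ha0,
    Nat.factorization_pow, hfu, Finsupp.add_apply, Finsupp.smul_apply, smul_eq_mul, hF,
    Finsupp.filter_apply] at h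
  simp only [Nat.factorization_mul (pow_ne_zero 2 hG) hc, Nat.factorization_pow, Finsupp.add_apply,
    Finsupp.smul_apply, smul_eq_mul]
  have := hsum r
  have := hmin r
  split_ifs at h <;> omega

/-- The power in one of two factors. -/
theorem exists_power_part {s t c z G : ℤ} {n : ℕ} (hn : n ≠ 0) (hc : c ≠ 0) (hz : z ≠ 0)
    (hG : G ≠ 0) (hst : s * t = c * z ^ n) (hg : ∀ d : ℤ, d ∣ s → d ∣ t → d ∣ G) :
    ∃ a u : ℤ, G * s = a * u ^ n ∧ a.natAbs ≤ (G ^ 2 * c).natAbs ∧ a ≠ 0 ∧ u ≠ 0 := by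
  have hne : s * t ≠ 0 := by rw [hst]; exact mul_ne_zero hc (pow_ne_zero n hz)
  obtain ⟨hs, ht⟩ := mul_ne_zero_iff.mp hne
  obtain ⟨a, u, hau, ha⟩ := exists_power_part_nat (n := n) (Int.natAbs_ne_zero.mpr hs)
    (Int.natAbs_ne_zero.mpr ht) (Int.natAbs_ne_zero.mpr hc) (Int.natAbs_ne_zero.mpr hz)
    (Int.natAbs_ne_zero.mpr hG)
    (by rw [← Int.natAbs_mul, hst, Int.natAbs_mul, Int.natAbs_pow])
    (Int.natCast_dvd.mp (hg _ (Int.natCast_dvd.mpr (Nat.gcd_dvd_left _ _))
      (Int.natCast_dvd.mpr (Nat.gcd_dvd_right _ _))))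
  rw [← Int.natAbs_mul] at hau
  have h0 : (G * s).natAbs ≠ 0 := Int.natAbs_ne_zero.mpr (mul_ne_zero hG hs)
  have ha0 : a ≠ 0 := fun e => h0 (by rw [hau, e, zero_mul])
  have hu0 : u ≠ 0 := fun e => h0 (by rw [hau, e, zero_pow hn, mul_zero])
  have hle : a ≤ (G ^ 2 * c).natAbs := by
    rw [Int.natAbs_mul, Int.natAbs_pow]
    exact Nat.le_of_dvd (Nat.pos_of_ne_zero (mul_ne_zero (pow_ne_zero 2
      (Int.natAbs_ne_zero.mpr hG)) (Int.natAbs_ne_zero.mpr hc))) ha
  rcases Int.natAbs_eq (G * s) with e | e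
  · exact ⟨a, u, by rw [e, hau]; push_cast; ring, by simpa using hle, by exact_mod_cast ha0,
      by exact_mod_cast hu0⟩
  · exact ⟨-a, u, by rw [e, hau]; push_cast; ring, by simpa using hle,
      neg_ne_zero.mpr (by exact_mod_cast ha0), by exact_mod_cast hu0⟩

/-- Products of `x - j` and of `i - j` agree modulo `x - i`. -/
theorem dvd_prod_sub_prod (R : Finset ℤ) (i x : ℤ) :
    x - i ∣ ∏ j ∈ R, (x - j) - ∏ j ∈ R, (i - j) := by
  classical
  induction R using Finset.induction with
  | empty => simp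
  | insert j R hj ih =>
    rw [Finset.prod_insert hj, Finset.prod_insert hj, show (x - j) * ∏ k ∈ R, (x - k) -
      (i - j) * ∏ k ∈ R, (i - k) = (x - j) * (∏ k ∈ R, (x - k) - ∏ k ∈ R, (i - k)) +
        (x - i) * ∏ k ∈ R, (i - k) by ring]
    exact (ih.mul_left _).add (dvd_mul_right _ _)

/-- A rational `t` with `∏ (t - r) = c` integral is an integer, for nonempty sets of roots. -/
theorem exists_int_of_prod_eq {R : Finset ℤ} (hR : R.Nonempty) {c : ℤ} {t : ℚ}
    (h : ∏ r ∈ R, (t - r) = c) : ∃ x : ℤ, t = x := by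
  refine ⟨t.num, (Rat.den_eq_one_iff t).mp ?_ |>.symm⟩
  by_contra hD
  obtain ⟨p, hp, hpD⟩ := Nat.exists_prime_and_dvd hD
  have e : ∏ r ∈ R, (t.num - r * t.den) = c * (t.den : ℤ) ^ R.card := by
    have e' : ((∏ r ∈ R, (t.num - r * t.den) : ℤ) : ℚ) = (c : ℚ) * (t.den : ℚ) ^ R.card := by
      rw [← h, ← Finset.prod_const, ← Finset.prod_mul_distrib]
      push_cast
      refine Finset.prod_congr rfl fun r _ => ?_
      rw [← Rat.mul_den_eq_num t]
      ring
    exact_mod_cast e'
  have hpd : (p : ℤ) ∣ (t.den : ℤ) := Int.natCast_dvd_natCast.mpr hpD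
  obtain ⟨r, -, hr⟩ := (Nat.prime_iff_prime_int.mp hp).exists_mem_finset_dvd
    (e ▸ (dvd_pow hpd hR.card_pos.ne').mul_left c)
  have hpN : p ∣ t.num.natAbs := Int.natCast_dvd.mp (by
    have h := hr.add (hpd.mul_left r)
    rwa [sub_add_cancel] at h)
  exact hp.not_dvd_one (t.reduced.gcd_eq_one ▸ Nat.dvd_gcd hpN hpD)

end FA.CurveCriterion

end
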