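import Fermat.Agent.Ribet.CurveCriterion.AllCoefficients
import Fermat.Agent.Ribet.CurveCriterion.ExactPrimes

/-!
# Auxiliary primes for `x ^ 2 = A y ^ n + B z ^ n`

With `z` even the two terms are a square times coprime ones, the second divisible by `64`; the
semistable curve of such a solution is congruent to one with good reduction at every small prime
outside `2 A B`, so none of these divides `y z`.
-/

set_option autoImplicit false
set_option linter.style.haveILetI false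

noncomputable section

open WeierstrassCurve

namespace FA.CurveCriterion

/-- The curve of the square equation, with its bad primes. -/
theorem exists_squareCurve_discr {M : ℕ} (h2 : 2 ∣ M) {n p : ℕ} (hp : p.Prime) (hpn : p ∣ n)
    (hn : n ≠ 0) {A B x y z : ℤ} (hA : A ≠ 0) (hB : B ≠ 0) (hy : y ≠ 0) (hz : z ≠ 0)
    (hs : ∀ r : ℕ, r.Prime → (r : ℤ) ∣ A * B → r ∣ M) (hx : Odd x)
    (hcop : IsCoprime x (B * z ^ n)) (h64 : (64 : ℤ) ∣ B * z ^ n)
    (heq : x ^ 2 = A * y ^ n + B * z ^ n) :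
    ∃ W : WeierstrassCurve ℤ, W.Δ ≠ 0 ∧ W.IsSemistableModel ∧
      (∀ r : ℕ, r.Prime → (r : ℤ) ∣ W.Δ → ¬ r ∣ M → p ∣ padicValInt r W.Δ) ∧
      ∀ l : ℕ, l.Prime → ¬ l ∣ M → (l : ℤ) ∣ y * z → (l : ℤ) ∣ W.Δ := by
  wlog h1 : x % 4 = 1 generalizing x
  · refine this (x := -x) hx.neg hcop.neg_left (by rwa [neg_sq]) ?_
    rw [Int.odd_iff] at hx
    omega
  obtain ⟨m, rfl⟩ := hpn
  have hm : m ≠ 0 := right_ne_zero_of_mul hn
  rw [mul_comm p m, pow_mul, pow_mul] at *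
  have h4 := Int.mul_ediv_cancel' h64
  have hΔ := FA.SquareEquation.Δ_eq h1 h64
  rw [heq, add_sub_cancel_right] at hΔ
  have hT : B * (z ^ m) ^ p ≠ 0 := mul_ne_zero hB (pow_ne_zero _ (pow_ne_zero _ hz))
  have hΔ0 : (FA.SquareEquation.squareCurve x (B * (z ^ m) ^ p)).Δ ≠ 0 := by
    rw [hΔ]
    exact mul_ne_zero (pow_ne_zero _ fun h => hT (by rw [← h4, h, mul_zero]))
      (mul_ne_zero hA (pow_ne_zero _ (pow_ne_zero _ hy)))
  have hd : 2 ^ 12 * (FA.SquareEquation.squareCurve x (B * (z ^ m) ^ p)).Δ =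
      B ^ 2 * A * ((z ^ m) ^ 2 * y ^ m) ^ p := by
    rw [hΔ, show ∀ t : ℤ, 2 ^ 12 * (t ^ 2 * (A * (y ^ m) ^ p)) = (64 * t) ^ 2 * (A * (y ^ m) ^ p)
      from fun t => by ring, h4]
    ring
  have hsb : ∀ r : ℕ, r.Prime → (r : ℤ) ∣ B ^ 2 * A → r ∣ M := fun r hr h => by
    rcases (Nat.prime_iff_prime_int.1 hr).dvd_or_dvd h with h | h
    · exact hs r hr (((Nat.prime_iff_prime_int.1 hr).dvd_of_dvd_pow h).mul_left A)
    · exact hs r hr (h.mul_right B)
  refine ⟨_, hΔ0, FA.SquareEquation.isSemistableModel h1 h64 hcop,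
    fun r hr _ hrM => FA.Ribet.dvd_padicValInt_of_eq hp.ne_zero hr (by norm_num) hΔ0
      (by simpa using FA.Ribet.not_dvd_prime_pow_of_dvd (k := 12) Nat.prime_two h2 hr hrM)
      (fun h => hrM (hsb r hr h)) hd, fun l hl hlM hlyz => ?_⟩
  have hli := Nat.prime_iff_prime_int.1 hl
  have h : (l : ℤ) ∣ 2 ^ 12 * (FA.SquareEquation.squareCurve x (B * (z ^ m) ^ p)).Δ := by
    rw [hd]
    refine (dvd_pow ?_ hp.ne_zero).mul_left _
    rcases hli.dvd_or_dvd hlyz with h' | h'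
    · exact (dvd_pow h' hm).mul_left _
    · exact (dvd_pow (dvd_pow h' hm) two_ne_zero).mul_right _
  exact (hli.dvd_or_dvd h).resolve_left
    (by simpa using FA.Ribet.not_dvd_prime_pow_of_dvd (k := 12) Nat.prime_two h2 hl hlM)

/-- **No small prime outside the coefficients divides `y z`** in a coprime solution with
`64 ∣ B z ^ n`. -/
theorem exists_bound_square_aux {S : Finset ℕ} (hS : ∀ q ∈ S, q.Prime) (N : ℕ) :
    ∃ C₀ : ℕ, ∀ n p : ℕ, p.Prime → C₀ < p → p ∣ n → n ≠ 0 → ∀ A B x y z : ℤ,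
      A ≠ 0 → B ≠ 0 → y ≠ 0 → z ≠ 0 → (∀ r : ℕ, r.Prime → (r : ℤ) ∣ A * B → r = 2 ∨ r ∈ S) →
      Odd x → IsCoprime x (B * z ^ n) → (64 : ℤ) ∣ B * z ^ n →
      x ^ 2 = A * y ^ n + B * z ^ n →
      ∀ l : ℕ, l.Prime → l ≤ N → l ≠ 2 → l ∉ S → ¬ (l : ℤ) ∣ y * z := by
  have hM : 2 * ∏ q ∈ S, q ≠ 0 :=
    mul_ne_zero two_ne_zero (Finset.prod_ne_zero_iff.mpr fun q hq => (hS q hq).ne_zero)
  obtain ⟨C₀, hC⟩ := exists_bound_curve_exact hM (fun _ => Set.univ) N
  refine ⟨C₀, fun n p hp hpC hpn hn A B x y z hA hB hy hz hs hx hcop h64 heq l hl hlN hl2 hlS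
    hlyz => ?_⟩
  have hsM : ∀ r : ℕ, r.Prime → (r : ℤ) ∣ A * B → r ∣ 2 * ∏ q ∈ S, q := fun r hr hd => by
    rcases hs r hr hd with rfl | h
    exacts [dvd_mul_right 2 _, (Finset.dvd_prod_of_mem _ h).mul_left 2]
  have hlM : ¬ l ∣ 2 * ∏ q ∈ S, q := fun h => by
    rcases hl.dvd_mul.mp h with h' | h'
    · exact hl2 ((Nat.prime_dvd_prime_iff_eq hl Nat.prime_two).mp h')
    · obtain ⟨q, hq, hlq⟩ := hl.prime.exists_mem_finset_dvd h'
      exact hlS ((Nat.prime_dvd_prime_iff_eq hl (hS q hq)).mp hlq ▸ hq)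
  obtain ⟨W, hΔ, hW, hdiv, hbad⟩ :=
    exists_squareCurve_discr (dvd_mul_right 2 _) hp hpn hn hA hB hy hz hsM hx hcop h64 heq
  obtain ⟨V, -, -, hV, hex⟩ := hC p hp hpC W hΔ hW hdiv fun _ _ _ _ => Set.mem_univ _
  exact (hex l hl hlN).mp (hV l hl hlM).1 (hbad l hl hlM hlyz)

variable {S : Finset ℕ} {n : ℕ}

/-- A term stays one after division by a number supported on `S`. -/
theorem IsSTerm.div_supported (hn : n ≠ 0) {g : ℕ} (hg : g ≠ 0)
    (hgS : ∀ r : ℕ, r.Prime → r ∣ g → r ∈ S) {u : ℤ} (h : IsSTerm S n ((g : ℤ) * u)) :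
    IsSTerm S n u := by
  induction g using Nat.recOnMul generalizing u with
  | zero => exact absurd rfl hg
  | one => simpa using h
  | prime r hr =>
    obtain ⟨t', e, h'⟩ := h.exists_div hn hr (dvd_mul_right _ u)
    rw [if_pos (hgS r hr dvd_rfl)] at e
    rwa [mul_left_cancel₀ (by exact_mod_cast hr.ne_zero) e]
  | mul a b iha ihb =>
    obtain ⟨ha, hb⟩ := mul_ne_zero_iff.mp hg
    refine ihb hb (fun r hr hd => hgS r hr (hd.mul_left a))
      (iha ha (fun r hr hd => hgS r hr (hd.mul_right b)) ?_)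
    rw [← mul_assoc]
    exact_mod_cast h

/-- A natural number all whose valuations are even is a square. -/
theorem exists_sq_of_even_factorization {G : ℕ} (hG : G ≠ 0)
    (h : ∀ r : ℕ, r.Prime → Even (G.factorization r)) : ∃ g : ℕ, G = g ^ 2 := by
  classical
  set F := G.factorization.mapRange (· / 2) (by simp)
  have hF : ∀ r ∈ F.support, r.Prime := fun r hr => Nat.prime_of_mem_primeFactors (by
    simpa [Nat.support_factorization] using Finsupp.support_mapRange hr)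
  have h0 : F.prod (· ^ ·) ≠ 0 :=
    Finset.prod_ne_zero_iff.mpr fun r hr => pow_ne_zero _ (hF r hr).ne_zero
  refine ⟨F.prod (· ^ ·), Nat.eq_of_factorization_eq hG (pow_ne_zero 2 h0) fun r => ?_⟩
  rw [Nat.factorization_pow, Finsupp.smul_apply, smul_eq_mul,
    Nat.prod_pow_factorization_eq_self hF, Finsupp.mapRange_apply]
  by_cases hr : r.Prime
  · obtain ⟨k, hk⟩ := h r hr
    omega
  · simp [Nat.factorization_eq_zero_of_not_prime _ hr]

/-- The smaller of two valuations is that of the sum. -/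
theorem factorization_eq_of_add_lt {r : ℕ} (hr : r.Prime) {s t u : ℤ} (hs : s ≠ 0) (ht : t ≠ 0)
    (hu : u ≠ 0) (h : u = s + t) (hlt : s.natAbs.factorization r < t.natAbs.factorization r) :
    u.natAbs.factorization r = s.natAbs.factorization r := by
  have key : ∀ (w : ℤ) (k : ℕ), w ≠ 0 → ((r : ℤ) ^ k ∣ w ↔ k ≤ w.natAbs.factorization r) :=
    fun w k hw => by
      rw [← Nat.cast_pow, Int.natCast_dvd,
        hr.pow_dvd_iff_le_factorization (Int.natAbs_ne_zero.mpr hw)]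
  have h1 : s.natAbs.factorization r ≤ u.natAbs.factorization r :=
    (key u _ hu).mp (h ▸ ((key s _ hs).mpr le_rfl).add ((key t _ ht).mpr hlt.le))
  refine le_antisymm (not_lt.mp fun hgt => ?_) h1
  have hd := ((key u _ hu).mpr hgt).sub ((key t _ ht).mpr hlt)
  rw [show u - t = s by rw [h]; ring] at hd
  exact absurd ((key s _ hs).mp hd) (by omega)

/-- **The square gcd**: a primitive solution of `x ^ 2 = A y ^ n + B z ^ n`, `A` prime to `B`, has
terms a square times coprime ones. -/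
theorem exists_square_gcd {A B x y z : ℤ} (hn : A.natAbs + B.natAbs + 6 ≤ n) (hA : A ≠ 0)
    (hB : B ≠ 0) (hy : y ≠ 0) (hz : z ≠ 0) (hx : x ≠ 0) (hAB : IsCoprime A B)
    (hyz : IsCoprime y z) (heq : x ^ 2 = A * y ^ n + B * z ^ n) :
    ∃ g x' a b : ℤ, g ≠ 0 ∧ A * y ^ n = g ^ 2 * a ∧ B * z ^ n = g ^ 2 * b ∧ x = g * x' ∧
      IsCoprime a b ∧ x' ^ 2 = a + b ∧ ∀ r : ℕ, r.Prime → (r : ℤ) ∣ g → (r : ℤ) ∣ A * B := by
  have hn0 : n ≠ 0 := by omega
  set s := A * y ^ n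
  set t := B * z ^ n
  have hs : s ≠ 0 := mul_ne_zero hA (pow_ne_zero n hy)
  have ht : t ≠ 0 := mul_ne_zero hB (pow_ne_zero n hz)
  have hG : Int.gcd s t ≠ 0 := (Int.gcd_pos_of_ne_zero_left t hs).ne'
  have hboth : ∀ r : ℕ, r.Prime → (r : ℤ) ∣ s → (r : ℤ) ∣ t → (r : ℤ) ∣ A * B := by
    intro r hr h1 h2
    have hp := Nat.prime_iff_prime_int.mp hr
    rcases hp.dvd_or_dvd h1 with e | e
    · exact e.mul_right B
    rcases hp.dvd_or_dvd h2 with f | f
    · exact f.mul_left A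
    exact absurd (hyz.isUnit_of_dvd' (hp.dvd_of_dvd_pow e) (hp.dvd_of_dvd_pow f)) hp.not_isUnit
  have heven : ∀ r : ℕ, r.Prime → Even ((Int.gcd s t).factorization r) := by
    intro r hr
    rw [Int.gcd_def, Nat.factorization_gcd (Int.natAbs_ne_zero.mpr hs) (Int.natAbs_ne_zero.mpr ht),
      Finsupp.inf_apply]
    have hx2 : (x ^ 2).natAbs.factorization r = 2 * x.natAbs.factorization r := by
      rw [Int.natAbs_pow, Nat.factorization_pow, Finsupp.smul_apply, smul_eq_mul]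
    rcases lt_trichotomy (s.natAbs.factorization r) (t.natAbs.factorization r) with h | h | h
    · rw [inf_eq_left.mpr h.le,
        ← factorization_eq_of_add_lt hr hs ht (pow_ne_zero 2 hx) heq h, hx2]
      exact even_two_mul _
    · -- equal valuations are zero
      rw [h, inf_idem]
      have hp := Nat.prime_iff_prime_int.mp hr
      have hmul : ∀ (M w : ℤ), M ≠ 0 → w ≠ 0 → (M * w ^ n).natAbs.factorization r =
          M.natAbs.factorization r + n * w.natAbs.factorization r := fun M w hM hw => by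
        rw [Int.natAbs_mul, Int.natAbs_pow, Nat.factorization_mul (Int.natAbs_ne_zero.mpr hM)
          (pow_ne_zero n (Int.natAbs_ne_zero.mpr hw)), Finsupp.add_apply, Nat.factorization_pow,
          Finsupp.smul_apply, smul_eq_mul]
      have hle : ∀ (M : ℤ), M ≠ 0 → M.natAbs.factorization r < M.natAbs := fun M hM =>
        Nat.factorization_lt r (Int.natAbs_ne_zero.mpr hM)
      have zero : ∀ (M : ℤ), M ≠ 0 → M.natAbs.factorization r ≠ 0 → (r : ℤ) ∣ M := fun M hM h0 =>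
        Int.natCast_dvd.mpr (Nat.dvd_of_factorization_pos h0)
      simp only [s, t] at h
      rw [hmul A y hA hy, hmul B z hB hz] at h
      simp only [t]
      rw [hmul B z hB hz]
      have hA' := hle A hA
      have hB' := hle B hB
      rcases Nat.eq_zero_or_pos (y.natAbs.factorization r) with e | e <;>
        rcases Nat.eq_zero_or_pos (z.natAbs.factorization r) with f | f
      · rw [f, mul_zero, add_zero]
        rw [e, f] at h
        rcases Nat.eq_zero_or_pos (B.natAbs.factorization r) with g | g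
        · simp [g]
        · exact absurd (hAB.isUnit_of_dvd' (zero A hA (by omega)) (zero B hB g.ne')) hp.not_isUnit
      · have := Nat.mul_le_mul_left n f
        rw [e] at h
        omega
      · have := Nat.mul_le_mul_left n e
        rw [f] at h
        omega
      · exact absurd (hyz.isUnit_of_dvd' (zero y hy e.ne') (zero z hz f.ne')) hp.not_isUnit
    · rw [inf_eq_right.mpr h.le, ← factorization_eq_of_add_lt hr ht hs (pow_ne_zero 2 hx)
        (by rw [heq]; ring) h, hx2]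
      exact even_two_mul _
  obtain ⟨g, hg⟩ := exists_sq_of_even_factorization hG heven
  have hg' : ((g : ℤ)) ^ 2 = (Int.gcd s t : ℤ) := by rw [hg]; push_cast; ring
  have hg0 : (g : ℤ) ≠ 0 := fun e => hG (by
    have e' : g = 0 := by exact_mod_cast e
    rw [hg, e', zero_pow two_ne_zero])
  obtain ⟨a, ha⟩ : (g : ℤ) ^ 2 ∣ s := hg' ▸ Int.gcd_dvd_left s t
  obtain ⟨b, hb⟩ : (g : ℤ) ^ 2 ∣ t := hg' ▸ Int.gcd_dvd_right s t
  obtain ⟨x', rfl⟩ : (g : ℤ) ∣ x := (Int.pow_dvd_pow_iff two_ne_zero).mp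
    (heq ▸ ha ▸ hb ▸ ⟨a + b, by ring⟩)
  refine ⟨g, x', a, b, hg0, ha, hb, rfl, ?_, ?_, fun r hr hd => ?_⟩
  · rw [Int.isCoprime_iff_gcd_eq_one]
    have e := congrArg₂ Int.gcd ha hb
    rw [Int.gcd_mul_left, ← Nat.cast_pow, Int.natAbs_natCast, hg] at e
    exact (mul_eq_left₀ (hg ▸ hG)).mp e.symm
  · refine mul_left_cancel₀ (pow_ne_zero 2 hg0) ?_
    rw [← mul_pow, heq, ha, hb]
    ring
  · exact hboth r hr (ha ▸ (dvd_pow hd two_ne_zero).mul_right a)
      (hb ▸ (dvd_pow hd two_ne_zero).mul_right b)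

/-- **An even variable**: if in coprime solutions with `64` dividing a term the prime `l` divides
no variable, then it divides none in a primitive solution with `z` even. -/
theorem square_not_dvd_of_even_var {A B x y z : ℤ} {l : ℕ} (hl : l.Prime) (hl2 : l ≠ 2)
    (hlS : l ∉ S) (hn : 3 * A.natAbs + B.natAbs + 6 ≤ n)
    (hsupp : ∀ r : ℕ, r.Prime → (r : ℤ) ∣ A * B → r ∈ S) (hA : A ≠ 0) (hB : B ≠ 0) (hy : y ≠ 0)
    (hz : z ≠ 0) (hx : x ≠ 0) (hAB : IsCoprime A B) (hyz : IsCoprime y z) (hze : Even z)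
    (heq : x ^ 2 = A * y ^ n + B * z ^ n)
    (hbase : ∀ A' B' x' y' z' : ℤ, A' ≠ 0 → B' ≠ 0 → y' ≠ 0 → z' ≠ 0 →
      (∀ r : ℕ, r.Prime → (r : ℤ) ∣ A' * B' → r = 2 ∨ r ∈ S) → Odd x' →
      IsCoprime x' (B' * z' ^ n) → (64 : ℤ) ∣ B' * z' ^ n →
      x' ^ 2 = A' * y' ^ n + B' * z' ^ n → ¬ (l : ℤ) ∣ y' * z') :
    ¬ (l : ℤ) ∣ y * z := by
  intro hlyz
  have hn0 : n ≠ 0 := by omega
  obtain ⟨g, x', a, b, hg0, ha, hb, rfl, hab, he, hgAB⟩ :=
    exists_square_gcd (by omega) hA hB hy hz hx hAB hyz heq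
  obtain ⟨i, o, ho, rfl⟩ := exists_two_pow_mul_odd hg0
  have h2z : (2 : ℤ) ∣ z := even_iff_two_dvd.mp hze
  have hyo : Odd y := Int.not_even_iff_odd.mp fun hye =>
    Int.prime_two.not_isUnit (hyz.isUnit_of_dvd' (even_iff_two_dvd.mp hye) h2z)
  have hi : 2 * i < A.natAbs := lt_natAbs_of_two_pow_dvd hA hyo (n := n)
    ⟨o ^ 2 * a, by rw [ha]; ring⟩
  have h64 : (64 : ℤ) ∣ b := by
    have h : (2 : ℤ) ^ (2 * i + 6) ∣ (2 ^ i * o) ^ 2 * b :=
      ((pow_dvd_pow 2 (by omega)).trans (pow_dvd_pow_of_dvd h2z n)).trans (hb ▸ dvd_mul_left _ B)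
    rw [pow_add, show (2 ^ i * o) ^ 2 * b = 2 ^ (2 * i) * (o ^ 2 * b) by ring,
      mul_dvd_mul_iff_left (pow_ne_zero _ two_ne_zero)] at h
    obtain ⟨t, ht⟩ := ho
    exact (show IsCoprime (2 : ℤ) (2 * t + 1) from ⟨-t, 1, by ring⟩).pow (m := 6) (n := 2)
      |>.dvd_of_dvd_mul_left (by rw [← ht]; exact h)
  have hbe : Even b := even_iff_two_dvd.mpr ((show (2 : ℤ) ∣ 64 by norm_num).trans h64)
  have hao : Odd a := Int.not_even_iff_odd.mp fun h =>
    Int.prime_two.not_isUnit (hab.isUnit_of_dvd' (even_iff_two_dvd.mp h) (even_iff_two_dvd.mp hbe))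
  have hx' : Odd x' := (Int.odd_pow.mp (he ▸ hao.add_even hbe : Odd (x' ^ 2))).resolve_right
    two_ne_zero
  have hco : IsCoprime x' b := by
    refine IsCoprime.of_isCoprime_of_dvd_left ?_ (dvd_pow_self x' two_ne_zero)
    rw [he, show a + b = a + b * 1 by ring]
    exact hab.add_mul_left_left 1
  set G := (((2 : ℤ) ^ i * o) ^ 2).natAbs
  have hG : ((G : ℕ) : ℤ) = (2 ^ i * o) ^ 2 := Int.natAbs_of_nonneg (sq_nonneg _)
  have hG0 : G ≠ 0 := Int.natAbs_ne_zero.mpr (pow_ne_zero 2 hg0)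
  have hGS : ∀ r : ℕ, r.Prime → r ∣ G → r ∈ S := fun r hr hd => hsupp r hr (hgAB r hr
    ((Nat.prime_iff_prime_int.mp hr).dvd_of_dvd_pow (Int.natCast_dvd.mpr hd)))
  have hterm : ∀ {M w u : ℤ}, M ∣ A * B → M * w ^ n = (2 ^ i * o) ^ 2 * u → IsSTerm S n u :=
    fun hd hu => IsSTerm.div_supported hn0 hG0 hGS
      (by rw [hG, ← hu]; exact ⟨_, _, rfl, fun r hr h => hsupp r hr (h.trans hd)⟩)
  have hp := Nat.prime_iff_prime_int.mp hl
  have hlAB : ¬ (l : ℤ) ∣ A * B := fun h => hlS (hsupp l hl h)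
  have hd : (l : ℤ) ∣ a * b := by
    have h : (l : ℤ) ∣ ((2 : ℤ) ^ i * o) ^ 4 * (a * b) := by
      rw [show ((2 : ℤ) ^ i * o) ^ 4 * (a * b) =
        ((2 ^ i * o) ^ 2 * a) * ((2 ^ i * o) ^ 2 * b) by ring, ← ha, ← hb,
        show A * y ^ n * (B * z ^ n) = A * B * (y * z) ^ n by ring]
      exact (dvd_pow hlyz hn0).mul_left _
    exact (hp.dvd_or_dvd h).resolve_left fun e => hlAB (hgAB l hl (hp.dvd_of_dvd_pow e))
  have ha0 : a ≠ 0 := fun e => mul_ne_zero hA (pow_ne_zero n hy) (by rw [ha, e, mul_zero])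
  have hb0 : b ≠ 0 := fun e => mul_ne_zero hB (pow_ne_zero n hz) (by rw [hb, e, mul_zero])
  obtain ⟨A', y', rfl, hA'⟩ := hterm (dvd_mul_right A B) ha
  obtain ⟨B', z', rfl, hB'⟩ := hterm (dvd_mul_left B A) hb
  have hnz : ∀ {u : ℤ}, u ^ n ≠ 0 → u ≠ 0 := fun h e => h (by rw [e, zero_pow hn0])
  have hs : ∀ r : ℕ, r.Prime → (r : ℤ) ∣ A' * B' → r = 2 ∨ r ∈ S := fun r hr h =>
    Or.inr (((Nat.prime_iff_prime_int.mp hr).dvd_or_dvd h).elim (hA' r hr) (hB' r hr))
  refine hbase A' B' x' y' z' (left_ne_zero_of_mul ha0) (left_ne_zero_of_mul hb0)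
    (hnz (right_ne_zero_of_mul ha0)) (hnz (right_ne_zero_of_mul hb0)) hs hx' hco h64 he ?_
  have hd' : (l : ℤ) ∣ A' * B' * (y' * z') ^ n := by
    rw [show A' * B' * (y' * z') ^ n = A' * y' ^ n * (B' * z' ^ n) by ring]
    exact hd
  exact hp.dvd_of_dvd_pow ((hp.dvd_or_dvd hd').resolve_left fun e =>
    (hs l hl e).elim hl2 hlS)

end FA.CurveCriterion

end
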