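import Fermat.Agent.Ribet.CurveCriterion.TwoTorsion
import Fermat.Agent.SetzerNeumann.ExponentThree
import Mathlib.NumberTheory.FLT.Three

/-!
# No `3`-isogeny with bad primes among `3` and a prime `q ≡ 2, 4, 5, 7 (mod 9)`

The parameter of a rational `3`-isogeny of a semistable curve gives `x + 27 y = c³` with `x, y`
coprime, supported on `3, q`, and `x` prime to `3`. So `x` is a cube `X³` and `y = d R` with
`R = X² + 9 d X + 27 d²` a cube power of `q`; as `R > 1` this makes `X = ±1`, and then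
`(t + 1)³ = t³ + R` for `t = ± 3 d`, impossible by Fermat for the exponent three.
-/

set_option autoImplicit false
set_option linter.style.haveILetI false

noncomputable section

open WeierstrassCurve WeierstrassCurve.Affine FA.Frob FA.SetzerNeumann
open scoped WeierstrassCurve.Affine

local notation "Qb" => AlgebraicClosure ℚ
local notation "GQ" => AlgebraicClosure ℚ ≃ₐ[ℚ] AlgebraicClosure ℚ

namespace FA.CurveCriterion

/-- A power of `q ≡ 2, 4, 5, 7 (mod 9)` is `±1` modulo nine only for exponents divisible by three. -/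
theorem three_dvd_of_pow_mod_nine {q : ℕ} (h9 : q % 9 = 2 ∨ q % 9 = 4 ∨ q % 9 = 5 ∨ q % 9 = 7)
    {b : ℕ} (h : q ^ b % 9 = 1 ∨ q ^ b % 9 = 8) : 3 ∣ b := by
  obtain ⟨k, r, hr, rfl⟩ : ∃ k r, r < 3 ∧ b = 3 * k + r :=
    ⟨b / 3, b % 3, Nat.mod_lt _ (by norm_num), (Nat.div_add_mod b 3).symm⟩
  have h3 : (q ^ 3) % 9 = 1 ∨ (q ^ 3) % 9 = 8 := by
    rw [Nat.pow_mod]
    rcases h9 with e | e | e | e <;> rw [e] <;> norm_num
  have hb : ∀ j, (q ^ 3) ^ j % 9 = 1 ∨ (q ^ 3) ^ j % 9 = 8 := fun j => by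
    induction j with
    | zero => simp
    | succ m hm =>
      rw [pow_succ, Nat.mul_mod]
      rcases h3 with e | e <;> rcases hm with e' | e' <;> rw [e, e'] <;> norm_num
  have hk := hb k
  rw [pow_add, pow_mul, Nat.mul_mod] at h
  interval_cases r
  · exact dvd_mul_right 3 k
  all_goals
    exfalso
    rw [Nat.pow_mod q] at h
    rcases h9 with e | e | e | e <;> rcases hk with e' | e' <;> rw [e, e'] at h <;>
      norm_num at h

/-- A cube modulo nine. -/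
theorem cube_emod_nine (c : ℤ) : c ^ 3 % 9 = 0 ∨ c ^ 3 % 9 = 1 ∨ c ^ 3 % 9 = 8 := by
  obtain ⟨w, rfl | rfl | rfl⟩ : ∃ w, c = 3 * w ∨ c = 3 * w + 1 ∨ c = 3 * w + 2 :=
    ⟨c / 3, by omega⟩
  · rw [show (3 * w) ^ 3 = 9 * (3 * w ^ 3) by ring]; omega
  · rw [show (3 * w + 1) ^ 3 = 9 * (3 * w ^ 3 + 3 * w ^ 2 + w) + 1 by ring]; omega
  · rw [show (3 * w + 2) ^ 3 = 9 * (3 * w ^ 3 + 6 * w ^ 2 + 4 * w) + 8 by ring]; omega

/-- **`x + 27 y` is not a cube.** -/
theorem add_twentySeven_mul_ne_cube {q : ℕ} (hq : q.Prime)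
    (h9 : q % 9 = 2 ∨ q % 9 = 4 ∨ q % 9 = 5 ∨ q % 9 = 7) {x y c : ℤ} (hy : y ≠ 0)
    (hco : IsCoprime x y) (h3 : ¬ (3 : ℤ) ∣ x)
    (hs : ∀ r : ℕ, r.Prime → (r : ℤ) ∣ x * y → r = 3 ∨ r = q) : c ^ 3 ≠ x + 27 * y := by
  intro h
  obtain ⟨b, hb⟩ := exists_natAbs_eq_pow (p := q) (fun e : x = 0 => h3 (e ▸ dvd_zero 3))
    fun r hr hrx => (hs r hr (hrx.mul_right y)).resolve_left fun e => h3 (by subst e; exact hrx)
  have hb8 : q ^ b % 9 = 1 ∨ q ^ b % 9 = 8 := by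
    have := cube_emod_nine c
    rw [h] at this
    omega
  obtain ⟨k, rfl⟩ := three_dvd_of_pow_mod_nine h9 hb8
  obtain ⟨X, rfl, hX⟩ : ∃ X : ℤ, x = X ^ 3 ∧ X.natAbs = q ^ k := by
    rcases Int.natAbs_eq x with e | e <;> rw [hb] at e
    · exact ⟨((q ^ k : ℕ) : ℤ), by rw [e]; push_cast; ring, Int.natAbs_natCast _⟩
    · exact ⟨-((q ^ k : ℕ) : ℤ), by rw [e]; push_cast; ring,
        by rw [Int.natAbs_neg, Int.natAbs_natCast]⟩
  have h3X : ¬ (3 : ℤ) ∣ X := fun hd => h3 (dvd_pow hd three_ne_zero)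
  obtain ⟨w, rfl⟩ : ∃ w, c = X + 3 * w := by
    have key : ∀ s t : ZMod 3, s ^ 3 = t ^ 3 → s = t := by decide
    have e : ((c : ℤ) : ZMod 3) = ((X : ℤ) : ZMod 3) := key _ _ (by
      have := congrArg (Int.cast : ℤ → ZMod 3) h
      push_cast at this
      rw [this, show (27 : ZMod 3) = 0 from rfl]
      ring)
    obtain ⟨w, hw⟩ := (ZMod.intCast_eq_intCast_iff_dvd_sub X c 3).mp e.symm
    exact ⟨w, by push_cast at hw; linarith⟩
  obtain ⟨d, rfl⟩ : (3 : ℤ) ∣ w := by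
    refine (Int.prime_three.dvd_or_dvd (?_ : (3 : ℤ) ∣ X ^ 2 * w)).resolve_left
      fun e => h3X (Int.prime_three.dvd_of_dvd_pow e)
    exact ⟨y - X * w ^ 2 - w ^ 3, mul_left_cancel₀ (show (9 : ℤ) ≠ 0 by norm_num)
      (by linear_combination h)⟩
  set R := X ^ 2 + 9 * d * X + 27 * d ^ 2 with hR
  have hyR : y = d * R := mul_left_cancel₀ (show (27 : ℤ) ≠ 0 by norm_num)
    (by rw [hR]; linear_combination -h)
  have hd : d ≠ 0 := fun e => hy (by rw [hyR, e, zero_mul])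
  have hR1 : 1 < R := by
    have h27 : 1 ≤ d ^ 2 := (sq_nonneg d).lt_of_ne (pow_ne_zero 2 hd).symm
    nlinarith [sq_nonneg (2 * X + 9 * d)]
  have h3R : ¬ (3 : ℤ) ∣ R := fun e => h3X (Int.prime_three.dvd_of_dvd_pow (n := 2)
    (by rw [show X ^ 2 = R - 3 * (3 * d * X + 9 * d ^ 2) by rw [hR]; ring]
        exact e.sub (dvd_mul_right 3 _)))
  obtain ⟨g, hg⟩ := exists_natAbs_eq_pow (p := q) (show R ≠ 0 by omega)
    fun r hr hrR => (hs r hr ((hyR ▸ hrR.mul_left d).mul_left _)).resolve_left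
      fun e => h3R (by subst e; exact hrR)
  have hg0 : g ≠ 0 := fun e => by rw [e, pow_zero] at hg; omega
  have hqy : (q : ℤ) ∣ y := hyR ▸ (Int.natCast_dvd.mpr (hg ▸ dvd_pow_self q hg0)).mul_left d
  rcases Nat.eq_zero_or_pos k with rfl | hk
  swap
  · exact (Nat.prime_iff_prime_int.mp hq).not_isUnit (hco.isUnit_of_dvd'
      (dvd_pow (Int.natCast_dvd.mpr (hX ▸ dvd_pow_self q hk.ne')) three_ne_zero) hqy)
  rw [pow_zero] at hX
  have hX2 : X ^ 2 = 1 := by rw [← Int.natAbs_sq, hX]; rfl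
  have hg9 : q ^ g % 9 = 1 := by
    have : R % 9 = 1 := by
      rw [show R = 9 * (d * X + 3 * d ^ 2) + 1 by rw [hR, ← hX2]; ring]
      omega
    omega
  obtain ⟨j, rfl⟩ := three_dvd_of_pow_mod_nine h9 (Or.inl hg9)
  refine fermatLastTheoremFor_iff_int.mp fermatLastTheoremThree (3 * X * d)
    ((q ^ j : ℕ) : ℤ) (3 * X * d + 1) ?_ (by exact_mod_cast pow_ne_zero j hq.ne_zero)
    (by rw [mul_assoc]; omega) ?_
  · exact mul_ne_zero (mul_ne_zero three_ne_zero fun e => by rw [e] at hX2; norm_num at hX2) hd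
  · have hRq : R = ((q ^ j : ℕ) : ℤ) ^ 3 := by
      rw [← Int.natAbs_of_nonneg (show 0 ≤ R by omega), hg]
      push_cast
      rw [← pow_mul, mul_comm j 3]
    rw [← hRq, hR]
    linear_combination (1 - 27 * d ^ 2) * hX2

/-- A stable subgroup of order `l` from divisibility of `l` at almost all primes. -/
theorem reducible_of_dvd {V : WeierstrassCurve ℤ} (hΔ : V.Δ ≠ 0) {p : ℕ} (hp : p.Prime) {M : ℕ}
    (hM : M ≠ 0) (h : ∀ l : ℕ, l.Prime → ¬ l ∣ M → (p : ℤ) ∣ (l : ℤ) + 1 - V.apOfModel l) :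
    ¬ V.ModRepIsIrreducible p := by
  have hfin : {l : ℕ | l.Prime ∧
      ¬ p ∣ Nat.card (V.map (Int.castRingHom (ZMod l))).toAffine.Point}.Finite :=
    M.primeFactors.finite_toSet.subset fun l ⟨hl, hn⟩ => by
      simp only [Finset.mem_coe, Nat.mem_primeFactors]
      refine ⟨hl, ?_, hM⟩
      by_contra hlM
      haveI := Fact.mk hl
      exact hn (Int.natCast_dvd_natCast.mp
        ((FA.Ribet.natCard_reduction (W := V) (l := l)).symm ▸ h l hl hlM))
  haveI := ratCurve_isElliptic_of_Δ hΔ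
  rcases (FA.Summary.katz_prime_iff V hΔ hp).mp hfin with
    ⟨P, hP0, hPp, hfix⟩ | ⟨G, hG, hGp, hGσ⟩
  · haveI := Fact.mk hp
    refine FA.Root.not_modRepIsIrreducible_of_subgroup hΔ hp
      (AddSubgroup.zmultiples P) ?_ fun σ Q hQ => ?_
    · rw [Nat.card_zmultiples]; exact addOrderOf_eq_prime hPp hP0
    · obtain ⟨m, rfl⟩ := AddSubgroup.mem_zmultiples_iff.mp hQ
      show Affine.Point.map σ.toAlgHom (m • P) ∈ AddSubgroup.zmultiples P
      rw [map_zsmul, hfix σ]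
      exact hQ
  · refine FA.Root.not_modRepIsIrreducible_of_subgroup hΔ hp G hG fun σ Q hQ => ?_
    have := G.add_mem (hGσ σ Q (hGp Q hQ)) hQ
    rwa [sub_add_cancel] at this

/-- **No semistable curve with bad primes in `{3, q}` has reducible `3`-torsion.** -/
theorem irreducible_three {q : ℕ} (hq : q.Prime)
    (h9 : q % 9 = 2 ∨ q % 9 = 4 ∨ q % 9 = 5 ∨ q % 9 = 7) {W : WeierstrassCurve ℤ} (hΔ : W.Δ ≠ 0)
    (hW : W.IsSemistableModel) (hgood : ∀ l : ℕ, l.Prime → ¬ l ∣ 3 * q → W.IsGoodPrimeFor l) :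
    W.ModRepIsIrreducible 3 := by
  by_contra hred
  have := ratCurve_isElliptic_of_Δ hΔ
  have hc₄ : W.c₄ ≠ 0 := fun e => false_of_c₄_cube hΔ hW (k := 0) (by rw [e]; ring)
  obtain ⟨x, hx⟩ := FA.EC.exists_root_Ψ₃ (W.map (Int.castRingHom ℚ)) hred
  obtain ⟨s, hs0, hs⟩ := FA.EC.exists_param_three _ x hx
  rw [map_c₄, map_Δ, eq_intCast, eq_intCast] at hs
  set u := s.num with hudef
  set v : ℤ := (s.den : ℤ) with hvdef
  have huv : IsCoprime u v := Int.isCoprime_iff_nat_coprime.2 s.reduced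
  have hts : (v : ℚ) * s = (u : ℚ) := by
    rw [hudef, hvdef, Int.cast_natCast]; exact Rat.den_mul_eq_num s
  have main : W.c₄ ^ 3 * (u * v ^ 3) = (u + 27 * v) * (u + 3 * v) ^ 3 * W.Δ := by
    apply Int.cast_injective (α := ℚ)
    push_cast
    rw [← hts]
    linear_combination (v : ℚ) ^ 4 * hs
  have hcd := FA.Switch.isCoprime_c₄_Δ hΔ hW
  obtain ⟨κ, hκ⟩ : W.Δ ∣ u * v ^ 3 :=
    (hcd.pow_right (n := 3)).dvd_of_dvd_mul_left (Dvd.intro_left _ main.symm)
  have main' : W.c₄ ^ 3 * κ = (u + 27 * v) * (u + 3 * v) ^ 3 :=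
    mul_right_cancel₀ hΔ (by rw [← main, hκ]; ring)
  have hκu : κ ∣ u := by
    refine (IsCoprime.pow_right (n := 3) ?_).dvd_of_dvd_mul_right (Dvd.intro_left W.Δ hκ.symm)
    have hco : IsCoprime ((u + 27 * v) * (u + 3 * v) ^ 3) v :=
      (huv.add_mul_right_left 27).mul_left (huv.add_mul_right_left 3).pow_left
    exact hco.of_isCoprime_of_dvd_left (Dvd.intro_left _ main')
  have hκ729 : κ ∣ 729 := by
    have h1 : κ ∣ 729 * v ^ 4 := by
      rw [show 729 * v ^ 4 = (u + 27 * v) * (u + 3 * v) ^ 3 -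
        u * (u ^ 3 + 36 * u ^ 2 * v + 270 * u * v ^ 2 + 756 * v ^ 3) by ring]
      exact dvd_sub (Dvd.intro_left _ main') (hκu.mul_right _)
    exact ((huv.of_isCoprime_of_dvd_left hκu).pow_right).dvd_of_dvd_mul_right h1
  have hC : u ^ 2 + 18 * u * v - 27 * v ^ 2 ≠ 0 := fun e0 => by
    have hv1 : v = 1 := by
      have hd : v ∣ u ^ 2 := ⟨27 * v - 18 * u, by linear_combination e0⟩
      rcases Int.isUnit_iff.1 (huv.symm.pow_right.isUnit_of_dvd hd) with e | e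
      · exact e
      · omega
    rw [hv1] at e0
    have : -40 < u ∧ u < 40 := ⟨by nlinarith, by nlinarith⟩
    obtain ⟨h1, h2⟩ := this
    interval_cases u <;> omega
  have hC6 : κ * W.c₆ ^ 2 = (u ^ 2 + 18 * u * v - 27 * v ^ 2) ^ 2 := by
    linear_combination κ * W.c_relation + main' - 1728 * (-hκ)
  have hsupp : ∀ r : ℕ, r.Prime → (r : ℤ) ∣ W.Δ → r = 3 ∨ r = q := fun r hr hrΔ => by
    by_contra! hne
    exact hgood r hr (fun h' => (hr.dvd_mul.mp h').elim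
      (fun e => hne.1 ((Nat.prime_dvd_prime_iff_eq hr Nat.prime_three).mp e))
      fun e => hne.2 ((Nat.prime_dvd_prime_iff_eq hr hq).mp e)) hrΔ
  have h3p := Int.prime_three
  -- a parameter `x + 27 y = c³`
  have finish : ∀ {x y z : ℤ}, IsCoprime x y → y ≠ 0 → ((3 : ℤ) ∣ x → (3 : ℤ) ∣ W.Δ) →
      x * y ∣ W.Δ → W.c₄ ^ 3 = (x + 27 * y) * z ^ 3 → False := by
    intro x y z hco hy h3 hd e
    have hz : z ≠ 0 := fun e0 => hc₄ (pow_eq_zero_iff three_ne_zero |>.mp (by rw [e, e0]; ring))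
    obtain ⟨c, hc⟩ : z ∣ W.c₄ := (Int.pow_dvd_pow_iff three_ne_zero).1 (e ▸ dvd_mul_left _ _)
    have hc3 : c ^ 3 = x + 27 * y := by
      refine mul_left_cancel₀ (pow_ne_zero 3 hz) ?_
      rw [hc] at e
      linear_combination e
    refine add_twentySeven_mul_ne_cube hq h9 hy hco (fun h3x => ?_)
      (fun r hr h => hsupp r hr (h.trans hd)) hc3
    have : (3 : ℤ) ∣ c := h3p.dvd_of_dvd_pow (n := 3) (hc3 ▸ h3x.add ⟨9 * y, by ring⟩)
    exact hW 3 Nat.prime_three (by exact_mod_cast h3 h3x)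
      (by rw [hc]; exact_mod_cast this.mul_left z)
  have hv0 : v ≠ 0 := by rw [hvdef]; exact_mod_cast s.den_ne_zero
  have hu0 : u ≠ 0 := Rat.num_ne_zero.mpr hs0
  rcases square_dvd_729 (isSquare_of_mul_sq hC hC6) hκ729 with rfl | rfl | rfl | rfl
  · rw [mul_one] at hκ main'
    exact finish huv hv0 (fun h => hκ ▸ h.mul_right _)
      (hκ ▸ mul_dvd_mul_left u (dvd_pow_self v three_ne_zero)) main'
  all_goals obtain ⟨u', hu'⟩ := hκu
  all_goals rw [hu'] at hκ main' huv hC6 hu0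
  all_goals have hprod : u' * v ^ 3 = W.Δ :=
              mul_right_cancel₀ (by norm_num) (Eq.trans (by ring) hκ)
  all_goals have h3v : ¬(3 : ℤ) ∣ v := fun hd => h3p.not_isUnit
              (huv.isUnit_of_dvd' ((by norm_num : (3 : ℤ) ∣ _).mul_right u') hd)
  · have e : W.c₄ ^ 3 = 27 * ((u' + 3 * v) * (3 * u' + v) ^ 3) :=
      mul_left_cancel₀ (show (9 : ℤ) ≠ 0 by norm_num) (by linear_combination main')
    have hc : (3 : ℤ) ∣ W.c₄ := h3p.dvd_of_dvd_pow (n := 3)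
      ⟨9 * ((u' + 3 * v) * (3 * u' + v) ^ 3), by linear_combination e⟩
    obtain ⟨t, ht⟩ := dvd_c₆_of_three_dvd hc
    have e6 : 9 * t ^ 2 = (3 * u' ^ 2 + 6 * u' * v - v ^ 2) ^ 2 := by
      rw [ht] at hC6
      linarith
    have h3 : (3 : ℤ) ∣ 3 * u' ^ 2 + 6 * u' * v - v ^ 2 :=
      h3p.dvd_of_dvd_pow (n := 2) ⟨3 * t ^ 2, by linear_combination -e6⟩
    refine h3v (h3p.dvd_of_dvd_pow (n := 2) ?_)
    have := dvd_sub (dvd_mul_right (3 : ℤ) (u' ^ 2 + 2 * u' * v)) h3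
    ring_nf at this ⊢
    exact this
  · have e : W.c₄ ^ 3 = 9 * ((3 * u' + v) * (27 * u' + v) ^ 3) :=
      mul_left_cancel₀ (show (81 : ℤ) ≠ 0 by norm_num) (by linear_combination main')
    have hc : (3 : ℤ) ∣ W.c₄ := h3p.dvd_of_dvd_pow (n := 3)
      ⟨3 * ((3 * u' + v) * (27 * u' + v) ^ 3), by linear_combination e⟩
    have h27 : (27 : ℤ) ∣ W.c₄ ^ 3 := by simpa using pow_dvd_pow_of_dvd hc 3
    rw [e, show (27 : ℤ) = 9 * 3 by norm_num] at h27
    have hnot : ∀ a : ℤ, 3 ∣ a * u' + v → 3 ∣ a → False := fun a ha ha' =>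
      h3v ((dvd_add_right (ha'.mul_right u')).1 ha)
    rcases h3p.dvd_or_dvd ((mul_dvd_mul_iff_left (by norm_num)).1 h27) with h' | h'
    · exact hnot 3 h' dvd_rfl
    · exact hnot 27 (h3p.dvd_of_dvd_pow h') (by norm_num)
  · have e : W.c₄ ^ 3 = (v + 27 * u') * (243 * u' + v) ^ 3 :=
      mul_left_cancel₀ (show (729 : ℤ) ≠ 0 by norm_num) (by linear_combination main')
    refine finish huv.of_mul_left_right.symm (right_ne_zero_of_mul hu0) (fun h => absurd h h3v)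
      ?_ e
    rw [← hprod, mul_comm v u']
    exact mul_dvd_mul_left u' (dvd_pow_self v three_ne_zero)

end FA.CurveCriterion

end
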