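import Fermat.Agent.Ribet.CurveCriterion.OddCoefficients

/-!
# A power of two in one coefficient

In `A x ^ n + B y ^ n + 2 ^ a C z ^ n = 0` with `A, B, C` odd and `0 < a < n` the powers of two in
`x, y` agree and are at most that in `z`, so they cancel and leave two odd terms and a third one
divisible by `2 ^ a`; common odd primes are then removed as for odd coefficients.
-/

set_option autoImplicit false

noncomputable section

namespace FA.CurveCriterion

/-- The odd part of a nonzero integer. -/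
theorem exists_two_pow_mul_odd {x : ℤ} (hx : x ≠ 0) : ∃ (i : ℕ) (u : ℤ), Odd u ∧ x = 2 ^ i * u := by
  obtain ⟨i, m, hm, e⟩ := Nat.exists_eq_two_pow_mul_odd (Int.natAbs_ne_zero.mpr hx)
  rcases Int.natAbs_eq x with h | h
  · exact ⟨i, m, (Int.odd_coe_nat m).mpr hm, by rw [h, e]; push_cast; ring⟩
  · exact ⟨i, -m, ((Int.odd_coe_nat m).mpr hm).neg, by rw [h, e]; push_cast; ring⟩

/-- Of three powers of two with odd factors adding up to zero, none is smaller than both others. -/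
theorem not_lt_both_of_two_pow_sum {i j k : ℕ} {u v w : ℤ} (hu : Odd u)
    (h : 2 ^ i * u + 2 ^ j * v + 2 ^ k * w = 0) : ¬ (i < j ∧ i < k) := by
  rintro ⟨hj, hk⟩
  obtain ⟨s, rfl⟩ := Nat.exists_eq_add_of_lt hj
  obtain ⟨t, rfl⟩ := Nat.exists_eq_add_of_lt hk
  have e : u + 2 * (2 ^ s * v + 2 ^ t * w) = 0 := (mul_eq_zero.mp
    (show (2 : ℤ) ^ i * (u + 2 * (2 ^ s * v + 2 ^ t * w)) = 0 by
      rw [← h]; simp only [pow_add, pow_one]; ring)).resolve_left (pow_ne_zero _ two_ne_zero)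
  have := Int.odd_iff.mp hu
  omega

variable {S : Finset ℕ} {n : ℕ}

/-- **The reduction with a power of two**: two odd terms and `2 ^ e`, `e ≥ 5`, times a third. -/
theorem sum_twoPow_oddSTerms_ne_zero (h2 : 2 ∉ S) (hn : n ≠ 0) {e : ℕ} (he : 5 ≤ e)
    (hbase : ∀ A B C x y z : ℤ, A * B * C ≠ 0 → x * y * z ≠ 0 →
      (∀ r : ℕ, r.Prime → (r : ℤ) ∣ A * B * C → r = 2 ∨ r ∈ S) →
      IsCoprime (A * x ^ n) (B * y ^ n) → (32 : ℤ) ∣ C * z ^ n →
      A * x ^ n + B * y ^ n + C * z ^ n ≠ 0) {t₁ t₂ t₃ : ℤ}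
    (h₁ : IsOddSTerm S n t₁) (h₂ : IsOddSTerm S n t₂) (h₃ : IsOddSTerm S n t₃)
    (o₁ : Odd t₁) (o₂ : Odd t₂) (h3 : t₃ ≠ 0) : t₁ + t₂ + 2 ^ e * t₃ ≠ 0 := by
  induction hN : t₁.natAbs using Nat.strong_induction_on generalizing t₁ t₂ t₃ with
  | _ N ih =>
    intro hsum
    have n1 : t₁ ≠ 0 := fun h => by rw [h] at o₁; exact absurd o₁ (by decide)
    have n2 : t₂ ≠ 0 := fun h => by rw [h] at o₂; exact absurd o₂ (by decide)
    by_cases hcom : ∃ r : ℕ, r.Prime ∧ (r : ℤ) ∣ t₁ ∧ (r : ℤ) ∣ t₂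
    · obtain ⟨r, hr, d1, d2⟩ := hcom
      have hr2 : r ≠ 2 := fun h => by
        subst h
        exact Int.not_even_iff_odd.mpr o₁ (even_iff_two_dvd.mpr d1)
      have d3 : (r : ℤ) ∣ t₃ := by
        refine ((Nat.prime_iff_prime_int.mp hr).dvd_or_dvd (a := 2 ^ e) ?_).resolve_left fun h =>
          hr2 ((Nat.prime_dvd_prime_iff_eq hr Nat.prime_two).mp
            (Int.natCast_dvd_natCast.mp ((Nat.prime_iff_prime_int.mp hr).dvd_of_dvd_pow h)))
        rw [show (2 : ℤ) ^ e * t₃ = -(t₁ + t₂) by linarith]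
        exact (d1.add d2).neg_right
      obtain ⟨u₁, e1, g1⟩ := h₁.exists_div h2 hn hr d1
      obtain ⟨u₂, e2, g2⟩ := h₂.exists_div h2 hn hr d2
      obtain ⟨u₃, e3, g3⟩ := h₃.exists_div h2 hn hr d3
      set k : ℤ := if r ∈ S then (r : ℤ) else (r : ℤ) ^ n with hk
      clear_value k
      have hk2 : 2 ≤ k.natAbs := by
        rw [hk]
        split_ifs
        · simpa using hr.two_le
        · simpa [Int.natAbs_pow] using hr.two_le.trans (Nat.le_self_pow hn r)
      subst e1 e2 e3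
      refine ih u₁.natAbs ?_ g1 g2 g3 (Int.odd_mul.mp o₁).2 (Int.odd_mul.mp o₂).2
        (right_ne_zero_of_mul h3) rfl ?_
      · rw [← hN, Int.natAbs_mul]
        exact lt_mul_of_one_lt_left (Int.natAbs_pos.mpr (right_ne_zero_of_mul n1)) hk2
      · exact (mul_eq_zero.mp (show k * (u₁ + u₂ + 2 ^ e * u₃) = 0 by
          linear_combination hsum)).resolve_left (left_ne_zero_of_mul n1)
    · have hco : IsCoprime t₁ t₂ := by
        rw [Int.isCoprime_iff_nat_coprime]
        exact Nat.coprime_of_dvd fun r hr a b =>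
          hcom ⟨r, hr, Int.natCast_dvd.mpr a, Int.natCast_dvd.mpr b⟩
      obtain ⟨A, x, rfl, -, hA⟩ := h₁
      obtain ⟨B, y, rfl, -, hB⟩ := h₂
      obtain ⟨C, z, rfl, -, hC⟩ := h₃
      have hnz : ∀ {u : ℤ}, u ^ n ≠ 0 → u ≠ 0 := fun h e => h (by rw [e, zero_pow hn])
      refine hbase A B (2 ^ e * C) x y z (mul_ne_zero (mul_ne_zero (left_ne_zero_of_mul n1)
        (left_ne_zero_of_mul n2)) (mul_ne_zero (pow_ne_zero _ two_ne_zero)
          (left_ne_zero_of_mul h3)))
        (mul_ne_zero (mul_ne_zero (hnz (right_ne_zero_of_mul n1))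
          (hnz (right_ne_zero_of_mul n2))) (hnz (right_ne_zero_of_mul h3)))
        (fun r hr hd => ?_) hco ((((show (32 : ℤ) = 2 ^ 5 by norm_num) ▸
          pow_dvd_pow 2 he).mul_right C).mul_right _) (by linear_combination hsum)
      have hp := Nat.prime_iff_prime_int.mp hr
      rcases hp.dvd_or_dvd hd with h | h
      · exact Or.inr ((hp.dvd_or_dvd h).elim (hA r hr) (hB r hr))
      · rcases hp.dvd_or_dvd h with h' | h'
        · exact Or.inl ((Nat.prime_dvd_prime_iff_eq hr Nat.prime_two).mp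
            (Int.natCast_dvd_natCast.mp (hp.dvd_of_dvd_pow h')))
        · exact Or.inr (hC r hr h')

end FA.CurveCriterion

end
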