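import Fermat.Agent.SerreCurve.FixedA
import Fermat.Agent.CM.ClassOne.Galois
import Fermat.Agent.EC.S51Aux

/-!
# Two integers that are never both nonsquares

If modulo every prime beyond a finite set one of two integers is a square, then one of them is a
square: otherwise some element of Galois moves both square roots, and Chebotarev gives the prime.
-/

set_option autoImplicit false
set_option linter.style.haveILetI false

noncomputable section

local notation "Qb" => AlgebraicClosure ℚ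
local notation "GQ" => AlgebraicClosure ℚ ≃ₐ[ℚ] AlgebraicClosure ℚ

namespace FA.CurveCriterion

/-- An element moving the square root of a nonsquare. -/
theorem exists_apply_ne {b : ℤ} (hb : ¬ IsSquare b) {s : Qb} (hs : s ^ 2 = (b : Qb)) :
    ∃ σ : GQ, σ s ≠ s := by
  by_contra h
  push Not at h
  obtain ⟨r, hr⟩ := FA.EC.mem_range_of_fixed h
  rw [← hr, ← map_pow, ← map_intCast (algebraMap ℚ Qb)] at hs
  exact hb (Rat.isSquare_intCast_iff.mp ⟨r, ((algebraMap ℚ Qb).injective hs).symm.trans (sq r)⟩)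

/-- An element moving two square roots. -/
theorem exists_apply_ne_both {b d : ℤ} (hb : ¬ IsSquare b) (hd : ¬ IsSquare d) {s t : Qb}
    (hs : s ^ 2 = (b : Qb)) (ht : t ^ 2 = (d : Qb)) : ∃ g : GQ, g s ≠ s ∧ g t ≠ t := by
  obtain ⟨σ, hσ⟩ := exists_apply_ne hb hs
  obtain ⟨τ, hτ⟩ := exists_apply_ne hd ht
  by_cases hσt : σ t = t
  · by_cases hτs : τ s = s
    · refine ⟨σ * τ, by rw [AlgEquiv.mul_apply, hτs]; exact hσ, fun e => hτ ?_⟩
      rw [AlgEquiv.mul_apply] at e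
      exact σ.injective (e.trans hσt.symm)
    · exact ⟨τ, hτs, hτ⟩
  · exact ⟨σ, hσ, hσt⟩

/-- Two nonsquares are nonsquares together modulo some prime outside any finite set. -/
theorem exists_prime_not_isSquare {b d : ℤ} (hb : ¬ IsSquare b) (hd : ¬ IsSquare d)
    (F : Finset ℕ) : ∃ q : ℕ, q.Prime ∧ 5 ≤ q ∧ q ∉ F ∧
      ¬ IsSquare ((b : ℤ) : ZMod q) ∧ ¬ IsSquare ((d : ℤ) : ZMod q) := by
  classical
  obtain ⟨s, hs⟩ := IsAlgClosed.exists_pow_nat_eq ((b : ℤ) : Qb) (n := 2) two_pos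
  obtain ⟨t, ht⟩ := IsAlgClosed.exists_pow_nat_eq ((d : ℤ) : Qb) (n := 2) two_pos
  obtain ⟨L, hL, hLopen, hLs⟩ := FA.FixedA.exists_normal_fix s
  obtain ⟨M, hM, hMopen, hMt⟩ := FA.FixedA.exists_normal_fix t
  obtain ⟨g, hgs, hgt⟩ := exists_apply_ne_both hb hd hs ht
  let Q : Set ℕ := {q | q.Prime ∧ 5 ≤ q ∧ q ∉ F ∧ ¬ IsSquare ((b : ℤ) : ZMod q) ∧
    ¬ IsSquare ((d : ℤ) : ZMod q)}
  suffices h : ¬ Summable (Q.indicator fun n : ℕ => (1 : ℝ) / n) by
    by_contra hne
    push Not at hne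
    refine h ?_
    rw [show Q = ∅ from Set.eq_empty_iff_forall_notMem.mpr fun q ⟨h1, h2, h3, h4, h5⟩ =>
      h5 (hne q h1 h2 h3 h4), Set.indicator_empty]
    exact summable_zero
  have hb0 : b ≠ 0 := fun e => hb (e ▸ IsSquare.zero)
  have hd0 : d ≠ 0 := fun e => hd (e ▸ IsSquare.zero)
  refine FA.FixedA.not_summable_class (N := L ⊓ M)
    (by rw [Subgroup.coe_inf]; exact hLopen.inter hMopen) g
    (F ∪ Finset.range 5 ∪ (b * d).natAbs.primeFactors) fun q hq hqF V hV σ hσ c hc => ?_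
  simp only [Finset.mem_union, Finset.mem_range, not_or, not_lt, Nat.mem_primeFactors,
    not_and] at hqF
  have hnd : ¬ (q : ℤ) ∣ b * d := fun h =>
    hqF.2 hq (Int.natCast_dvd.mp h) (Int.natAbs_ne_zero.mpr (mul_ne_zero hb0 hd0))
  obtain ⟨hcs, hct⟩ := Subgroup.mem_inf.mp hc
  have key : ∀ r : Qb, ((c * g * c⁻¹)⁻¹ * σ) r = r → σ r = c (g (c⁻¹ r)) := fun r hr => by
    conv_rhs => rw [← hr]
    simp [AlgEquiv.mul_apply, mul_assoc]
  have main : ∀ (e : ℤ) (r : Qb), r ^ 2 = (e : Qb) → g r ≠ r →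
      ((c * g * c⁻¹)⁻¹ * σ) r = r → ¬ (q : ℤ) ∣ e → ¬ IsSquare ((e : ℤ) : ZMod q) := by
    intro e r hr hgr hfix hqe hsq
    have hσr : σ r = r :=
      (FA.CM.ClassOne.frobenius_fix_iff_int hq (by omega) hqe hV hσ hr).mpr hsq
    have h2' : c⁻¹ r = g (c⁻¹ r) := by
      apply c.injective
      rw [← key r hfix, hσr]
      exact c.apply_symm_apply r
    have h1 : c⁻¹ r = r ∨ c⁻¹ r = -r := sq_eq_sq_iff_eq_or_eq_neg.mp (by
      rw [← map_pow, hr, map_intCast])
    rcases h1 with e1 | e1 <;> rw [e1] at h2'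
    · exact hgr h2'.symm
    · rw [map_neg, neg_inj] at h2'
      exact hgr h2'.symm
  exact ⟨hq, hqF.1.2, hqF.1.1, main b s hs hgs (hLs _ hcs) fun h => hnd (h.mul_right d),
    main d t ht hgt (hMt _ hct) fun h => hnd (h.mul_left b)⟩

end FA.CurveCriterion

end
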