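import Fermat.Agent.Ribet.AsymptoticTraces
import Fermat.Agent.Ribet.CurveCriterion.SUnit
import Fermat.Agent.Ribet.CurveCriterion.TwoSquares
import Fermat.Agent.Root.SummaryKatz
import Fermat.Agent.Root.SummaryTorsion
import Fermat.Agent.Root.SummaryTwistCriterion
import Fermat.Agent.Root.NoGoodReduction
import Fermat.Agent.SetzerNeumann.ExponentTwo
import Fermat.Agent.SetzerNeumann.TwoIsogeny

/-!
# No curve with bad primes among `2` and `q` has four dividing its traces

Four dividing `l + 1 - a_l` at almost all `l` gives a root of the two-division cubic, moved to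
`y² = x (x² + A x + B)`, and makes `B` or `A² - 4 B` a square modulo `l`, so a square. Either way
three numbers supported on `2` and `q` add up to zero; two are equal, which makes `j` one of
`1728` and `287496`, and a semistable equation then has a unit discriminant.
-/

set_option autoImplicit false
set_option linter.style.haveILetI false
set_option linter.unusedSectionVars false

noncomputable section

open WeierstrassCurve WeierstrassCurve.Affine FA.Frob
open FA.CM.Seven (twoCurve twoCurve_equation twoCurve_negY exists_line)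
open scoped WeierstrassCurve.Affine

local notation "Qb" => AlgebraicClosure ℚ
local notation "GQ" => AlgebraicClosure ℚ ≃ₐ[ℚ] AlgebraicClosure ℚ

namespace FA.CurveCriterion

/-- If `4` divides the order, one of `B` and `A² - 4 B` is a square. -/
theorem isSquare_or_of_four_dvd {F : Type} [Field F] [Finite F] [DecidableEq F]
    (h2 : (2 : F) ≠ 0) {A B : F} [(twoCurve A B).IsElliptic]
    (h4 : 4 ∣ Nat.card (twoCurve A B).toAffine.Point) :
    IsSquare B ∨ IsSquare (A ^ 2 - 4 * B) := by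
  classical
  by_contra! hns
  set T : (twoCurve A B).toAffine.Point :=
    .some 0 0 (Affine.equation_iff_nonsingular.mp (twoCurve_equation.mpr (by ring))) with hT
  have hTT : T + T = 0 := Affine.Point.add_of_Y_eq rfl (by simp)
  haveI : Finite (twoCurve A B).toAffine.Point := Finite.of_injective
    (fun P => match P with | .zero => none | .some x y _ => some (x, y))
    (by rintro (_ | ⟨x, y, h⟩) (_ | ⟨x', y', h'⟩) e <;> simp_all)
  let φ : (twoCurve A B).toAffine.Point →+ (twoCurve A B).toAffine.Point := nsmulAddMonoidHom 2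
  have hker : ∀ P, P + P = 0 → P = 0 ∨ P = T := by
    rintro (_ | ⟨x, y, h⟩) hP
    · exact Or.inl rfl
    refine Or.inr ?_
    rw [← eq_neg_iff_add_eq_zero, Affine.Point.neg_some, Affine.Point.some.injEq,
      twoCurve_negY] at hP
    have hy : y = 0 :=
      (mul_eq_zero.mp (show (2 : F) * y = 0 by linear_combination hP.2)).resolve_left h2
    have e := twoCurve_equation.mp h.1
    rw [hy] at e
    rcases mul_eq_zero.mp (show x * (x ^ 2 + A * x + B) = 0 by linear_combination -e) with hx | hx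
    · subst hx; subst hy; rfl
    · exact absurd ⟨2 * x + A, by linear_combination -(4 : F) * hx⟩ hns.2
  have hk : Nat.card φ.ker ≤ 2 := by
    refine (Nat.card_mono (Set.toFinite ({0, T} : Set _)) fun P hP => ?_).trans
      (by
        rw [Nat.card_coe_set_eq]
        exact (Set.ncard_insert_le _ _).trans (by rw [Set.ncard_singleton]))
    simpa using hker P (by rw [← two_nsmul]; exact hP)
  have hmul : Nat.card φ.ker * Nat.card φ.range = Nat.card (twoCurve A B).toAffine.Point := by
    rw [← AddSubgroup.index_ker]; exact φ.ker.card_mul_index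
  haveI : Fact (Nat.Prime 2) := ⟨Nat.prime_two⟩
  have h2r : 2 ∣ Nat.card φ.range := by
    have := Nat.card_pos (α := φ.ker)
    rcases (show Nat.card φ.ker = 1 ∨ Nat.card φ.ker = 2 by omega) with e | e <;>
      rw [e] at hmul <;> omega
  obtain ⟨R, hR⟩ := exists_prime_addOrderOf_dvd_card' 2 h2r
  have hR0 : (R : (twoCurve A B).toAffine.Point) ≠ 0 := fun e => by
    rw [show R = 0 from Subtype.ext e, addOrderOf_zero] at hR
    omega
  have hR2 : (R : (twoCurve A B).toAffine.Point) + R = 0 := by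
    have := congrArg Subtype.val (hR ▸ addOrderOf_nsmul_eq_zero R)
    simpa [two_nsmul] using this
  obtain ⟨Q, hQ⟩ := R.2
  have hQT : Q + Q = T := by
    rw [← two_nsmul]
    exact hQ.trans ((hker _ hR2).resolve_left hR0)
  rcases Q with _ | ⟨x, y, h⟩
  · exact hR0 (by rw [← hQ]; rfl)
  have hne : ¬ (x = x ∧ y = (twoCurve A B).toAffine.negY x y) := fun e => by
    rw [Affine.Point.add_of_Y_eq rfl e.2] at hQT
    exact Affine.Point.some_ne_zero _ hQT.symm
  obtain ⟨M, C, x₃, h₃, -, -, -, e2, e3, esum⟩ := exists_line h h hne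
  rw [hQT, hT, Affine.Point.neg_some, Affine.Point.some.injEq] at esum
  have hC : C = 0 := pow_eq_zero_iff two_ne_zero |>.mp
    (by rw [← e3, ← esum.1, mul_zero])
  rw [← esum.1, hC] at e2
  exact hns.1 ⟨x, by linear_combination -e2⟩

/-- The shifted cubic at a good prime `l` with `4 ∣ l + 1 - a_l`. -/
theorem isSquare_mod_or {V : WeierstrassCurve ℤ} {X A B : ℤ}
    (hX : X ^ 3 + V.b₂ * X ^ 2 + 8 * V.b₄ * X + 16 * V.b₆ = 0) (hA : A = 3 * X + V.b₂)
    (hB : B = 3 * X ^ 2 + 2 * V.b₂ * X + 8 * V.b₄) {l : ℕ} (hl : l.Prime) (h2 : l ≠ 2)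
    (hgood : V.IsGoodPrimeFor l) (h4 : (4 : ℤ) ∣ (l : ℤ) + 1 - V.apOfModel l) :
    IsSquare ((B : ℤ) : ZMod l) ∨ IsSquare (((A ^ 2 - 4 * B : ℤ) : ZMod l)) := by
  haveI := Fact.mk hl
  haveI := FA.Ribet.isElliptic_reduction hgood
  have h20 : (2 : ZMod l) ≠ 0 := fun h => h2 ((Nat.prime_dvd_prime_iff_eq hl Nat.prime_two).mp
    ((ZMod.natCast_eq_zero_iff 2 l).mp (by exact_mod_cast h)))
  set W := V.reductionMod l with hW
  let C : VariableChange (ZMod l) := ⟨Units.mk0 2⁻¹ (inv_ne_zero h20), (X : ZMod l) / 4,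
    -W.a₁ / 2, -(W.a₁ * ((X : ZMod l) / 4) + W.a₃) / 2⟩
  have hX' := congrArg (Int.cast : ℤ → ZMod l) hX
  have h4' : (4 : ZMod l) ≠ 0 := by
    rw [show (4 : ZMod l) = 2 * 2 by norm_num]; exact mul_ne_zero h20 h20
  simp only [b₂, b₄, b₆] at hX' hA hB
  push_cast at hX'
  have hC : C • W = twoCurve (A : ZMod l) (B : ZMod l) := by
    subst hA hB
    ext <;> simp only [C, variableChange_a₁, variableChange_a₂, variableChange_a₃,
      variableChange_a₄, variableChange_a₆, Units.val_inv_eq_inv_val, Units.val_mk0, inv_inv] <;>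
      simp only [hW, reductionMod, map_a₁, map_a₂, map_a₃, map_a₄, map_a₆, eq_intCast] <;>
      push_cast <;> field_simp
    · ring
    · ring
    · ring
    · ring
    · linear_combination 64 * hX'
  haveI : (twoCurve (A : ZMod l) (B : ZMod l)).IsElliptic := hC ▸ inferInstance
  have hcard : 4 ∣ Nat.card (twoCurve (A : ZMod l) (B : ZMod l)).toAffine.Point := by
    rw [Nat.card_congr (vcEquiv C hC).toEquiv, ← Int.natCast_dvd_natCast]
    rwa [FA.Ribet.natCard_reduction]
  rcases isSquare_or_of_four_dvd h20 hcard with h | h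
  exacts [Or.inl h, Or.inr (by push_cast; exact h)]

/-- Semistable with `c₄³ = k Δ`: good reduction everywhere, which is impossible. -/
theorem false_of_c₄_cube {V : WeierstrassCurve ℤ} (hΔ : V.Δ ≠ 0) (hV : V.IsSemistableModel)
    {k : ℤ} (h : V.c₄ ^ 3 = k * V.Δ) : False := by
  haveI := ratCurve_isElliptic_of_Δ hΔ
  refine FA.Root.not_forall_hasGoodReduction (ratCurve V) fun p hp => ?_
  exact FA.Root.exists_good_of_not_dvd V p fun hd => hV p hp.out hd
    ((Nat.prime_iff_prime_int.mp hp.out).dvd_of_dvd_pow (h ▸ hd.mul_left k))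

/-- A Galois-stable subgroup of order two from traces that are even almost everywhere. -/
theorem reducible_two_of_even {V : WeierstrassCurve ℤ} (hΔ : V.Δ ≠ 0) {M : ℕ} (hM : M ≠ 0)
    (h : ∀ l : ℕ, l.Prime → ¬ l ∣ M → (2 : ℤ) ∣ (l : ℤ) + 1 - V.apOfModel l) :
    ¬ V.ModRepIsIrreducible 2 := by
  have hfin : {l : ℕ | l.Prime ∧
      ¬ 2 ∣ Nat.card (V.map (Int.castRingHom (ZMod l))).toAffine.Point}.Finite :=
    M.primeFactors.finite_toSet.subset fun l ⟨hl, hn⟩ => by
      simp only [Finset.mem_coe, Nat.mem_primeFactors]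
      refine ⟨hl, ?_, hM⟩
      by_contra hlM
      haveI := Fact.mk hl
      exact hn (Int.natCast_dvd_natCast.mp
        ((FA.Ribet.natCard_reduction (W := V) (l := l)).symm ▸ h l hl hlM))
  haveI := ratCurve_isElliptic_of_Δ hΔ
  rcases (FA.Summary.katz_prime_iff V hΔ Nat.prime_two).mp hfin with
    ⟨P, hP0, hP2, hfix⟩ | ⟨G, hG, hG2, hGσ⟩
  · refine FA.Root.not_modRepIsIrreducible_of_subgroup hΔ Nat.prime_two
      (AddSubgroup.zmultiples P) ?_ fun σ Q hQ => ?_
    · rw [Nat.card_zmultiples]; exact addOrderOf_eq_prime hP2 hP0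
    · obtain ⟨m, rfl⟩ := AddSubgroup.mem_zmultiples_iff.mp hQ
      show Affine.Point.map σ.toAlgHom (m • P) ∈ AddSubgroup.zmultiples P
      rw [map_zsmul, hfix σ]
      exact hQ
  · refine FA.Root.not_modRepIsIrreducible_of_subgroup hΔ Nat.prime_two G hG fun σ Q hQ => ?_
    have := G.add_mem (hGσ σ Q (hG2 Q hQ)) hQ
    rwa [sub_add_cancel] at this

/-- The `j`-invariant is `1728` when the cubic is `x³ + B x`, `287496` when `A = ± 6 s`. -/
theorem cube_of_square_root {A B D s : ℤ} {c Δ : ℤ} (hc : A ^ 2 - 3 * B = c)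
    (hD : A ^ 2 - 4 * B = D) (hΔ : B ^ 2 * D = 256 * Δ) (hB : B = s * s)
    (h : A = 0 ∨ A = 6 * s ∨ A = -(6 * s)) : ∃ k, c ^ 3 = k * Δ := by
  subst hc hD hB
  rcases h with rfl | rfl | rfl
  · exact ⟨1728, mul_left_cancel₀ (show (256 : ℤ) ≠ 0 by norm_num)
      (by linear_combination 1728 * hΔ)⟩
  all_goals exact ⟨287496, mul_left_cancel₀ (show (256 : ℤ) ≠ 0 by norm_num)
      (by linear_combination 287496 * hΔ)⟩

/-- The `j`-invariant is `1728` when the roots of the cubic are in progression. -/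
theorem cube_of_split {A B c Δ r : ℤ} (hc : A ^ 2 - 3 * B = c) (hD : A ^ 2 - 4 * B = r * r)
    (hΔ : B ^ 2 * (r * r) = 256 * Δ) (h : A = 0 ∨ A = 3 * r ∨ A = -(3 * r)) :
    ∃ k, c ^ 3 = k * Δ := by
  subst hc
  refine ⟨1728, mul_left_cancel₀ (show (256 : ℤ) ≠ 0 by norm_num) ?_⟩
  rcases h with rfl | rfl | rfl
  · rw [← hD] at hΔ; linear_combination 1728 * hΔ
  all_goals
    obtain rfl : B = 2 * (r * r) := by linarith
    linear_combination 1728 * hΔ

/-- **No semistable curve with bad primes in `{2, q}` has four dividing all `l + 1 - a_l`.** -/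
theorem not_four_dvd_traces {q : ℕ} (hq : q.Prime) (hq2 : q ≠ 2)
    (hne : ∀ k : ℕ, q ≠ 2 ^ k + 1 ∧ q + 1 ≠ 2 ^ k) {V : WeierstrassCurve ℤ} (hΔ : V.Δ ≠ 0)
    (hV : V.IsSemistableModel) (hgood : ∀ l : ℕ, l.Prime → ¬ l ∣ 2 * q → V.IsGoodPrimeFor l)
    (h4 : ∀ l : ℕ, l.Prime → ¬ l ∣ 2 * q → (4 : ℤ) ∣ (l : ℤ) + 1 - V.apOfModel l) : False := by
  obtain ⟨x, hx⟩ := FA.SetzerNeumann.exists_root_of_reducible_two hΔ
    (reducible_two_of_even hΔ (mul_ne_zero two_ne_zero hq.ne_zero) fun l hl hlM =>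
      (show (2 : ℤ) ∣ 4 from ⟨2, rfl⟩).trans (h4 l hl hlM))
  obtain ⟨X, -, hX⟩ := FA.SetzerNeumann.exists_int_root hx
  obtain ⟨A, B, hA, hB, hc, hD⟩ := FA.SetzerNeumann.exists_shift hX
  have hB0 : B ≠ 0 := fun e => by
    rw [e] at hD
    exact hΔ (by linarith)
  have hsupp : ∀ r : ℕ, r.Prime → (r : ℤ) ∣ B * (A ^ 2 - 4 * B) → r = 2 ∨ r = q := by
    intro r hr hd
    have h256 : (r : ℤ) ∣ 256 * V.Δ := hD ▸ hd.trans ⟨B, by ring⟩
    rcases (Nat.prime_iff_prime_int.mp hr).dvd_or_dvd h256 with h | h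
    · left
      exact (Nat.prime_dvd_prime_iff_eq hr Nat.prime_two).mp
        (hr.dvd_of_dvd_pow (n := 8) (by exact_mod_cast h))
    · by_contra! hne'
      exact hgood r hr (fun h' => (hr.dvd_mul.mp h').elim
        (fun e => hne'.1 ((Nat.prime_dvd_prime_iff_eq hr Nat.prime_two).mp e))
        fun e => hne'.2 ((Nat.prime_dvd_prime_iff_eq hr hq).mp e)) h
  have hqAB : ¬ ((q : ℤ) ∣ A ∧ (q : ℤ) ∣ B) := by
    rintro ⟨h1, h2⟩
    have hqi := Nat.prime_iff_prime_int.mp hq
    have hd : (q : ℤ) ∣ 256 * V.Δ := hD ▸ (dvd_pow h2 two_ne_zero).mul_right _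
    refine hV q hq ((hqi.dvd_or_dvd hd).resolve_left fun h => hq2 ?_)
      (hc ▸ (dvd_pow h1 two_ne_zero).sub (h2.mul_left 3))
    exact (Nat.prime_dvd_prime_iff_eq hq Nat.prime_two).mp
      (hq.dvd_of_dvd_pow (n := 8) (by exact_mod_cast h))
  have h2q : ∀ {t : ℤ}, (q : ℤ) ∣ 2 * t → (q : ℤ) ∣ t := fun h =>
    ((Nat.prime_iff_prime_int.mp hq).dvd_or_dvd h).resolve_left fun e => hq2
      ((Nat.prime_dvd_prime_iff_eq hq Nat.prime_two).mp (by exact_mod_cast e))
  have hD0 : A ^ 2 - 4 * B ≠ 0 := fun e => by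
    rw [e, mul_zero] at hD
    omega
  have hsq : IsSquare B ∨ IsSquare (A ^ 2 - 4 * B) := by
    by_contra! h
    obtain ⟨l, hl, h5, hlF, hb, hd⟩ := exists_prime_not_isSquare h.1 h.2 (2 * q).primeFactors
    have hl2q : ¬ l ∣ 2 * q := fun e => hlF
      (Nat.mem_primeFactors.mpr ⟨hl, e, mul_ne_zero two_ne_zero hq.ne_zero⟩)
    rcases isSquare_mod_or hX hA hB hl (by omega) (hgood l hl hl2q) (h4 l hl hl2q) with e | e
    exacts [hb e, hd e]
  obtain ⟨k, hk⟩ : ∃ k, V.c₄ ^ 3 = k * V.Δ := by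
    rcases hsq with ⟨s, hs⟩ | ⟨r, hr⟩
    · have he : (A + 2 * s) * (A - 2 * s) = A ^ 2 - 4 * B := by rw [hs]; ring
      have hs0 : s ≠ 0 := fun e => hB0 (by rw [hs, e, zero_mul])
      have hne0 := mul_ne_zero_iff.mp (he.symm ▸ hD0)
      rcases eq_of_add_eq_zero hq hq2 hne (x := A + 2 * s) (y := -(A - 2 * s)) (z := -(4 * s))
        (mul_ne_zero (mul_ne_zero hne0.1 (neg_ne_zero.mpr hne0.2)) (by omega)) (by ring)
        (fun p hp hd => by
          rw [show (A + 2 * s) * -(A - 2 * s) * -(4 * s) = 4 * s * (A ^ 2 - 4 * B) by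
            rw [hs]; ring] at hd
          rcases (Nat.prime_iff_prime_int.mp hp).dvd_or_dvd hd with h | h
          · rcases (Nat.prime_iff_prime_int.mp hp).dvd_or_dvd h with h' | h'
            · left
              exact (Nat.prime_dvd_prime_iff_eq hp Nat.prime_two).mp
                (hp.dvd_of_dvd_pow (n := 2) (by exact_mod_cast h'))
            · exact hsupp p hp ((hs ▸ h'.mul_right s).mul_right _)
          · exact hsupp p hp (h.mul_left B))
        (fun ⟨h1, h2⟩ => hqAB ⟨h2q (by
            rw [show 2 * A = A + 2 * s - -(A - 2 * s) by ring]; exact h1.sub h2), hs ▸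
          ((h2q (h2q (by rw [show 2 * (2 * s) = A + 2 * s + -(A - 2 * s) by ring]
                         exact h1.add h2))).mul_right s)⟩) with e | e | e <;>
        exact cube_of_square_root hc rfl hD hs (by omega)
    · obtain ⟨e, he⟩ : Even (r - A) := by
        have : Even ((r - A) * (r + A)) := ⟨-2 * B, by linear_combination -hr⟩
        rcases Int.even_mul.mp this with h | h
        exacts [h, by rw [show r - A = r + A - 2 * A by ring]; exact h.sub (even_two_mul A)]
      have hre : r = A + 2 * e := by linarith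
      subst hre
      have hB' : B = -(e * (A + e)) := by linarith
      have hr0 : A + 2 * e ≠ 0 := fun h0 => hD0 (by rw [hr, h0, zero_mul])
      have hne0 := mul_ne_zero_iff.mp (show e * (A + e) ≠ 0 by omega)
      rcases eq_of_add_eq_zero hq hq2 hne (x := e) (y := A + e) (z := -(A + 2 * e))
        (mul_ne_zero (mul_ne_zero hne0.1 hne0.2) (neg_ne_zero.mpr hr0)) (by ring)
        (fun p hp hd => hsupp p hp (by
          rw [show B * (A ^ 2 - 4 * B) = e * (A + e) * -(A + 2 * e) * (A + 2 * e) by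
            rw [hr, hB']; ring]
          exact hd.mul_right _))
        (fun ⟨h1, h2⟩ => hqAB ⟨by rw [show A = A + e - e by ring]; exact h2.sub h1,
          by rw [hB']; exact (h1.mul_right _).neg_right⟩) with h | h | h <;>
        exact cube_of_split hc hr (hr ▸ hD) (by omega)
  exact false_of_c₄_cube hΔ hV hk

end FA.CurveCriterion

end
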