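import Fermat.Agent.Root.SummaryFermatAllCoefficients
import Mathlib.NumberTheory.Padics.PadicNumbers

/-!
# A prime at which the variables are units, and powers near one

For bounded coefficients and exponents divisible by one number the ratios `u, v` of a solution of
`A u ^ n + B v ^ n + C = 0` are units at two, or at one auxiliary prime `l`. Such powers are near
one, so expressions in them are near their values at one.
-/

set_option autoImplicit false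

noncomputable section

open Filter Polynomial

namespace FA.CurveCriterion

/-- The ratio of two integers prime to `q` has valuation zero. -/
theorem padicValRat_div_eq_zero {q : ℕ} (hq : q.Prime) {a b : ℤ} (ha : ¬ (q : ℤ) ∣ a)
    (hb : ¬ (q : ℤ) ∣ b) : padicValRat q ((a : ℚ) / b) = 0 := by
  have := Fact.mk hq
  have h0 : ∀ {t : ℤ}, ¬ (q : ℤ) ∣ t → (t : ℚ) ≠ 0 := fun h e =>
    h (by rw [Int.cast_eq_zero.mp e]; exact dvd_zero _)
  rw [padicValRat.div (h0 ha) (h0 hb), padicValRat.of_int, padicValRat.of_int,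
    padicValInt.eq_zero_of_not_dvd ha, padicValInt.eq_zero_of_not_dvd hb]
  simp

/-- **A prime at which the variables are units**: two, or a given large prime `l`. -/
theorem exists_unit_prime_of_large (H : ℕ) {l : ℕ} (hl : l.Prime) (hlH : H + 3 ≤ l) :
    ∃ d : ℕ, d ≠ 0 ∧ ∀ n : ℕ, d ∣ n → n ≠ 0 → ∀ A B C : ℤ,
      A.natAbs ≤ H → B.natAbs ≤ H → C.natAbs ≤ H → A * B * C ≠ 0 →
      ∀ u v : ℚ, u ≠ 0 → v ≠ 0 → (A : ℚ) * u ^ n + B * v ^ n + C = 0 →
      (padicValRat 2 u = 0 ∧ padicValRat 2 v = 0) ∨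
        (padicValRat l u = 0 ∧ padicValRat l v = 0) := by
  classical
  have key : ∀ t : ℤ × ℤ × ℤ, ∃ C₀ : ℕ, t.1 * t.2.1 * t.2.2 ≠ 0 →
      ∀ n p : ℕ, p.Prime → C₀ < p → p ∣ n → n ≠ 0 → ∀ x y z : ℤ, x * y * z ≠ 0 →
      t.1 * x ^ n + t.2.1 * y ^ n + t.2.2 * z ^ n = 0 →
      (∀ r : ℕ, r.Prime → ¬ ((r : ℤ) ∣ x ∧ (r : ℤ) ∣ y ∧ (r : ℤ) ∣ z)) →
      Even x ∨ Even y ∨ Even z →
      ¬ (l : ℤ) ∣ t.1 * t.2.1 * t.2.2 → ¬ (l : ℤ) ∣ x * y * z := fun t => by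
    by_cases h : t.1 * t.2.1 * t.2.2 ≠ 0
    · obtain ⟨C₀, hC⟩ := FA.Summary.fermat_even_variable_no_small_factor h l
      exact ⟨C₀, fun _ n p hp hpC hpn hn x y z a1 a2 a3 a4 a5 =>
        hC n p hp hpC hpn hn x y z a1 a2 a3 a4 l hl le_rfl (by omega) a5⟩
    · exact ⟨0, fun h' => absurd h' h⟩
  choose f hf using key
  set T := (Finset.Icc (-(H : ℤ)) H) ×ˢ (Finset.Icc (-(H : ℤ)) H) ×ˢ (Finset.Icc (-(H : ℤ)) H)
  obtain ⟨p, hpT, hp⟩ := Nat.exists_infinite_primes (T.sup f + 1)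
  refine ⟨p, hp.ne_zero, fun n hpn hn A B C hA hB hC hne u v hu hv heq => ?_⟩
  have hmem : (A, B, C) ∈ T := by
    simp only [T, Finset.mem_product, Finset.mem_Icc]
    omega
  have hCp : f (A, B, C) < p := by
    have := Finset.le_sup (f := f) hmem
    omega
  have hlABC : ¬ (l : ℤ) ∣ A * B * C := fun h => by
    simp only [mul_ne_zero_iff] at hne
    have hlp := Nat.prime_iff_prime_int.mp hl
    rcases hlp.dvd_or_dvd h with h | h
    rcases hlp.dvd_or_dvd h with h | h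
    · have := Nat.le_of_dvd (Int.natAbs_pos.mpr hne.1.1) (Int.natCast_dvd.mp h)
      omega
    · have := Nat.le_of_dvd (Int.natAbs_pos.mpr hne.1.2) (Int.natCast_dvd.mp h)
      omega
    · have := Nat.le_of_dvd (Int.natAbs_pos.mpr hne.2) (Int.natCast_dvd.mp h)
      omega
  set X := u.num * v.den with hX
  set Y := v.num * u.den with hY
  set Z := (u.den : ℤ) * v.den with hZ
  have hden : ∀ q : ℚ, (q.den : ℤ) ≠ 0 := fun q => by exact_mod_cast q.den_nz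
  have hZ0 : Z ≠ 0 := mul_ne_zero (hden u) (hden v)
  set g := Nat.gcd (Nat.gcd X.natAbs Y.natAbs) Z.natAbs with hgdef
  have hg : g ≠ 0 := (Nat.gcd_pos_of_pos_right _ (Int.natAbs_pos.mpr hZ0)).ne'
  obtain ⟨x, hx⟩ : (g : ℤ) ∣ X :=
    Int.natCast_dvd.mpr ((Nat.gcd_dvd_left _ _).trans (Nat.gcd_dvd_left _ _))
  obtain ⟨y, hy⟩ : (g : ℤ) ∣ Y :=
    Int.natCast_dvd.mpr ((Nat.gcd_dvd_left _ _).trans (Nat.gcd_dvd_right _ _))
  obtain ⟨z, hz⟩ : (g : ℤ) ∣ Z := Int.natCast_dvd.mpr (Nat.gcd_dvd_right _ _)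
  have hz0 : z ≠ 0 := fun e => hZ0 (by rw [hz, e, mul_zero])
  have hu' : u = (x : ℚ) / z := by
    rw [← mul_div_mul_left (x : ℚ) z (by exact_mod_cast hg : (g : ℚ) ≠ 0),
      show (g : ℚ) * x = ((X : ℤ) : ℚ) by rw [hx]; push_cast; rfl,
      show (g : ℚ) * z = ((Z : ℤ) : ℚ) by rw [hz]; push_cast; rfl, hX, hZ]
    push_cast
    rw [mul_div_mul_right _ _ (by exact_mod_cast v.den_nz), Rat.num_div_den]
  have hv' : v = (y : ℚ) / z := by
    rw [← mul_div_mul_left (y : ℚ) z (by exact_mod_cast hg : (g : ℚ) ≠ 0),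
      show (g : ℚ) * y = ((Y : ℤ) : ℚ) by rw [hy]; push_cast; rfl,
      show (g : ℚ) * z = ((Z : ℤ) : ℚ) by rw [hz]; push_cast; rfl, hY, hZ]
    push_cast
    rw [mul_comm (u.den : ℚ) v.den, mul_div_mul_right _ _ (by exact_mod_cast u.den_nz),
      Rat.num_div_den]
  have hxyz : x * y * z ≠ 0 := mul_ne_zero (mul_ne_zero
    (fun e => hu (by rw [hu', e, Int.cast_zero, zero_div]))
    (fun e => hv (by rw [hv', e, Int.cast_zero, zero_div]))) hz0
  have hprim : ∀ r : ℕ, r.Prime → ¬ ((r : ℤ) ∣ x ∧ (r : ℤ) ∣ y ∧ (r : ℤ) ∣ z) := by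
    rintro r hr ⟨h1, h2, h3⟩
    have hd : ∀ {t T' : ℤ}, (r : ℤ) ∣ t → T' = g * t → g * r ∣ T'.natAbs := fun h e => by
      rw [e, Int.natAbs_mul, Int.natAbs_natCast]
      exact Nat.mul_dvd_mul_left g (Int.natCast_dvd.mp h)
    have h4 : g * r ∣ g := Nat.dvd_gcd (Nat.dvd_gcd (hd h1 hx) (hd h2 hy)) (hd h3 hz)
    exact hr.not_dvd_one ((Nat.mul_dvd_mul_iff_left (Nat.pos_of_ne_zero hg)).mp (by simpa using h4))
  have h : A * x ^ n + B * y ^ n + C * z ^ n = 0 := by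
    have e : ((A * x ^ n + B * y ^ n + C * z ^ n : ℤ) : ℚ) = 0 := by
      push_cast
      rw [hu', hv', div_pow, div_pow] at heq
      have : (z : ℚ) ^ n ≠ 0 := pow_ne_zero n (by exact_mod_cast hz0)
      field_simp at heq
      linear_combination heq
    exact_mod_cast e
  have hdvd : ∀ {q : ℕ}, ¬ (q : ℤ) ∣ x * y * z → ¬ (q : ℤ) ∣ x ∧ ¬ (q : ℤ) ∣ y ∧ ¬ (q : ℤ) ∣ z :=
    fun h => ⟨fun e => h ((e.mul_right y).mul_right z), fun e => h ((e.mul_left x).mul_right z),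
      fun e => h (e.mul_left _)⟩
  rw [hu', hv']
  by_cases hev : Even x ∨ Even y ∨ Even z
  · obtain ⟨h1, h2, h3⟩ := hdvd (hf (A, B, C) hne n p hp hCp hpn hn x y z hxyz h hprim hev hlABC)
    exact Or.inr ⟨padicValRat_div_eq_zero hl h1 h3, padicValRat_div_eq_zero hl h2 h3⟩
  · simp only [not_or, even_iff_two_dvd] at hev
    exact Or.inl ⟨padicValRat_div_eq_zero Nat.prime_two hev.1 hev.2.2,
      padicValRat_div_eq_zero Nat.prime_two hev.2.1 hev.2.2⟩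

/-- Some prime serves: two, or the auxiliary prime `l`. -/
theorem exists_unit_prime (H : ℕ) :
    ∃ l d : ℕ, l.Prime ∧ d ≠ 0 ∧ ∀ n : ℕ, d ∣ n → n ≠ 0 → ∀ A B C : ℤ,
      A.natAbs ≤ H → B.natAbs ≤ H → C.natAbs ≤ H → A * B * C ≠ 0 →
      ∀ u v : ℚ, u ≠ 0 → v ≠ 0 → (A : ℚ) * u ^ n + B * v ^ n + C = 0 →
      (padicValRat 2 u = 0 ∧ padicValRat 2 v = 0) ∨
        (padicValRat l u = 0 ∧ padicValRat l v = 0) := by
  obtain ⟨l, hlH, hl⟩ := Nat.exists_infinite_primes (H + 3)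
  obtain ⟨d, hd, h⟩ := exists_unit_prime_of_large H hl hlH
  exact ⟨l, d, hl, hd, h⟩

variable {q : ℕ} [hq : Fact q.Prime]

/-- A power of a unit is near one. -/
theorem norm_unit_pow_sub_one_le {z : ℚ} (hz : z ≠ 0) (hv : padicValRat q z = 0) {k n : ℕ}
    (hn : q ^ k * (q - 1) ∣ n) : ‖(z : ℚ_[q]) ^ n - 1‖ ≤ ((q : ℝ)⁻¹) ^ k := by
  have hnot : ¬ (q : ℤ) ∣ z.num ∧ ¬ (q : ℤ) ∣ (z.den : ℤ) := by
    have hco := z.reduced
    rw [padicValRat_def] at hv
    constructor <;> intro h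
    · have h1 : padicValInt q z.num ≠ 0 := fun e => by
        rcases padicValInt.eq_zero_iff.mp e with e | e | e
        · exact hq.out.one_lt.ne' e
        · exact hz (Rat.num_eq_zero.mp e)
        · exact e h
      have h2 : q ∣ z.den := dvd_of_one_le_padicValNat (by omega)
      exact hq.out.not_dvd_one (hco ▸ Nat.dvd_gcd (Int.natCast_dvd.mp h) h2)
    · have h2 : 1 ≤ padicValNat q z.den :=
        one_le_padicValNat_of_dvd z.den_nz (Int.natCast_dvd_natCast.mp h)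
      have h1 : (q : ℤ) ∣ z.num := by
        by_contra hn'
        rw [padicValInt.eq_zero_of_not_dvd hn'] at hv
        omega
      exact hq.out.not_dvd_one (hco ▸ Nat.dvd_gcd (Int.natCast_dvd.mp h1)
        (Int.natCast_dvd_natCast.mp h))
  have hone : ∀ {t : ℤ}, ¬ (q : ℤ) ∣ t → (t : ZMod (q ^ (k + 1))) ^ n = 1 := fun {t} ht => by
    obtain ⟨j, rfl⟩ := hn
    obtain ⟨w, hw⟩ := (ZMod.coe_int_isUnit_iff_isCoprime t (q ^ (k + 1))).mpr (by
      push_cast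
      exact (Prime.coprime_iff_not_dvd (Nat.prime_iff_prime_int.mp hq.out)).mpr ht |>.pow_left)
    rw [← hw, pow_mul, ← Nat.totient_prime_pow_succ hq.out, ← Units.val_pow_eq_pow_val,
      ZMod.pow_totient, Units.val_one, one_pow]
  have hd : (q : ℤ) ^ k ∣ z.num ^ n - (z.den : ℤ) ^ n := by
    refine (pow_dvd_pow _ (Nat.le_succ k)).trans ?_
    have e : ((z.num ^ n - (z.den : ℤ) ^ n : ℤ) : ZMod (q ^ (k + 1))) = 0 := by
      rw [Int.cast_sub, Int.cast_pow, Int.cast_pow, hone hnot.1, hone hnot.2, sub_self]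
    have := (ZMod.intCast_zmod_eq_zero_iff_dvd _ _).mp e
    push_cast at this
    exact this
  have hb : ‖((z.den : ℤ) : ℚ_[q])‖ = 1 := Padic.norm_intCast_eq_one_iff.mpr
    ((Prime.coprime_iff_not_dvd (Nat.prime_iff_prime_int.mp hq.out)).mpr hnot.2).symm
  have hb0 : ((z.den : ℤ) : ℚ_[q]) ≠ 0 := fun e => zero_ne_one (norm_zero.symm.trans (e ▸ hb))
  rw [show (z : ℚ_[q]) = ((z.num : ℚ_[q])) / ((z.den : ℤ) : ℚ_[q]) by
      rw [Int.cast_natCast, ← Rat.cast_intCast, ← Rat.cast_natCast, ← Rat.cast_div,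
        Rat.num_div_den],
    div_pow, div_sub_one (pow_ne_zero n hb0), norm_div, norm_pow, hb, one_pow, div_one,
    ← Int.cast_pow, ← Int.cast_pow, ← Int.cast_sub, inv_pow, ← zpow_natCast, ← zpow_neg]
  exact (Padic.norm_int_le_pow_iff_dvd _ k).mpr (by exact_mod_cast hd)

/-- Small powers are eventually below any positive bound. -/
theorem eventually_mul_inv_pow_lt (s : ℝ) {γ : ℝ} (hγ : 0 < γ) :
    ∀ᶠ k : ℕ in atTop, s * ((q : ℝ)⁻¹) ^ k < γ := by
  have h : Tendsto (fun k : ℕ => s * ((q : ℝ)⁻¹) ^ k) atTop (nhds 0) := by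
    simpa using (tendsto_pow_atTop_nhds_zero_of_lt_one (by positivity)
      (inv_lt_one_of_one_lt₀ (by exact_mod_cast hq.out.one_lt))).const_mul s
  exact h.eventually_lt_const hγ

/-- **The gap**: `r + a u ^ n = r' + a' v ^ n` at units forces `r + a = r' + a'`. -/
theorem eventually_gap (r a r' a' : ℚ) :
    ∀ᶠ k : ℕ in atTop, ∀ n : ℕ, q ^ k * (q - 1) ∣ n → ∀ u v : ℚ, u ≠ 0 → v ≠ 0 →
      padicValRat q u = 0 → padicValRat q v = 0 →
      r + a * u ^ n = r' + a' * v ^ n → r + a = r' + a' := by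
  rcases eq_or_ne (r + a) (r' + a') with e | e
  · exact Eventually.of_forall fun k n _ u v _ _ _ _ _ => e
  set γ : ℚ_[q] := ((r + a - (r' + a') : ℚ) : ℚ_[q]) with hγ
  have hγ0 : 0 < ‖γ‖ := norm_pos_iff.mpr (by
    rw [hγ]; exact_mod_cast sub_ne_zero.mpr e)
  filter_upwards [eventually_mul_inv_pow_lt (q := q) (‖(a' : ℚ_[q])‖ + ‖(a : ℚ_[q])‖) hγ0]
    with k hk n hn u v hu hv hu0 hv0 heq
  refine absurd hk (not_lt.mpr ?_)
  have he : γ = (a' : ℚ_[q]) * ((v : ℚ_[q]) ^ n - 1) - a * ((u : ℚ_[q]) ^ n - 1) := by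
    have h := congrArg (Rat.cast : ℚ → ℚ_[q]) heq
    rw [hγ]
    push_cast at h ⊢
    linear_combination h
  rw [he, add_mul]
  refine (norm_sub_le _ _).trans (add_le_add ?_ ?_) <;> rw [norm_mul]
  · exact mul_le_mul_of_nonneg_left (norm_unit_pow_sub_one_le hv hv0 hn) (norm_nonneg _)
  · exact mul_le_mul_of_nonneg_left (norm_unit_pow_sub_one_le hu hu0 hn) (norm_nonneg _)

/-- `r + a u ^ n` is eventually near `r + a`. -/
theorem eventually_near (r a : ℚ) {ε : ℚ} (hε : 0 < ε) :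
    ∀ᶠ k : ℕ in atTop, ∀ n : ℕ, q ^ k * (q - 1) ∣ n → ∀ u : ℚ, u ≠ 0 → padicValRat q u = 0 →
      padicNorm q (r + a * u ^ n - (r + a)) < ε := by
  filter_upwards [eventually_mul_inv_pow_lt (q := q) ‖(a : ℚ_[q])‖
    (Rat.cast_pos.mpr hε : (0 : ℝ) < ε)] with k hk n hn u hu hu0
  rw [← Rat.cast_lt (K := ℝ), ← Padic.eq_padicNorm]
  push_cast
  rw [show (r : ℚ_[q]) + a * (u : ℚ_[q]) ^ n - (r + a) = a * ((u : ℚ_[q]) ^ n - 1) by ring,
    norm_mul]
  exact lt_of_le_of_lt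
    (mul_le_mul_of_nonneg_left (norm_unit_pow_sub_one_le hu hu0 hn) (norm_nonneg _)) hk

/-- **The value**: near `t = r + a` the ratio `P / Q` is no `c y ^ n` unless `t` is a zero or
pole or its value is `c`. -/
theorem eventually_value (P Q : ℚ[X]) (r a : ℚ) {c : ℚ} (hc : c ≠ 0) (hP0 : P.eval (r + a) ≠ 0)
    (hQ0 : Q.eval (r + a) ≠ 0) (hv : P.eval (r + a) ≠ c * Q.eval (r + a)) :
    ∀ᶠ k : ℕ in atTop, ∀ n : ℕ, q ^ k * (q - 1) ∣ n → n ≠ 0 → ∀ u y : ℚ, u ≠ 0 → y ≠ 0 →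
      padicValRat q u = 0 → P.eval (r + a * u ^ n) ≠ c * y ^ n * Q.eval (r + a * u ^ n) := by
  set φ : ℚ_[q] → ℚ_[q] := fun z => (P.map (Rat.castHom ℚ_[q])).eval ((r : ℚ_[q]) + a * z) /
    (Q.map (Rat.castHom ℚ_[q])).eval ((r : ℚ_[q]) + a * z)
  have hev : ∀ (g : ℚ[X]) (z : ℚ), (g.map (Rat.castHom ℚ_[q])).eval ((r : ℚ_[q]) + a * z) =
      ((g.eval (r + a * z) : ℚ) : ℚ_[q]) := fun g z => by
    rw [eval_map, show (r : ℚ_[q]) + a * z = Rat.castHom ℚ_[q] (r + a * z) by simp, eval₂_at_apply]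
    rfl
  have hφ : ∀ z : ℚ, φ z = ((P.eval (r + a * z) / Q.eval (r + a * z) : ℚ) : ℚ_[q]) := fun z => by
    simp only [φ, hev, Rat.cast_div]
  have h0 : P.eval (r + a) / Q.eval (r + a) ≠ 0 := div_ne_zero hP0 hQ0
  set F : ℚ_[q] := ((P.eval (r + a) / Q.eval (r + a) : ℚ) : ℚ_[q]) with hF
  have hF1 : φ 1 = F := by
    rw [show (1 : ℚ_[q]) = ((1 : ℚ) : ℚ_[q]) by simp, hφ, mul_one]
  set γ := min ‖F‖ ‖F - (c : ℚ_[q])‖
  have hγ : 0 < γ := lt_min (norm_pos_iff.mpr (by rw [hF]; exact_mod_cast h0))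
    (norm_pos_iff.mpr (sub_ne_zero.mpr (by
      rw [hF, ne_eq, Rat.cast_inj, div_eq_iff hQ0]
      exact hv)))
  have hpoly : ∀ g : ℚ[X], ContinuousAt
      (fun z : ℚ_[q] => (g.map (Rat.castHom ℚ_[q])).eval ((r : ℚ_[q]) + a * z)) 1 := fun g =>
    ((g.map (Rat.castHom ℚ_[q])).continuous.comp (by fun_prop)).continuousAt
  have hcont : ContinuousAt φ 1 := (hpoly P).div (hpoly Q) (by
    rw [show (1 : ℚ_[q]) = ((1 : ℚ) : ℚ_[q]) by simp, hev, mul_one]
    exact_mod_cast hQ0)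
  obtain ⟨δ, hδ, hnear⟩ := Metric.continuousAt_iff.mp hcont γ hγ
  filter_upwards [eventually_mul_inv_pow_lt (q := q) 1 hδ,
    eventually_mul_inv_pow_lt (q := q) ‖(c : ℚ_[q])‖ hγ,
    eventually_gt_atTop
      (padicValRat q (P.eval (r + a) / Q.eval (r + a)) - padicValRat q c).natAbs]
    with k hk1 hk2 hk3 n hn hn0 u y hu hy hu0 heq
  have hz : ‖φ ((u : ℚ_[q]) ^ n) - F‖ < γ := by
    rw [← hF1, ← dist_eq_norm]
    refine hnear ?_
    rw [dist_eq_norm]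
    exact lt_of_le_of_lt (norm_unit_pow_sub_one_le hu hu0 hn) (by simpa using hk1)
  have hQx : Q.eval (r + a * u ^ n) ≠ 0 := fun e => by
    rw [← Rat.cast_pow, hφ, e, div_zero, Rat.cast_zero, zero_sub, norm_neg] at hz
    exact absurd hz (not_lt.mpr (min_le_left _ _))
  rw [show φ ((u : ℚ_[q]) ^ n) = ((c * y ^ n : ℚ) : ℚ_[q]) by
    rw [← Rat.cast_pow, hφ, heq, mul_div_cancel_right₀ _ hQx]] at hz
  have hnorm : ‖((c * y ^ n : ℚ) : ℚ_[q])‖ = ‖F‖ := by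
    have h := hz.trans_le (min_le_left _ _)
    by_contra hne
    have h' := Padic.add_eq_max_of_ne (q := ((c * y ^ n : ℚ) : ℚ_[q])) (r := -F) (by
      rwa [norm_neg])
    rw [← sub_eq_add_neg, norm_neg] at h'
    exact absurd (h' ▸ h) (not_lt.mpr (le_max_right _ _))
  have hcy : c * y ^ n ≠ 0 := mul_ne_zero hc (pow_ne_zero n hy)
  have hyv : padicValRat q y = 0 := by
    rw [hF, Padic.eq_padicNorm, Padic.eq_padicNorm, Rat.cast_inj, padicNorm.eq_zpow_of_nonzero hcy,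
      padicNorm.eq_zpow_of_nonzero h0,
      zpow_right_inj₀ (by exact_mod_cast hq.out.pos) (by exact_mod_cast hq.out.one_lt.ne'), neg_inj,
      padicValRat.mul hc (pow_ne_zero n hy), padicValRat.pow] at hnorm
    have hkn : k ≤ n := ((k.lt_pow_self hq.out.one_lt).le.trans
      (Nat.le_mul_of_pos_right _ (Nat.sub_pos_of_lt hq.out.one_lt))).trans
        (Nat.le_of_dvd (Nat.pos_of_ne_zero hn0) hn)
    by_contra hne
    have h1 : n ≤ ((n : ℤ) * padicValRat q y).natAbs := by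
      rw [Int.natAbs_mul, Int.natAbs_natCast]
      exact Nat.le_mul_of_pos_right n (Int.natAbs_pos.mpr hne)
    rw [show (n : ℤ) * padicValRat q y =
      padicValRat q (P.eval (r + a) / Q.eval (r + a)) - padicValRat q c by linarith] at h1
    omega
  have h2 : ‖((c * y ^ n : ℚ) : ℚ_[q]) - c‖ < γ := by
    push_cast
    rw [show (c : ℚ_[q]) * (y : ℚ_[q]) ^ n - c = c * ((y : ℚ_[q]) ^ n - 1) by ring, norm_mul]
    exact lt_of_le_of_lt
      (mul_le_mul_of_nonneg_left (norm_unit_pow_sub_one_le hy hyv hn) (norm_nonneg _)) hk2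
  refine absurd (min_le_right ‖F‖ ‖F - (c : ℚ_[q])‖) (not_le.mpr ?_)
  rw [← dist_eq_norm] at hz h2 ⊢
  exact lt_of_le_of_lt (dist_triangle_max _ _ _) (max_lt (by rwa [dist_comm] at hz) h2)

end FA.CurveCriterion

end
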